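/-
DELTA / WIRE (helper4), part 8: **push-forward of divisor classes** along a homomorphism of function
fields, its Galois equivariance and its effect on Kummer classes (`[div(y)/m] ↦ [div(N y)/m]`);
the two degeneracy push-forwards `J₀(M e) → J₀(M)`.
-/
import Mathlib
import Fermat.Agent.Lib.T3.Pull.Final
import Fermat.Agent.Lib.Alpha.Fin.Open
import Fermat.Prelude.Thm_ModularCurve_coeffMap_qExpand

set_option autoImplicit false
set_option linter.unusedSectionVars false
set_option linter.unusedVariables false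
set_option linter.style.haveILetI false

namespace Fermat.Agent.Delta

open AlgebraicCurve ModularCurve Fermat.Agent.Curve Fermat.Agent.T1 Fermat.Agent.T3
  Fermat.Agent.Alpha

local notation "Qb" => AlgebraicClosure ℚ
local notation "GQ" => (AlgebraicClosure ℚ ≃ₐ[ℚ] AlgebraicClosure ℚ)

section General

variable {K F F' : Type*} [Field K] [Field F] [Field F'] [Algebra K F] [Algebra K F']

section Def

variable (φ : F →ₐ[K] F') (hφ : φ.toRingHom.IsIntegral) (hfin : FiniteAlong K φ)
  (hN : NormFormulaAlong K φ hfin)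

/-- the push-forward on divisors of degree zero -/
noncomputable def dlwPushDegZero :
    Divisor.degZero (K := K) (F := F') →+ Divisor.degZero (K := K) (F := F) :=
  ((Divisor.pushforwardAlong φ hφ).domRestrict (Divisor.degZero (K := K) (F := F'))).codRestrict _
    (fun D => Divisor.pushforwardAlong_mem_degZero φ hφ D.2)

/-- **the push-forward of divisor classes of degree zero** -/
noncomputable def dlwPushAlong : Pic0 K F' →+ Pic0 K F :=
  QuotientAddGroup.map _ _ (dlwPushDegZero φ hφ) (by
    rintro ⟨D, hD0⟩ hD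
    simp only [AddSubgroup.mem_addSubgroupOf] at hD ⊢
    exact Divisor.isPrincipal_pushforwardAlong φ hφ hfin hN hD)

theorem dlwPushAlong_mk (D : Divisor.degZero (K := K) (F := F')) :
    dlwPushAlong φ hφ hfin hN (Pic0.mk D)
      = Pic0.mk ⟨Divisor.pushforwardAlong φ hφ (D : Divisor K F'),
          Divisor.pushforwardAlong_mem_degZero φ hφ D.2⟩ :=
  rfl

end Def

section Galois

variable (φ : F →ₐ[K] F') (hφ : φ.toRingHom.IsIntegral)
  {g : SemilinearAut K F} {g' : SemilinearAut K F'}

/-- push-forward of divisors commutes with intertwined semilinear automorphisms (all residue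
degrees being one) -/
theorem dlw_pushforwardAlong_smul (h : SemilinearAut.IntertwinesAlong φ.toRingHom g g')
    (hf : ∀ w : Place K F', w.inertiaDegAlong φ hφ = 1) (D : Divisor K F') :
    Divisor.pushforwardAlong φ hφ (g' • D) = g • Divisor.pushforwardAlong φ hφ D := by
  classical
  have key : (Divisor.pushforwardAlong φ hφ).comp
      (DistribMulAction.toAddMonoidHom (Divisor K F') g')
      = (DistribMulAction.toAddMonoidHom (Divisor K F) g).comp (Divisor.pushforwardAlong φ hφ) := by
    apply Finsupp.addHom_ext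
    intro w n
    show Divisor.pushforwardAlong φ hφ (g' • (Finsupp.single w n : Divisor K F'))
      = g • Divisor.pushforwardAlong φ hφ (Finsupp.single w n : Divisor K F')
    rw [SemilinearAut.smul_single, Divisor.pushforwardAlong_single,
      Divisor.pushforwardAlong_single, SemilinearAut.smul_single,
      t3p_restrictAlong_smul φ hφ h, hf, hf]
  exact DFunLike.congr_fun key D

variable (hfin : FiniteAlong K φ) (hN : NormFormulaAlong K φ hfin)

/-- the push-forward on `Pic⁰` commutes with intertwined semilinear automorphisms -/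
theorem dlwPushAlong_smul (h : SemilinearAut.IntertwinesAlong φ.toRingHom g g')
    (hf : ∀ w : Place K F', w.inertiaDegAlong φ hφ = 1) (x : Pic0 K F') :
    dlwPushAlong φ hφ hfin hN (g' • x) = g • dlwPushAlong φ hφ hfin hN x := by
  obtain ⟨D, rfl⟩ := Pic0.mk_surjective x
  rw [SemilinearAut.pic0_smul_mk, dlwPushAlong_mk, dlwPushAlong_mk, SemilinearAut.pic0_smul_mk]
  apply congrArg Pic0.mk
  apply Subtype.ext
  show Divisor.pushforwardAlong φ hφ (g' • (D : Divisor K F'))
    = g • Divisor.pushforwardAlong φ hφ (D : Divisor K F')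
  exact dlw_pushforwardAlong_smul φ hφ h hf _

end Galois

section Kummer

variable [HasPrincipalDivisors K F] [HasPrincipalDivisors K F']
  (φ : F →ₐ[K] F') (hφ : φ.toRingHom.IsIntegral) (hfin : FiniteAlong K φ)
  (hN : NormFormulaAlong K φ hfin)

include hfin in
theorem dlw_normAlong_ne_zero {y : F'} (hy : y ≠ 0) : t3pNormAlong φ y ≠ 0 := by
  letI := algebraAlong φ
  haveI : Module.Finite F F' := hfin
  exact (Algebra.norm_ne_zero_iff).mpr hy

/-- the norm along `φ`, on units -/
noncomputable def dlwNormUnit (y : F'ˣ) : Fˣ :=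
  Units.mk0 (t3pNormAlong φ (y : F')) (dlw_normAlong_ne_zero φ hfin y.ne_zero)

theorem coe_dlwNormUnit (y : F'ˣ) :
    ((dlwNormUnit φ hfin y : Fˣ) : F) = t3pNormAlong φ (y : F') := rfl

include hφ hN in
/-- `φ_* (div(y)/m) = div(N y)/m` -/
theorem dlw_push_divQuot {m : ℕ} (hm : m ≠ 0) (y : F'ˣ)
    (hy : ∀ v : Place K F', (m : ℤ) ∣ v.ord (y : F')) (v : Place K F) :
    (m : ℤ) * Divisor.pushforwardAlong φ hφ (alpfDivQuot (K := K) m y) v
      = v.ord (t3pNormAlong φ (y : F')) := by
  have h1 : Divisor.pushforwardAlong φ hφ ((m : ℤ) • alpfDivQuot (K := K) m y) v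
      = v.ord (t3pNormAlong φ (y : F')) := by
    refine t3p_pushforwardAlong_eq_ord_norm φ hφ hfin hN y.ne_zero (fun w => ?_) v
    rw [alpf_smul_divQuot hy, alpfDiv_apply]
  rw [map_zsmul, Finsupp.smul_apply, smul_eq_mul] at h1
  exact h1

include hφ hN in
theorem dlw_dvd_ord_norm {m : ℕ} (hm : m ≠ 0) (y : F'ˣ)
    (hy : ∀ v : Place K F', (m : ℤ) ∣ v.ord (y : F')) (v : Place K F) :
    (m : ℤ) ∣ v.ord ((dlwNormUnit φ hfin y : Fˣ) : F) :=
  ⟨_, (dlw_push_divQuot φ hφ hfin hN hm y hy v).symm⟩

/-- **the push-forward of a Kummer class is the Kummer class of the norm** -/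
theorem dlwPushAlong_class {m : ℕ} (hm : m ≠ 0) (y : F'ˣ)
    (hy : ∀ v : Place K F', (m : ℤ) ∣ v.ord (y : F')) :
    dlwPushAlong φ hφ hfin hN (alpfClass hm y hy)
      = alpfClass hm (dlwNormUnit φ hfin y) (dlw_dvd_ord_norm φ hφ hfin hN hm y hy) := by
  unfold alpfClass
  rw [dlwPushAlong_mk]
  apply congrArg Pic0.mk
  apply Subtype.ext
  ext v
  show Divisor.pushforwardAlong φ hφ (alpfDivQuot (K := K) m y) v
    = alpfDivQuot (K := K) m (dlwNormUnit φ hfin y) v
  rw [alpfDivQuot_apply, coe_dlwNormUnit, ← dlw_push_divQuot φ hφ hfin hN hm y hy v]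
  exact (Int.mul_ediv_cancel_left _ (by exact_mod_cast hm)).symm

end Kummer

end General

section Modular

variable (M e : ℕ) [NeZero M] [NeZero e]

/-- **the push-forward `J₀(M e) → J₀(M)` along the degeneracy map `α` (`q ↦ q`)** -/
noncomputable def dlwPushA : JZero (M * e) →+ JZero M :=
  dlwPushAlong (heckeAlphaBar Qb M e) (t3h_alphaIntegral M e) (t3h_alphaFinite M e)
    (t3h_alphaNorm M e)

/-- **the push-forward `J₀(M e) → J₀(M)` along the degeneracy map `β` (`q ↦ q ^ e`)** -/
noncomputable def dlwPushB : JZero (M * e) →+ JZero M :=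
  dlwPushAlong (heckeBetaBar Qb M e) (t3h_betaIntegral M e) (t3h_betaFinite M e)
    (t3h_betaNorm M e)

/-- `β` intertwines the arithmetic Galois actions -/
theorem dlw_beta_intertwines (σ : GQ) :
    SemilinearAut.IntertwinesAlong (heckeBetaBar Qb M e).toRingHom
      (arithmeticGalois (modularFunctionFieldFull M) σ)
      (arithmeticGalois (modularFunctionFieldFull (M * e)) σ) := by
  intro y
  apply Subtype.ext
  rw [coe_arithmeticGalois_smul]
  show _ = ((heckeBetaBar Qb M e (arithmeticGalois (modularFunctionFieldFull M) σ • y) :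
    ↥(modularFunctionFieldBar (M * e))) : LaurentSeries Qb)
  rw [coe_heckeBetaBar, coe_arithmeticGalois_smul]
  show coeffMap _ ((heckeBetaBar Qb M e y : ↥(modularFunctionFieldBar (M * e))) :
    LaurentSeries Qb) = _
  rw [coe_heckeBetaBar]
  exact ModularCurve.coeffMap_qExpand _ _ _

theorem dlwPushA_galois (σ : GQ) (x : JZero (M * e)) :
    dlwPushA M e (σ • x) = σ • dlwPushA M e x := by
  rw [galois_smul_pic0_def, galois_smul_pic0_def]
  exact dlwPushAlong_smul _ _ _ _ (t3p_intertwines M e σ)
    (fun w => t3h_inertiaDegAlong_eq_one (t3h_gen (M * e)) _ _ w) x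

theorem dlwPushB_galois (σ : GQ) (x : JZero (M * e)) :
    dlwPushB M e (σ • x) = σ • dlwPushB M e x := by
  rw [galois_smul_pic0_def, galois_smul_pic0_def]
  exact dlwPushAlong_smul _ _ _ _ (dlw_beta_intertwines M e σ)
    (fun w => t3h_inertiaDegAlong_eq_one (t3h_gen (M * e)) _ _ w) x

end Modular

end Fermat.Agent.Delta
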