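/-
DELTA / WIRE (helper4), part 12: **base change for the degeneracy push-forwards**:
for `ℓ ∤ N e` prime, the norms `N_α, N_β : F_{Nℓ} → F_N` commute with the change of level
`N → N e` (via helper7's `q`-expansion formula `t3k_norm_expand` for the norm of an arbitrary
function, and the compatibility of the Atkin–Lehner involution `w_ℓ` with the level), hence
`α'_* ∘ π'^* = π^* ∘ α_*` on divisors and on `J₀`.
-/
import Mathlib
import Fermat.Agent.Lib.T3.Pull.Final
import Fermat.Agent.Lib.Delta.Wire.Push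

set_option autoImplicit false
set_option linter.unusedSectionVars false
set_option linter.unusedVariables false
set_option linter.style.haveILetI false

namespace Fermat.Agent.Delta

open AlgebraicCurve ModularCurve Fermat.Agent.Curve Fermat.Agent.T1 Fermat.Agent.T3
  Fermat.Agent.Alpha Fermat.Agent.T2 HahnSeries Fermat.Agent.S24Lib Fermat.Agent.T1.KMod

local notation "Qb" => AlgebraicClosure ℚ
local notation "GQ" => (AlgebraicClosure ℚ ≃ₐ[ℚ] AlgebraicClosure ℚ)

section Functions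

variable (N e ℓ : ℕ) [NeZero N] [NeZero e] [hℓ : Fact ℓ.Prime]

theorem dlw_incl_jd {d : ℕ} (hd : d ∣ N * ℓ) (hd' : d ∣ N * e * ℓ) :
    t3pIncl N e ℓ (t2wJd Qb (N * ℓ) d hd) = t2wJd Qb (N * e * ℓ) d hd' := by
  haveI : NeZero d := t2w_neZero_of_dvd (N * ℓ) hd
  apply Subtype.ext
  rw [coe_t3pIncl, coe_t2wJd, coe_t2wJd]

/-- **`w_ℓ` at the level `N e ℓ` restricts to `w_ℓ` at the level `N ℓ`** -/
theorem dlw_w_incl (h : ¬ ℓ ∣ N) (h' : ¬ ℓ ∣ N * e) (x : ↥(modularFunctionFieldBar (N * ℓ))) :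
    t2w Qb (N * e) ℓ h' (t3pIncl N e ℓ x) = t3pIncl N e ℓ (t2w Qb N ℓ h x) := by
  have key : ((t2w Qb (N * e) ℓ h' : ↥(modularFunctionFieldBar (N * e * ℓ)) ≃ₐ[Qb]
        ↥(modularFunctionFieldBar (N * e * ℓ))) :
        ↥(modularFunctionFieldBar (N * e * ℓ)) →+* ↥(modularFunctionFieldBar (N * e * ℓ))).comp
        ((t3pIncl N e ℓ : ↥(modularFunctionFieldBar (N * ℓ)) →ₐ[Qb]
          ↥(modularFunctionFieldBar (N * e * ℓ))) :
          ↥(modularFunctionFieldBar (N * ℓ)) →+* ↥(modularFunctionFieldBar (N * e * ℓ)))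
      = ((t3pIncl N e ℓ : ↥(modularFunctionFieldBar (N * ℓ)) →ₐ[Qb]
          ↥(modularFunctionFieldBar (N * e * ℓ))) :
          ↥(modularFunctionFieldBar (N * ℓ)) →+* ↥(modularFunctionFieldBar (N * e * ℓ))).comp
        ((t2w Qb N ℓ h : ↥(modularFunctionFieldBar (N * ℓ)) ≃ₐ[Qb]
          ↥(modularFunctionFieldBar (N * ℓ))) :
          ↥(modularFunctionFieldBar (N * ℓ)) →+* ↥(modularFunctionFieldBar (N * ℓ))) := by
    apply t2w_ringHom_ext
    · intro c
      simp
    · intro D hD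
      rcases t2w_dvd_cases N ℓ hℓ.out hD with hd | ⟨d', hd', rfl⟩
      · have hde : D ∣ N * e := hd.mul_right e
        show t2w Qb (N * e) ℓ h' (t3pIncl N e ℓ (t2wJd Qb (N * ℓ) D hD))
          = t3pIncl N e ℓ (t2w Qb N ℓ h (t2wJd Qb (N * ℓ) D hD))
        rw [dlw_incl_jd N e ℓ hD (t2w_dvd₁ (N * e) ℓ hde), t2w_jd₁ Qb (N * e) ℓ h' hde,
          t2w_jd₁ Qb N ℓ h hd, dlw_incl_jd N e ℓ (t2w_dvd₂ N ℓ hd) (t2w_dvd₂ (N * e) ℓ hde)]
      · have hde : d' ∣ N * e := hd'.mul_right e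
        show t2w Qb (N * e) ℓ h' (t3pIncl N e ℓ (t2wJd Qb (N * ℓ) (ℓ * d') hD))
          = t3pIncl N e ℓ (t2w Qb N ℓ h (t2wJd Qb (N * ℓ) (ℓ * d') hD))
        rw [dlw_incl_jd N e ℓ hD (t2w_dvd₂ (N * e) ℓ hde), t2w_jd₂ Qb (N * e) ℓ h' hde,
          t2w_jd₂ Qb N ℓ h hd', dlw_incl_jd N e ℓ (t2w_dvd₁ N ℓ hd') (t2w_dvd₁ (N * e) ℓ hde)]
  exact RingHom.congr_fun key x

/-- **base change for the norm `N_α`**: `N_{F_{Neℓ}/F_{Ne}} f = N_{F_{Nℓ}/F_N} f` for
`f ∈ F_{Nℓ}` -/
theorem dlw_norm_alpha_incl (h : ¬ ℓ ∣ N) (h' : ¬ ℓ ∣ N * e)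
    (f : ↥(modularFunctionFieldBar (N * ℓ))) :
    heckeAlphaBar Qb N e (t3pNormAlong (heckeAlphaBar Qb N ℓ) f)
      = t3pNormAlong (heckeAlphaBar Qb (N * e) ℓ) (t3pIncl N e ℓ f) := by
  obtain ⟨ζ, hζ, -⟩ := tkr_exists_zeta ℓ
  apply t3kBase_injective (N * e) ℓ
  have h1 : t3kBase (N * e) ℓ (heckeAlphaBar Qb N e (t3pNormAlong (heckeAlphaBar Qb N ℓ) f))
      = t3kBase N ℓ (t3pNormAlong (heckeAlphaBar Qb N ℓ) f) := by
    rw [t3kBase_apply, t3kBase_apply, coe_heckeAlphaBar]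
  rw [h1]
  unfold t3pNormAlong
  rw [t3k_norm_expand N ℓ h hζ, t3k_norm_expand (N * e) ℓ h' hζ]
  have h2 : t3kInf (N * e) ℓ (t3pIncl N e ℓ f) = t3kInf N ℓ f := by
    rw [t3kInf_apply, t3kInf_apply, coe_t3pIncl]
  rw [h2]
  congr 1
  refine Finset.prod_congr rfl fun b _ => ?_
  rw [t3kTw_apply, t3kTw_apply, dlw_w_incl N e ℓ h h', coe_t3pIncl]

/-- **base change for the norm `N_β`** -/
theorem dlw_norm_beta_incl (h : ¬ ℓ ∣ N) (h' : ¬ ℓ ∣ N * e)
    (f : ↥(modularFunctionFieldBar (N * ℓ))) :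
    heckeAlphaBar Qb N e (t3pNormAlong (heckeBetaBar Qb N ℓ) f)
      = t3pNormAlong (heckeBetaBar Qb (N * e) ℓ) (t3pIncl N e ℓ f) := by
  have h1 : t3pNormAlong (heckeBetaBar Qb N ℓ) f
      = t3pNormAlong (heckeAlphaBar Qb N ℓ) (t2w Qb N ℓ h f) := t3k_norm_beta_eq N ℓ h f
  have h2 : t3pNormAlong (heckeBetaBar Qb (N * e) ℓ) (t3pIncl N e ℓ f)
      = t3pNormAlong (heckeAlphaBar Qb (N * e) ℓ) (t2w Qb (N * e) ℓ h' (t3pIncl N e ℓ f)) :=
    t3k_norm_beta_eq (N * e) ℓ h' _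
  rw [h1, h2, dlw_w_incl N e ℓ h h', dlw_norm_alpha_incl N e ℓ h h']

end Functions

section General

variable {K A B A' B' : Type*} [Field K] [Field A] [Field B] [Field A'] [Field B']
  [Algebra K A] [Algebra K B] [Algebra K A'] [Algebra K B'] [CharZero K] [IsAlgClosed K]
  [HasPrincipalDivisors K B] [HasPrincipalDivisors K A'] [HasPrincipalDivisors K B']

/-- **base change**: `π^* ∘ α_* = α'_* ∘ π'^*` on divisors, for a commutative square of function
fields with compatible norms -/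
theorem dlw_pull_push {b : B} (hb : IsFunctionFieldGen K B b)
    (α : A →ₐ[K] B) (α' : A' →ₐ[K] B') (π : A →ₐ[K] A') (π' : B →ₐ[K] B')
    (hsq : π'.comp α = α'.comp π)
    (hα : α.toRingHom.IsIntegral) (hα' : α'.toRingHom.IsIntegral)
    (hπ : π.toRingHom.IsIntegral) (hπ' : π'.toRingHom.IsIntegral)
    (hfinα : FiniteAlong K α) (hNα : NormFormulaAlong K α hfinα)
    (hfinα' : FiniteAlong K α') (hNα' : NormFormulaAlong K α' hfinα')
    (hnorm : ∀ f : B, f ≠ 0 → π (t3pNormAlong α f) = t3pNormAlong α' (π' f))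
    (D : Divisor K B) :
    Divisor.pullbackAlong π hπ (Divisor.pushforwardAlong α hα D)
      = Divisor.pushforwardAlong α' hα' (Divisor.pullbackAlong π' hπ' D) := by
  classical
  set L : Divisor K B →+ Divisor K A' :=
    (Divisor.pullbackAlong π hπ).comp (Divisor.pushforwardAlong α hα)
      - (Divisor.pushforwardAlong α' hα').comp (Divisor.pullbackAlong π' hπ') with hL
  have hLapp : ∀ D : Divisor K B, L D
      = Divisor.pullbackAlong π hπ (Divisor.pushforwardAlong α hα D)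
        - Divisor.pushforwardAlong α' hα' (Divisor.pullbackAlong π' hπ' D) := fun D => rfl
  suffices h : L = 0 by
    have := hLapp D
    rw [h, AddMonoidHom.zero_apply] at this
    exact (sub_eq_zero.mp this.symm)
  refine t3p_eq_zero_of_local hb L
    (fun P w => P.restrictAlong α hα = w.restrictAlong π hπ) ?_ ?_ ?_
  · -- supports
    intro P n w hne
    rw [hLapp, Finsupp.sub_apply] at hne
    have hor : Divisor.pullbackAlong π hπ
          (Divisor.pushforwardAlong α hα (Finsupp.single P n)) w ≠ 0 ∨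
        Divisor.pushforwardAlong α' hα'
          (Divisor.pullbackAlong π' hπ' (Finsupp.single P n)) w ≠ 0 := by
      by_contra hcon
      push Not at hcon
      rw [hcon.1, hcon.2, sub_zero] at hne
      exact hne rfl
    rcases hor with h1 | h2
    · have h1' := t3p_of_pullbackAlong_ne_zero π hπ _ w h1
      obtain ⟨W, hW, hWv⟩ := t3p_exists_of_pushforwardAlong_ne_zero α hα _ _ h1'
      have hWP : W = P := by
        by_contra hne'
        exact hW (Finsupp.single_eq_of_ne hne')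
      rw [← hWP]
      exact hWv
    · obtain ⟨W', hW', hW'w⟩ := t3p_exists_of_pushforwardAlong_ne_zero α' hα' _ _ h2
      have h3 := t3p_of_pullbackAlong_ne_zero π' hπ' _ W' hW'
      have h5 : W'.restrictAlong π' hπ' = P := by
        by_contra hne'
        exact h3 (Finsupp.single_eq_of_ne hne')
      rw [← h5, t3p_restrictAlong_square α π' π α' hsq hα hπ' hπ hα', hW'w]
  · -- finiteness
    intro P
    refine ⟨Place.fiberAlong α hα (P.restrictAlong α hα), ?_⟩
    intro Q w hQ hP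
    exact Place.mem_fiberAlong.mpr (hQ.trans hP.symm)
  · -- principal divisors
    rintro D ⟨f, hf, hD⟩
    rw [hLapp, sub_eq_zero]
    have hπf : π' f ≠ 0 := by
      rw [ne_eq, map_eq_zero]; exact hf
    ext w
    have h1 : ∀ v : Place K A, Divisor.pushforwardAlong α hα D v
        = v.ord (t3pNormAlong α f) := fun v =>
      t3p_pushforwardAlong_eq_ord_norm α hα hfinα hNα hf hD v
    rw [t3p_pullbackAlong_apply_eq_ord π hπ h1 w,
      t3p_pushforwardAlong_eq_ord_norm α' hα' hfinα' hNα' hπf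
        (fun W => t3p_pullbackAlong_apply_eq_ord π' hπ' hD W) w,
      hnorm f hf]

end General

end Fermat.Agent.Delta
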