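/-
DELTA / WIRE (helper4), part 1: **the Hecke bridge on Kummer classes**.

For a prime `ℓ ∤ N` and a function `y` on `X₀(N)` over `ℚ̄`:
* `dlw_div_hecke`   : `T_ℓ (div y) = div (T_ℓ^fun y)` (`T_ℓ^fun = tkrHecke`, the functional Hecke
  operator of T1-K, `= N_α ∘ β` by (K1));
* `dlw_hecke_dvd`   : if `m ∣ div y` then `m ∣ div (T_ℓ^fun y)`;
* `dlw_class_hecke` : `T_ℓ [div(y)/m] = [div(T_ℓ^fun y)/m]` in `J₀(N)`, for `heckeOperatorBar`.
-/
import Mathlib
import Fermat.Agent.Lib.Alpha.Fin.Finite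
import Fermat.Agent.Lib.T3.Pull.Final
import Fermat.Agent.Lib.T3.Hecke.Modular

set_option autoImplicit false
set_option linter.unusedSectionVars false
set_option linter.unusedVariables false
set_option linter.style.haveILetI false

namespace Fermat.Agent.Delta

open AlgebraicCurve ModularCurve Fermat.Agent.Curve Fermat.Agent.T1 Fermat.Agent.T3
  Fermat.Agent.Alpha

local notation "Qb" => AlgebraicClosure ℚ
local notation "GQ" => (AlgebraicClosure ℚ ≃ₐ[ℚ] AlgebraicClosure ℚ)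

section

variable (N : ℕ) [NeZero N] {ℓ : ℕ} [NeZero ℓ] (hℓ : ℓ.Prime) (hℓN : ¬ ℓ ∣ N)

include hℓ hℓN in
/-- `T_ℓ (div y) = div (T_ℓ^fun y)` -/
theorem dlw_div_hecke (y : (↥(modularFunctionFieldBar N))ˣ) :
    heckeDivBar (t3h_alphaIntegral N ℓ) (t3h_betaIntegral N ℓ) (alpfDiv (K := Qb) y)
      = alpfDiv (K := Qb) (tkrHeckeUnits N ℓ y) := by
  haveI : Fact ℓ.Prime := ⟨hℓ⟩
  ext v
  rw [alpfDiv_apply, tkrHeckeUnits_coe, ← t3k_norm_eq N ℓ hℓN (y : ↥(modularFunctionFieldBar N))]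
  show Divisor.pushforwardAlong (heckeAlphaBar Qb N ℓ) (t3h_alphaIntegral N ℓ)
    (Divisor.pullbackAlong (heckeBetaBar Qb N ℓ) (t3h_betaIntegral N ℓ) (alpfDiv (K := Qb) y)) v = _
  refine t3p_pushforwardAlong_eq_ord_norm (heckeAlphaBar Qb N ℓ) (t3h_alphaIntegral N ℓ)
    (t3h_alphaFinite N ℓ) (t3h_alphaNorm N ℓ)
    (f := heckeBetaBar Qb N ℓ (y : ↥(modularFunctionFieldBar N))) ?_ ?_ v
  · exact (map_ne_zero _).mpr y.ne_zero
  · intro w
    letI := algebraAlong (heckeBetaBar Qb N ℓ)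
    haveI := isScalarTower_along (heckeBetaBar Qb N ℓ)
    haveI := isIntegral_along (heckeBetaBar Qb N ℓ) (t3h_betaIntegral N ℓ)
    exact Divisor.pullback_apply_eq_ord (fun v' => alpfDiv_apply (K := Qb) y v') w

include hℓ hℓN in
/-- divisibility of the divisor is preserved by `T_ℓ^fun` -/
theorem dlw_hecke_dvd {m : ℕ} (y : (↥(modularFunctionFieldBar N))ˣ)
    (hy : ∀ v : Place Qb ↥(modularFunctionFieldBar N),
      (m : ℤ) ∣ v.ord (y : ↥(modularFunctionFieldBar N)))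
    (v : Place Qb ↥(modularFunctionFieldBar N)) :
    (m : ℤ) ∣ v.ord ((tkrHeckeUnits N ℓ y : (↥(modularFunctionFieldBar N))ˣ) :
      ↥(modularFunctionFieldBar N)) := by
  rw [← alpfDiv_apply (K := Qb), ← dlw_div_hecke N hℓ hℓN y, ← alpf_smul_divQuot hy, map_zsmul,
    Finsupp.smul_apply, smul_eq_mul]
  exact dvd_mul_right _ _

include hℓ hℓN in
/-- **the Hecke bridge on Kummer classes** -/
theorem dlw_class_hecke {m : ℕ} (hm : m ≠ 0) (y : (↥(modularFunctionFieldBar N))ˣ)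
    (hy : ∀ v : Place Qb ↥(modularFunctionFieldBar N),
      (m : ℤ) ∣ v.ord (y : ↥(modularFunctionFieldBar N)))
    (hy' : ∀ v : Place Qb ↥(modularFunctionFieldBar N),
      (m : ℤ) ∣ v.ord ((tkrHeckeUnits N ℓ y : (↥(modularFunctionFieldBar N))ˣ) :
        ↥(modularFunctionFieldBar N))) :
    heckeOperatorBar N ⟨ℓ, hℓ⟩ (alpfClass hm y hy) = alpfClass hm (tkrHeckeUnits N ℓ y) hy' := by
  rw [heckeOperatorBar_apply]
  unfold alpfClass
  rw [t3h_heckeOperatorAlong_mk N ℓ]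
  congr 1
  apply Subtype.ext
  show heckeDivBar (t3h_alphaIntegral N ℓ) (t3h_betaIntegral N ℓ) (alpfDivQuot (K := Qb) m y)
    = alpfDivQuot (K := Qb) m (tkrHeckeUnits N ℓ y)
  have hm' : (m : ℤ) ≠ 0 := by exact_mod_cast hm
  have h1 : (m : ℤ) • heckeDivBar (t3h_alphaIntegral N ℓ) (t3h_betaIntegral N ℓ)
      (alpfDivQuot (K := Qb) m y) = (m : ℤ) • alpfDivQuot (K := Qb) m (tkrHeckeUnits N ℓ y) := by
    rw [← map_zsmul, alpf_smul_divQuot hy, alpf_smul_divQuot hy', dlw_div_hecke N hℓ hℓN y]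
  ext v
  have h2 := congrArg (fun D : Divisor Qb ↥(modularFunctionFieldBar N) => D v) h1
  simp only [Finsupp.smul_apply, smul_eq_mul] at h2
  exact mul_left_cancel₀ hm' h2

end

end Fermat.Agent.Delta
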