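/-
DELTA / WIRE (helper4), part 3: **an eigenvector in `J₀(N)[p]`**.

* `dlw_kumX_hecke`, `dlw_kummer_hecke` : the Kummer isomorphisms `X_m ≃ J₀(N)[m]` and
  `TT / p^k → J₀(N)[p^k]` intertwine the abstract Hecke operator `T_ℓ` with `heckeOperatorBar`;
* `dlw_exists_eigen` : from a normalised eigenform `f` of level `N` congruent to `W` modulo a maximal
  ideal `𝔪 ∋ p`, a non-zero `x ∈ J₀(N)[p]` with `T_ℓ x = a_ℓ(W) x` for the good `ℓ ∤ N`, `ℓ ≠ p`.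
-/
import Mathlib
import Fermat.Agent.Lib.Alpha.Tate.Explicit
import Fermat.Agent.Lib.LR.EigenIn
import Fermat.Agent.Lib.Delta.Wire.HeckeClass

set_option autoImplicit false
set_option linter.unusedSectionVars false
set_option linter.unusedVariables false
set_option linter.style.haveILetI false

namespace Fermat.Agent.Delta

open Complex Set Filter Topology Matrix MatrixGroups CongruenceSubgroup ModularCurve
open UpperHalfPlane hiding I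
open Fermat.Agent.S24Lib ModularCurve.Period
open AlgebraicCurve Fermat.Agent.T1 Fermat.Agent.T3 Fermat.Agent.Alpha Fermat.Agent.LR
open scoped TensorProduct

local notation "Kbar" => AlgebraicClosure ℚ
local notation "GQ" => (AlgebraicClosure ℚ ≃ₐ[ℚ] AlgebraicClosure ℚ)

noncomputable section

section Bridge

variable (N : ℕ) [NeZero N]

/-- the Kummer isomorphism `X_m ≃ J₀(N)[m]` intertwines `T_ℓ` with `heckeOperatorBar` -/
theorem dlw_kumX_hecke (m : ℕ) (hm : m ≠ 0) {ℓ : ℕ} (hℓ : ℓ.Prime) (hℓN : ¬ ℓ ∣ N)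
    (χ : tdmX N m) :
    ((Multiplicative.toAdd (alptKumX N m hm ((tdmSysT N ℓ hℓ hℓN).homX m χ)) :
        ↥(Submodule.torsionBy ℤ (JZero N) (m : ℤ))) : JZero N)
      = heckeOperatorBar N ⟨ℓ, hℓ⟩ ((Multiplicative.toAdd (alptKumX N m hm χ) :
        ↥(Submodule.torsionBy ℤ (JZero N) (m : ℤ))) : JZero N) := by
  haveI : NeZero ℓ := ⟨hℓ.ne_zero⟩
  obtain ⟨y, rfl⟩ := (tddDescent N).psi_surjective hm χ
  obtain ⟨h1, h2⟩ := (tddDict Kbar N).psi_op (tdmSysT N ℓ hℓ hℓN) hm (tkrHeckeUnits N ℓ)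
    ((tddDict Kbar N).fn_heckeT (tddDict_toMer Kbar N) ℓ hℓ hℓN) y
  rw [← h2, alptKumX_psi, alptKumX_psi, alptKumW_coe, alptKumW_coe]
  exact (dlw_class_hecke N hℓ hℓN hm y.1 y.2 h1).symm

variable (p : ℕ) [hp : Fact p.Prime]

/-- the Kummer map `TT → J₀(N)[p^k]` intertwines `T_ℓ` with `heckeOperatorBar` -/
theorem dlw_kummer_hecke (k : ℕ) {ℓ : ℕ} (hℓ : ℓ.Prime) (hℓN : ¬ ℓ ∣ N)
    (x : ↥(parabolicHoms ℤ_[p] (Gamma0 N) ℤ_[p])) :
    ((alptKummer p N k (tdmHeckeP p N (CuspForm.heckeAlgebra.T hℓ hℓN (Set.notMem_empty ℓ)) x) :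
        ↥(Submodule.torsionBy ℤ (JZero N) ((p : ℤ) ^ k))) : JZero N)
      = heckeOperatorBar N ⟨ℓ, hℓ⟩ ((alptKummer p N k x :
        ↥(Submodule.torsionBy ℤ (JZero N) ((p : ℤ) ^ k))) : JZero N) := by
  rw [alptKummer_apply, alptKummer_apply, alptCast_coe, alptCast_coe,
    tdm_ι_hom p (tdmSysT N ℓ hℓ hℓN) k x _ (tdmHeckeP_T p N ℓ hℓ hℓN x)]
  exact dlw_kumX_hecke N (p ^ k) (tdm_prime_pow_ne_zero p k) hℓ hℓN _

end Bridge

section Eigen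

variable {N : ℕ} [NeZero N] {p : ℕ} [hp : Fact p.Prime]

/-- an integral class whose `p`-adic cast is divisible by `p` is divisible by `p` -/
theorem dlw_dvd_of_cast_dvd (v : ↥(tdmL N))
    (h : ∃ w : ↥(parabolicHoms ℤ_[p] (Gamma0 N) ℤ_[p]),
      tdmCastL N ℤ_[p] v = (p : ℤ_[p]) ^ 1 • w) : ∃ z : ↥(tdmL N), v = (p : ℤ) • z := by
  obtain ⟨w, hw⟩ := h
  have hdvd : ∀ γ : Additive (Gamma0 N), (p : ℤ) ∣ v.1 γ := by
    intro γ
    have h1 := congrArg (fun f : ↥(parabolicHoms ℤ_[p] (Gamma0 N) ℤ_[p]) =>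
      (f : Additive (Gamma0 N) →+ ℤ_[p]) γ) hw
    simp only [tdmCastL_coe, tdmCastHom_apply, pow_one] at h1
    have h2 : ((((p : ℤ_[p]) • w : ↥(parabolicHoms ℤ_[p] (Gamma0 N) ℤ_[p])) :
        Additive (Gamma0 N) →+ ℤ_[p])) γ = (p : ℤ_[p]) * (w : Additive (Gamma0 N) →+ ℤ_[p]) γ := rfl
    rw [h2] at h1
    rw [← PadicInt.norm_int_lt_one_iff_dvd]
    exact (PadicInt.norm_lt_one_iff_dvd _).mpr ⟨_, h1⟩
  have hp0 : (p : ℤ) ≠ 0 := by exact_mod_cast hp.out.ne_zero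
  let z0 : Additive (Gamma0 N) →+ ℤ :=
    { toFun := fun γ => v.1 γ / (p : ℤ)
      map_zero' := by rw [map_zero, Int.zero_ediv]
      map_add' := fun a b => by
        rw [map_add, Int.add_ediv_of_dvd_left (hdvd a)] }
  have hz0 : z0 ∈ tdmL N := by
    intro γ hγ
    show v.1 (Additive.ofMul γ) / (p : ℤ) = 0
    rw [v.2 γ hγ, Int.zero_ediv]
  refine ⟨⟨z0, hz0⟩, ?_⟩
  apply Subtype.ext
  apply AddMonoidHom.ext
  intro γ
  show v.1 γ = (p : ℤ) • (v.1 γ / (p : ℤ))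
  rw [smul_eq_mul, Int.mul_ediv_cancel' (hdvd γ)]

/-- **an eigenvector in `J₀(N)[p]`** -/
theorem dlw_exists_eigen {W : WeierstrassCurve ℤ}
    (f : CuspForm (CongruenceSubgroup.Gamma0 N) 2) (𝔪 : Ideal (integralClosure ℤ ℂ))
    (hf : f.IsNormalizedEigenform) (hmax : 𝔪.IsMaximal) (hpm : (p : integralClosure ℤ ℂ) ∈ 𝔪)
    (hcong : ∀ ℓ : ℕ, ℓ.Prime → W.IsGoodPrimeFor ℓ → ¬ ℓ ∣ N → ℓ ≠ p →
      ∃ a : integralClosure ℤ ℂ, (a : ℂ) = ModularFormClass.qCoeff f ℓ ∧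
        a - ((W.apOfModel ℓ : ℤ) : integralClosure ℤ ℂ) ∈ 𝔪) :
    ∃ x : JZero N, x ≠ 0 ∧ p • x = 0 ∧
      ∀ (ℓ : ℕ) (hℓ : ℓ.Prime), ¬ ℓ ∣ N → W.IsGoodPrimeFor ℓ → ℓ ≠ p →
        heckeOperatorBar N ⟨ℓ, hℓ⟩ x = W.apOfModel ℓ • x := by
  have hp0 : p ≠ 0 := hp.out.ne_zero
  obtain ⟨v, hv, hcore⟩ := lrc_core hp0 f hf 𝔪 hmax hpm
  set φ : ↥(parabolicHoms ℤ_[p] (Gamma0 N) ℤ_[p]) := tdmCastL N ℤ_[p] v with hφ
  have hφBC : φ = tdmBC N ℤ_[p] ((1 : ℤ_[p]) ⊗ₜ[ℤ] v) := by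
    rw [tdmBC_tmul, one_smul]
  set x : ↥(Submodule.torsionBy ℤ (JZero N) ((p : ℤ) ^ 1)) := alptKummer p N 1 φ with hx
  have key : ∀ y : ↥(Submodule.torsionBy ℤ (JZero N) ((p : ℤ) ^ 1)), (p : ℤ) • (y : JZero N) = 0 := by
    intro y
    have h1 := (Submodule.mem_torsionBy_iff _ _).mp y.2
    calc (p : ℤ) • (y : JZero N) = ((p : ℤ) ^ 1) • (y : JZero N) := by
          congr 1; exact (pow_one _).symm
      _ = 0 := h1
  have hxtor : p • (x : JZero N) = 0 := by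
    rw [← natCast_zsmul]
    exact key x
  refine ⟨(x : JZero N), ?_, hxtor, ?_⟩
  · intro h0
    have h1 : x = 0 := Subtype.ext h0
    rw [hx, alptKummer_eq_zero_iff] at h1
    obtain ⟨z, hz⟩ := dlw_dvd_of_cast_dvd v h1
    exact hv ⟨z, hz⟩
  · intro ℓ hℓ hℓN hgood hℓp
    obtain ⟨b, hbℓ, hb⟩ := hcong ℓ hℓ hgood hℓN hℓp
    obtain ⟨z, hz⟩ := hcore (CuspForm.heckeAlgebra.T hℓ hℓN (Set.notMem_empty ℓ)) (W.apOfModel ℓ)
      (by rw [lrc_eigenChar_T hf hℓ hℓN hbℓ]; exact hb)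
    -- `T_ℓ φ = a_ℓ φ + p ψ`
    have hT : tdmHeckeP p N (CuspForm.heckeAlgebra.T hℓ hℓN (Set.notMem_empty ℓ)) φ
        = W.apOfModel ℓ • φ + (p : ℤ) • tdmCastL N ℤ_[p] z := by
      rw [hφBC, ← tdmHeckeP_he, LinearMap.baseChange_tmul, tdmBC_tmul, one_smul, ← hφBC, hφ,
        ← map_zsmul, ← map_zsmul, ← map_add]
      congr 1
      rw [← hz]
      abel
    rw [← dlw_kummer_hecke N p 1 hℓ hℓN φ, hT, map_add, map_zsmul, map_zsmul]
    have hkill : (p : ℤ) • alptKummer p N 1 (tdmCastL N ℤ_[p] z) = 0 :=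
      Subtype.ext (key _)
    rw [hkill, add_zero]
    rfl

end Eigen

end

end Fermat.Agent.Delta
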