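/-
DELTA / WIRE (helper4), part 4: **the `W`-eigenspace of `J₀(N)[p]`**.

* `dlw_hecke_galois` : `heckeOperatorBar` commutes with `G_ℚ` on torsion points;
* `dlw_ES`           : Eichler–Shimura on `J₀(N)[p]`: `φ² x − T_ℓ φ x + ℓ x = 0` for a Frobenius `φ` at
  `ℓ ∤ N p` (from `T3Rho`, i.e. S37);
* `dlwEig N p W`     : the subgroup of `J₀(N)[p]` on which `T_ℓ = a_ℓ(W)` for all good `ℓ ∤ N`, `ℓ ≠ p`;
  it is `G_ℚ`-stable and finite;
* `dlw_exists_minimal` : minimal non-zero stable subgroups of a finite stable subgroup.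
-/
import Mathlib
import Fermat.Agent.Lib.Delta.Wire.Eigen
import Fermat.Agent.Lib.T3.Asm.Glue
import Fermat.Agent.Lib.T3.ES.Final
import Fermat.Agent.Lib.T3.ES.Level1

set_option autoImplicit false
set_option linter.unusedSectionVars false
set_option linter.unusedVariables false
set_option linter.style.haveILetI false

namespace Fermat.Agent.Delta

open AlgebraicCurve ModularCurve Fermat.Agent.T1 Fermat.Agent.T3 Fermat.Agent.Alpha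

local notation "Qb" => AlgebraicClosure ℚ
local notation "GQ" => (AlgebraicClosure ℚ ≃ₐ[ℚ] AlgebraicClosure ℚ)

section General

variable {K F : Type*} [Field K] [Field F] [Algebra K F] [HasPrincipalDivisors K F]

theorem dlw_class_congr {m : ℕ} (hm : m ≠ 0) {y y' : Fˣ} (h : y = y')
    (hy : ∀ v : Place K F, (m : ℤ) ∣ v.ord (y : F))
    (hy' : ∀ v : Place K F, (m : ℤ) ∣ v.ord (y' : F)) :
    alpfClass hm y hy = alpfClass hm y' hy' := by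
  subst h
  rfl

end General

section Modular

variable (N : ℕ) [NeZero N]

/-- `T_ℓ` commutes with the Galois action on torsion points -/
theorem dlw_hecke_galois {ℓ : ℕ} (hℓ : ℓ.Prime) (hℓN : ¬ ℓ ∣ N) {m : ℕ} (hm : m ≠ 0) (σ : GQ)
    (x : JZero N) (hx : (m : ℤ) • x = 0) :
    heckeOperatorBar N ⟨ℓ, hℓ⟩ (σ • x) = σ • heckeOperatorBar N ⟨ℓ, hℓ⟩ x := by
  haveI : NeZero ℓ := ⟨hℓ.ne_zero⟩
  obtain ⟨y, hy, rfl⟩ := alpf_exists_class hm x hx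
  rw [galois_smul_pic0_def, alpfClass_smul hm,
    dlw_class_hecke N hℓ hℓN hm _ _ (dlw_hecke_dvd N hℓ hℓN _ (alpf_dvd_smulUnit _ hy)),
    dlw_class_hecke N hℓ hℓN hm y hy (dlw_hecke_dvd N hℓ hℓN y hy), galois_smul_pic0_def,
    alpfClass_smul hm]
  apply dlw_class_congr
  rw [← alpt_tkrSig_eq, ← alpt_tkrSig_eq, tkrHeckeUnits_sig]

/-- `T3Rho` (the content of S37) -/
theorem dlw_t3rho : T3Rho :=
  t3_rho_of_ES (t3d_ES_of_level1 (fun M ℓ _ _ h => t3d1_hecke_j_poly M ℓ h))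

/-- **Eichler–Shimura on `J₀(N)[p]`** -/
theorem dlw_ES {p ℓ : ℕ} (hℓ : ℓ.Prime) (hℓN : ¬ ℓ ∣ N) (hℓp : ¬ ℓ ∣ p)
    (A : ValuationSubring Qb) (hA : A.LiesOverPrime ℓ) (σ : GQ) (hσ : A.IsFrobeniusAt σ ℓ)
    (x : JZero N) (hx : p • x = 0) :
    σ • σ • x - heckeOperatorBar N ⟨ℓ, hℓ⟩ (σ • x) + ℓ • x = 0 := by
  obtain ⟨G, _, ρ, -, hF, hinj⟩ := dlw_t3rho N ℓ hℓ hℓN A hA
  refine hinj p hℓp _ ?_ (hF σ hσ x)
  rw [nsmul_add, nsmul_sub, ← map_nsmul, smul_comm p σ (σ • x), smul_comm p σ x, smul_comm p ℓ x,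
    hx, smul_zero, smul_zero, smul_zero, map_zero, sub_zero, add_zero]

/-- the subgroup of `J₀(N)[p]` on which the Hecke operators act through the `a_ℓ(W)` -/
def dlwEig (p : ℕ) (W : WeierstrassCurve ℤ) : AddSubgroup (JZero N) where
  carrier := {x | p • x = 0 ∧ ∀ (ℓ : ℕ) (hℓ : ℓ.Prime), ¬ ℓ ∣ N → W.IsGoodPrimeFor ℓ → ℓ ≠ p →
    heckeOperatorBar N ⟨ℓ, hℓ⟩ x = W.apOfModel ℓ • x}
  zero_mem' := ⟨smul_zero _, fun ℓ hℓ _ _ _ => by rw [map_zero, smul_zero]⟩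
  add_mem' := by
    rintro x y ⟨hx, hx'⟩ ⟨hy, hy'⟩
    refine ⟨by rw [nsmul_add, hx, hy, add_zero], fun ℓ hℓ h1 h2 h3 => ?_⟩
    rw [map_add, hx' ℓ hℓ h1 h2 h3, hy' ℓ hℓ h1 h2 h3, zsmul_add]
  neg_mem' := by
    rintro x ⟨hx, hx'⟩
    refine ⟨by rw [neg_nsmul, hx, neg_zero], fun ℓ hℓ h1 h2 h3 => ?_⟩
    rw [map_neg, hx' ℓ hℓ h1 h2 h3, zsmul_neg]

variable {N}

theorem mem_dlwEig {p : ℕ} {W : WeierstrassCurve ℤ} {x : JZero N} :
    x ∈ dlwEig N p W ↔ p • x = 0 ∧ ∀ (ℓ : ℕ) (hℓ : ℓ.Prime), ¬ ℓ ∣ N → W.IsGoodPrimeFor ℓ →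
      ℓ ≠ p → heckeOperatorBar N ⟨ℓ, hℓ⟩ x = W.apOfModel ℓ • x := Iff.rfl

/-- the eigenspace is Galois stable -/
theorem dlw_eig_smul_mem {p : ℕ} (hp0 : p ≠ 0) {W : WeierstrassCurve ℤ} (σ : GQ) {x : JZero N}
    (hx : x ∈ dlwEig N p W) : σ • x ∈ dlwEig N p W := by
  obtain ⟨hx, hx'⟩ := hx
  refine ⟨by rw [smul_comm p σ x, hx, smul_zero], fun ℓ hℓ h1 h2 h3 => ?_⟩
  rw [dlw_hecke_galois N hℓ h1 hp0 σ x (by rw [natCast_zsmul]; exact hx), hx' ℓ hℓ h1 h2 h3]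
  exact map_zsmul (DistribSMul.toAddMonoidHom (JZero N) σ) _ x

/-- the eigenspace is finite -/
theorem dlw_eig_finite {p : ℕ} (hp0 : p ≠ 0) (W : WeierstrassCurve ℤ) :
    Finite ↥(dlwEig N p W) := by
  haveI := alpf_finite N p hp0
  refine Finite.of_injective
    (fun x : ↥(dlwEig N p W) => (⟨(x : JZero N), (Submodule.mem_torsionBy_iff _ _).mpr (by
      rw [natCast_zsmul]; exact x.2.1)⟩ : ↥(Submodule.torsionBy ℤ (JZero N) (p : ℤ)))) ?_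
  intro x y h
  exact Subtype.ext (congrArg (fun z : ↥(Submodule.torsionBy ℤ (JZero N) (p : ℤ)) => (z : JZero N)) h)

end Modular

section Minimal

/-- minimal non-zero stable subgroups -/
theorem dlw_exists_minimal {G A : Type*} [Group G] [AddCommGroup A] [DistribMulAction G A]
    (V : AddSubgroup A) [Finite V] (hV : V ≠ ⊥) (hstab : ∀ g : G, ∀ x ∈ V, g • x ∈ V) :
    ∃ V₀ : AddSubgroup A, V₀ ≤ V ∧ V₀ ≠ ⊥ ∧ (∀ g : G, ∀ x ∈ V₀, g • x ∈ V₀) ∧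
      ∀ V₁ : AddSubgroup A, V₁ ≤ V₀ → (∀ g : G, ∀ x ∈ V₁, g • x ∈ V₁) → V₁ = ⊥ ∨ V₁ = V₀ := by
  classical
  let S : Set (AddSubgroup A) := {V' | V' ≤ V ∧ V' ≠ ⊥ ∧ ∀ g : G, ∀ x ∈ V', g • x ∈ V'}
  have hS : S.Nonempty := ⟨V, le_rfl, hV, hstab⟩
  have wf := (measure (fun V' : AddSubgroup A => Nat.card V')).wf
  set V₀ := wf.min S hS with hV₀
  obtain ⟨h1, h2, h3⟩ : V₀ ∈ S := wf.min_mem S hS
  refine ⟨V₀, h1, h2, h3, fun V₁ hle hst => ?_⟩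
  by_cases hb : V₁ = ⊥
  · exact Or.inl hb
  right
  have hV₁S : V₁ ∈ S := ⟨hle.trans h1, hb, hst⟩
  have hnlt : ¬ Nat.card V₁ < Nat.card V₀ := by
    have h := wf.not_lt_min S hV₁S
    exact h
  haveI : Finite V₀ := Finite.of_injective (fun x : V₀ => (⟨x.1, h1 x.2⟩ : V))
    (fun x y h => Subtype.ext (congrArg (fun z : V => (z : A)) h))
  have hcard : Nat.card V₀ ≤ Nat.card V₁ := by
    omega
  exact AddSubgroup.eq_of_le_of_card_ge hle hcard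

end Minimal

end Fermat.Agent.Delta
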