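/-
DELTA / WIRE (helper4), part 13: **the pull-back `J₀(N) → J₀(K)` for `N ∣ K`** (along the
inclusion `F_N ⊂ F_K` of function fields inside `ℚ̄((q))`; no casts between levels), its
properties (Galois, Hecke, injectivity on torsion, Kummer classes) and the **base change** with
the degeneracy push-forwards `J₀(N ℓ) → J₀(N)`, `J₀(K ℓ) → J₀(K)`.
-/
import Mathlib
import Fermat.Agent.Lib.Delta.Wire.BaseChange

set_option autoImplicit false
set_option linter.unusedSectionVars false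
set_option linter.unusedVariables false
set_option linter.style.haveILetI false

namespace Fermat.Agent.Delta

open AlgebraicCurve ModularCurve Fermat.Agent.Curve Fermat.Agent.T1 Fermat.Agent.T3
  Fermat.Agent.Alpha Fermat.Agent.T2 HahnSeries Fermat.Agent.S24Lib Fermat.Agent.T1.KMod

local notation "Qb" => AlgebraicClosure ℚ
local notation "GQ" => (AlgebraicClosure ℚ ≃ₐ[ℚ] AlgebraicClosure ℚ)

section KummerGeneral

variable {K F F' : Type*} [Field K] [Field F] [Field F'] [Algebra K F] [Algebra K F']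
  [HasPrincipalDivisors K F] [HasPrincipalDivisors K F']
  (φ : F →ₐ[K] F') (hφ : φ.toRingHom.IsIntegral) (hFI : FundamentalIdentityAlong K φ hφ)

include hφ in
theorem dlw_dvd_ord_map {m : ℕ} (y : Fˣ) (hy : ∀ v : Place K F, (m : ℤ) ∣ v.ord (y : F))
    (w : Place K F') : (m : ℤ) ∣ w.ord ((Units.map (φ : F →* F') y : F'ˣ) : F') := by
  rw [Units.coe_map]
  show (m : ℤ) ∣ w.ord (φ (y : F))
  rw [Place.ord_restrictAlong φ hφ]
  exact Dvd.dvd.mul_left (hy _) _

/-- **the pull-back of a Kummer class is the Kummer class of the same function** -/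
theorem dlwPullAlong_class {m : ℕ} (hm : m ≠ 0) (y : Fˣ)
    (hy : ∀ v : Place K F, (m : ℤ) ∣ v.ord (y : F)) :
    t3pPullAlong φ hφ hFI (alpfClass hm y hy)
      = alpfClass hm (Units.map (φ : F →* F') y) (dlw_dvd_ord_map φ hφ y hy) := by
  unfold alpfClass
  rw [t3pPullAlong_mk]
  apply congrArg Pic0.mk
  apply Subtype.ext
  ext w
  show Divisor.pullbackAlong φ hφ (alpfDivQuot (K := K) m y) w
    = alpfDivQuot (K := K) m (Units.map (φ : F →* F') y) w
  rw [Divisor.pullbackAlong_apply, alpfDivQuot_apply, alpfDivQuot_apply, Units.coe_map]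
  show _ = w.ord (φ (y : F)) / (m : ℤ)
  rw [Place.ord_restrictAlong φ hφ]
  exact (Int.mul_ediv_assoc _ (hy _)).symm

end KummerGeneral

section Incl

variable {N K : ℕ} [NeZero N] [NeZero K]

theorem dlw_neZero_of_mul {N e : ℕ} [h : NeZero (N * e)] : NeZero e :=
  ⟨fun h0 => h.out (by rw [h0, mul_zero])⟩

theorem dlw_bar_le (h : N ∣ K) : modularFunctionFieldBar N ≤ modularFunctionFieldBar K := by
  obtain ⟨e, rfl⟩ := h
  haveI : NeZero e := dlw_neZero_of_mul (N := N)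
  intro y hy
  exact tkr_bar_mono N e hy

/-- the inclusion `F_N ⊂ F_K` for `N ∣ K` -/
noncomputable def dlwIncl (h : N ∣ K) :
    ↥(modularFunctionFieldBar N) →ₐ[Qb] ↥(modularFunctionFieldBar K) :=
  IntermediateField.inclusion (dlw_bar_le h)

@[simp]
theorem coe_dlwIncl (h : N ∣ K) (y : ↥(modularFunctionFieldBar N)) :
    ((dlwIncl h y : ↥(modularFunctionFieldBar K)) : LaurentSeries Qb) = (y : LaurentSeries Qb) :=
  IntermediateField.coe_inclusion _ y

theorem dlwIncl_integral (h : N ∣ K) : (dlwIncl h).toRingHom.IsIntegral :=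
  t3h_isIntegralAlong (t3h_gen N) (t3h_gen K) (dlwIncl h)

theorem dlwIncl_fundamental (h : N ∣ K) :
    FundamentalIdentityAlong Qb (dlwIncl h) (dlwIncl_integral h) :=
  t3h_fundamentalIdentityAlong (t3h_gen N) (t3h_gen K) (dlwIncl h) (dlwIncl_integral h)

/-- **the pull-back `J₀(N) → J₀(K)`, `N ∣ K`** -/
noncomputable def dlwPullDvd (h : N ∣ K) : JZero N →+ JZero K :=
  t3pPullAlong (dlwIncl h) (dlwIncl_integral h) (dlwIncl_fundamental h)

theorem dlwPullDvd_mk (h : N ∣ K)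
    (D : Divisor.degZero (K := Qb) (F := ↥(modularFunctionFieldBar N))) :
    dlwPullDvd h (Pic0.mk D)
      = Pic0.mk ⟨Divisor.pullbackAlong (dlwIncl h) (dlwIncl_integral h) (D : Divisor Qb _),
          Divisor.pullbackAlong_mem_degZero _ _ (dlwIncl_fundamental h) D.2⟩ :=
  rfl

end Incl

section Mul

variable (N e : ℕ) [NeZero N] [NeZero e]

theorem dlwIncl_mul : dlwIncl (Dvd.intro e rfl : N ∣ N * e) = heckeAlphaBar Qb N e := rfl

theorem dlwPullDvd_mul : dlwPullDvd (Dvd.intro e rfl : N ∣ N * e) = t3pPull N e := rfl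

end Mul

section Props

variable {N K : ℕ} [NeZero N] [NeZero K]

/-- the pull-back is Galois equivariant -/
theorem dlwPullDvd_galois (h : N ∣ K) (σ : GQ) (x : JZero N) :
    dlwPullDvd h (σ • x) = σ • dlwPullDvd h x := by
  obtain ⟨e, rfl⟩ := h
  haveI : NeZero e := dlw_neZero_of_mul (N := N)
  exact t3pPull_galois N e σ x

/-- the pull-back commutes with the Hecke operators prime to the upper level -/
theorem dlwPullDvd_hecke (h : N ∣ K) {r : ℕ} (hr : r.Prime) (hrK : ¬ r ∣ K) (x : JZero N) :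
    dlwPullDvd h (heckeOperatorBar N ⟨r, hr⟩ x) = heckeOperatorBar K ⟨r, hr⟩ (dlwPullDvd h x) := by
  obtain ⟨e, rfl⟩ := h
  haveI : NeZero e := dlw_neZero_of_mul (N := N)
  exact t3pPull_heckeOperatorBar N e hr hrK x

/-- the pull-back kills no nontrivial torsion class -/
theorem dlwPullDvd_eq_zero (h : N ∣ K) {m : ℕ} (hm : m ≠ 0) (x : JZero N) (hx : m • x = 0)
    (h0 : dlwPullDvd h x = 0) : x = 0 := by
  obtain ⟨e, rfl⟩ := h
  haveI : NeZero e := dlw_neZero_of_mul (N := N)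
  exact t3pPull_eq_zero_of_torsion N e hm x hx h0

/-- the inclusion on units -/
noncomputable def dlwInclU (h : N ∣ K) :
    (↥(modularFunctionFieldBar N))ˣ →* (↥(modularFunctionFieldBar K))ˣ :=
  Units.map ((dlwIncl h : ↥(modularFunctionFieldBar N) →ₐ[Qb] ↥(modularFunctionFieldBar K)) :
    ↥(modularFunctionFieldBar N) →* ↥(modularFunctionFieldBar K))

@[simp]
theorem coe_dlwInclU (h : N ∣ K) (y : (↥(modularFunctionFieldBar N))ˣ) :
    (((dlwInclU h y : (↥(modularFunctionFieldBar K))ˣ) : ↥(modularFunctionFieldBar K)) :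
      LaurentSeries Qb) = ((y : ↥(modularFunctionFieldBar N)) : LaurentSeries Qb) := by
  rw [dlwInclU, Units.coe_map]
  exact coe_dlwIncl h _

theorem dlw_dvd_ord_incl (h : N ∣ K) {m : ℕ} (y : (↥(modularFunctionFieldBar N))ˣ)
    (hy : ∀ v : Place Qb ↥(modularFunctionFieldBar N), (m : ℤ) ∣ v.ord (y : ↥(modularFunctionFieldBar N)))
    (w : Place Qb ↥(modularFunctionFieldBar K)) :
    (m : ℤ) ∣ w.ord ((dlwInclU h y : (↥(modularFunctionFieldBar K))ˣ) :
      ↥(modularFunctionFieldBar K)) :=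
  dlw_dvd_ord_map (dlwIncl h) (dlwIncl_integral h) y hy w

/-- **the pull-back of the Kummer class of `y` is the Kummer class of (the same Laurent series)
`y` at the upper level** -/
theorem dlwPullDvd_class (h : N ∣ K) {m : ℕ} (hm : m ≠ 0) (y : (↥(modularFunctionFieldBar N))ˣ)
    (hy : ∀ v : Place Qb ↥(modularFunctionFieldBar N), (m : ℤ) ∣ v.ord (y : ↥(modularFunctionFieldBar N))) :
    dlwPullDvd h (alpfClass hm y hy) = alpfClass hm (dlwInclU h y) (dlw_dvd_ord_incl h y hy) :=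
  dlwPullAlong_class (dlwIncl h) (dlwIncl_integral h) (dlwIncl_fundamental h) hm y hy

end Props

section BaseChange

theorem dlwPushA_mk (M e : ℕ) [NeZero M] [NeZero e]
    (D : Divisor.degZero (K := Qb) (F := ↥(modularFunctionFieldBar (M * e)))) :
    dlwPushA M e (Pic0.mk D)
      = Pic0.mk ⟨Divisor.pushforwardAlong (heckeAlphaBar Qb M e) (t3h_alphaIntegral M e)
          (D : Divisor Qb _),
          Divisor.pushforwardAlong_mem_degZero _ _ D.2⟩ :=
  rfl

theorem dlwPushB_mk (M e : ℕ) [NeZero M] [NeZero e]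
    (D : Divisor.degZero (K := Qb) (F := ↥(modularFunctionFieldBar (M * e)))) :
    dlwPushB M e (Pic0.mk D)
      = Pic0.mk ⟨Divisor.pushforwardAlong (heckeBetaBar Qb M e) (t3h_betaIntegral M e)
          (D : Divisor Qb _),
          Divisor.pushforwardAlong_mem_degZero _ _ D.2⟩ :=
  rfl

variable (N e : ℕ) [NeZero N] [NeZero e] (ℓ : ℕ) [hℓ : Fact ℓ.Prime]

theorem dlw_pull_pushA_div (hℓN : ¬ ℓ ∣ N) (hℓK : ¬ ℓ ∣ N * e)
    (D : Divisor Qb ↥(modularFunctionFieldBar (N * ℓ))) :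
    Divisor.pullbackAlong (heckeAlphaBar Qb N e) (t3h_alphaIntegral N e)
      (Divisor.pushforwardAlong (heckeAlphaBar Qb N ℓ) (t3h_alphaIntegral N ℓ) D)
    = Divisor.pushforwardAlong (heckeAlphaBar Qb (N * e) ℓ) (t3h_alphaIntegral (N * e) ℓ)
      (Divisor.pullbackAlong (t3pIncl N e ℓ) (t3pIncl_integral N e ℓ) D) :=
  dlw_pull_push (t3h_gen (N * ℓ)) (heckeAlphaBar Qb N ℓ) (heckeAlphaBar Qb (N * e) ℓ)
    (heckeAlphaBar Qb N e) (t3pIncl N e ℓ) (t3p_square_alpha N e ℓ)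
    (t3h_alphaIntegral N ℓ) (t3h_alphaIntegral (N * e) ℓ) (t3h_alphaIntegral N e)
    (t3pIncl_integral N e ℓ) (t3h_alphaFinite N ℓ) (t3h_alphaNorm N ℓ)
    (t3h_alphaFinite (N * e) ℓ) (t3h_alphaNorm (N * e) ℓ)
    (fun f _ => dlw_norm_alpha_incl N e ℓ hℓN hℓK f) D

theorem dlw_pull_pushB_div (hℓN : ¬ ℓ ∣ N) (hℓK : ¬ ℓ ∣ N * e)
    (D : Divisor Qb ↥(modularFunctionFieldBar (N * ℓ))) :
    Divisor.pullbackAlong (heckeAlphaBar Qb N e) (t3h_alphaIntegral N e)
      (Divisor.pushforwardAlong (heckeBetaBar Qb N ℓ) (t3h_betaIntegral N ℓ) D)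
    = Divisor.pushforwardAlong (heckeBetaBar Qb (N * e) ℓ) (t3h_betaIntegral (N * e) ℓ)
      (Divisor.pullbackAlong (t3pIncl N e ℓ) (t3pIncl_integral N e ℓ) D) :=
  dlw_pull_push (t3h_gen (N * ℓ)) (heckeBetaBar Qb N ℓ) (heckeBetaBar Qb (N * e) ℓ)
    (heckeAlphaBar Qb N e) (t3pIncl N e ℓ) (t3p_square_beta N e ℓ)
    (t3h_betaIntegral N ℓ) (t3h_betaIntegral (N * e) ℓ) (t3h_alphaIntegral N e)
    (t3pIncl_integral N e ℓ) (t3h_betaFinite N ℓ) (t3h_betaNorm N ℓ)
    (t3h_betaFinite (N * e) ℓ) (t3h_betaNorm (N * e) ℓ)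
    (fun f _ => dlw_norm_beta_incl N e ℓ hℓN hℓK f) D

theorem dlwPushA_pull_mul (hℓK : ¬ ℓ ∣ N * e) (x : JZero (N * ℓ)) :
    dlwPushA (N * e) ℓ (dlwPullDvd (Nat.mul_dvd_mul_right (Dvd.intro e rfl) ℓ) x)
      = dlwPullDvd (Dvd.intro e rfl) (dlwPushA N ℓ x) := by
  have hℓN : ¬ ℓ ∣ N := fun h => hℓK (h.mul_right e)
  obtain ⟨D, rfl⟩ := Pic0.mk_surjective x
  rw [dlwPullDvd_mk]
  rw [dlwPushA_mk N ℓ D]
  rw [dlwPullDvd_mk]
  have h1 := dlwPushA_mk (N * e) ℓ
    ⟨Divisor.pullbackAlong (dlwIncl (Nat.mul_dvd_mul_right (Dvd.intro e rfl) ℓ))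
      (dlwIncl_integral _) (D : Divisor Qb _),
      Divisor.pullbackAlong_mem_degZero _ _ (dlwIncl_fundamental _) D.2⟩
  refine h1.trans ?_
  apply congrArg Pic0.mk
  apply Subtype.ext
  have h2 := dlw_pull_pushA_div N e ℓ hℓN hℓK (D : Divisor Qb _)
  exact h2.symm

theorem dlwPushB_pull_mul (hℓK : ¬ ℓ ∣ N * e) (x : JZero (N * ℓ)) :
    dlwPushB (N * e) ℓ (dlwPullDvd (Nat.mul_dvd_mul_right (Dvd.intro e rfl) ℓ) x)
      = dlwPullDvd (Dvd.intro e rfl) (dlwPushB N ℓ x) := by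
  have hℓN : ¬ ℓ ∣ N := fun h => hℓK (h.mul_right e)
  obtain ⟨D, rfl⟩ := Pic0.mk_surjective x
  rw [dlwPullDvd_mk]
  rw [dlwPushB_mk N ℓ D]
  rw [dlwPullDvd_mk]
  have h1 := dlwPushB_mk (N * e) ℓ
    ⟨Divisor.pullbackAlong (dlwIncl (Nat.mul_dvd_mul_right (Dvd.intro e rfl) ℓ))
      (dlwIncl_integral _) (D : Divisor Qb _),
      Divisor.pullbackAlong_mem_degZero _ _ (dlwIncl_fundamental _) D.2⟩
  refine h1.trans ?_
  apply congrArg Pic0.mk
  apply Subtype.ext
  have h2 := dlw_pull_pushB_div N e ℓ hℓN hℓK (D : Divisor Qb _)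
  exact h2.symm

end BaseChange

section BaseChangeDvd

variable {N K : ℕ} [NeZero N] [NeZero K] (ℓ : ℕ) [hℓ : Fact ℓ.Prime]

/-- **base change for the push-forward along `α`**: pulling back from the level `N ℓ` to the
level `K ℓ` and pushing down to `K` is pushing down to `N` and pulling back to `K` -/
theorem dlwPushA_pull (h : N ∣ K) (hℓK : ¬ ℓ ∣ K) (x : JZero (N * ℓ)) :
    dlwPushA K ℓ (dlwPullDvd (Nat.mul_dvd_mul_right h ℓ) x) = dlwPullDvd h (dlwPushA N ℓ x) := by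
  obtain ⟨e, rfl⟩ := h
  haveI : NeZero e := dlw_neZero_of_mul (N := N)
  exact dlwPushA_pull_mul N e ℓ hℓK x

/-- **base change for the push-forward along `β`** -/
theorem dlwPushB_pull (h : N ∣ K) (hℓK : ¬ ℓ ∣ K) (x : JZero (N * ℓ)) :
    dlwPushB K ℓ (dlwPullDvd (Nat.mul_dvd_mul_right h ℓ) x) = dlwPullDvd h (dlwPushB N ℓ x) := by
  obtain ⟨e, rfl⟩ := h
  haveI : NeZero e := dlw_neZero_of_mul (N := N)
  exact dlwPushB_pull_mul N e ℓ hℓK x

end BaseChangeDvd

end Fermat.Agent.Delta
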