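/-
DELTA / WIRE (helper4), part 2: **a Boston–Lenstra–Ribet lemma**.

`G` a group, `k` a field of characteristic `≠ 2`, `rU : G → GL₂(k)` a representation such that some
involution `c` acts as `diag(1, -1)` and which is irreducible (witnessed by `g₁, g₂` with non-zero
off-diagonal entries).  If `V` is a simple `k[G]`-module on which every `g` is killed by the
characteristic polynomial of `rU g`, then `V ≅ k²` as `k[G]`-modules (`dlw_blr`).

Proof (after Boston–Lenstra–Ribet): in the algebra `𝒜 ⊂ End V × M₂(k)` spanned by `G` the map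
`x ↦ tr(x) - x` is an anti-involution; hence an element of `𝒜` with vanishing `M₂(k)`-component
anticommutes with the traceless elements, from which its `End V`-component vanishes.
-/
import Mathlib

set_option autoImplicit false
set_option linter.unusedSectionVars false
set_option linter.unusedVariables false
set_option linter.style.haveILetI false

namespace Fermat.Agent.Delta

open Matrix

section Blr

variable {G : Type*} [Group G] {k : Type*} [Field k]
  {V : Type*} [AddCommGroup V] [Module k V]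
  (rV : G →* Module.End k V) (rU : G →* Matrix (Fin 2) (Fin 2) k)

/-- the diagonal map `G → End V × M₂(k)` -/
def dlwIota : G →* Module.End k V × Matrix (Fin 2) (Fin 2) k := rV.prod rU

/-- the span of `G` in `End V × M₂(k)` -/
def dlwAlg : Submodule k (Module.End k V × Matrix (Fin 2) (Fin 2) k) :=
  Submodule.span k (Set.range (dlwIota rV rU))

theorem dlw_iota_mem (g : G) : dlwIota rV rU g ∈ dlwAlg rV rU :=
  Submodule.subset_span ⟨g, rfl⟩

theorem dlw_one_mem : (1 : Module.End k V × Matrix (Fin 2) (Fin 2) k) ∈ dlwAlg rV rU := by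
  have := dlw_iota_mem rV rU 1
  rwa [map_one] at this

theorem dlw_mul_mem {x y : Module.End k V × Matrix (Fin 2) (Fin 2) k}
    (hx : x ∈ dlwAlg rV rU) (hy : y ∈ dlwAlg rV rU) : x * y ∈ dlwAlg rV rU := by
  induction hx using Submodule.span_induction with
  | mem x hx =>
    obtain ⟨g, rfl⟩ := hx
    induction hy using Submodule.span_induction with
    | mem y hy =>
      obtain ⟨h, rfl⟩ := hy
      rw [← map_mul]
      exact dlw_iota_mem rV rU _
    | zero => rw [mul_zero]; exact Submodule.zero_mem _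
    | add y y' _ _ ih ih' => rw [mul_add]; exact Submodule.add_mem _ ih ih'
    | smul a y _ ih => rw [mul_smul_comm]; exact Submodule.smul_mem _ a ih
  | zero => rw [zero_mul]; exact Submodule.zero_mem _
  | add x x' _ _ ih ih' => rw [add_mul]; exact Submodule.add_mem _ ih ih'
  | smul a x _ ih => rw [smul_mul_assoc]; exact Submodule.smul_mem _ a ih

/-- the anti-involution `x ↦ tr(x) - x` -/
def dlwSt (x : Module.End k V × Matrix (Fin 2) (Fin 2) k) :
    Module.End k V × Matrix (Fin 2) (Fin 2) k :=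
  (x.2.trace • 1 - x.1, x.2.trace • 1 - x.2)

theorem dlwSt_add (x y : Module.End k V × Matrix (Fin 2) (Fin 2) k) :
    dlwSt (x + y) = dlwSt x + dlwSt y := by
  unfold dlwSt
  ext : 1
  · simp only [Prod.fst_add, Prod.snd_add, Matrix.trace_add, add_smul]; abel
  · simp only [Prod.fst_add, Prod.snd_add, Matrix.trace_add, add_smul]; abel

theorem dlwSt_smul (a : k) (x : Module.End k V × Matrix (Fin 2) (Fin 2) k) :
    dlwSt (a • x) = a • dlwSt x := by
  unfold dlwSt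
  ext : 1
  · simp only [Prod.smul_fst, Prod.smul_snd, Matrix.trace_smul, smul_sub, smul_eq_mul, mul_smul]
  · simp only [Prod.smul_fst, Prod.smul_snd, Matrix.trace_smul, smul_sub, smul_eq_mul, mul_smul]

theorem dlwSt_zero : dlwSt (0 : Module.End k V × Matrix (Fin 2) (Fin 2) k) = 0 := by
  unfold dlwSt
  ext : 1 <;> simp

/-- Cayley–Hamilton for `2 × 2` matrices -/
theorem dlw_cayley (M : Matrix (Fin 2) (Fin 2) k) :
    (M.trace • (1 : Matrix (Fin 2) (Fin 2) k) - M) * M = M.det • 1 := by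
  ext i j
  fin_cases i <;> fin_cases j <;>
    simp [Matrix.trace_fin_two, Matrix.det_fin_two, Matrix.mul_apply, Fin.sum_univ_two,
      Matrix.one_apply] <;> ring

variable (hCH : ∀ g, rV g * rV g - (rU g).trace • rV g + (rU g).det • (1 : Module.End k V) = 0)

include hCH in
theorem dlwSt_iota_mul (g : G) :
    dlwSt (dlwIota rV rU g) * dlwIota rV rU g
      = (rU g).det • (1 : Module.End k V × Matrix (Fin 2) (Fin 2) k) := by
  unfold dlwSt dlwIota
  ext : 1
  · simp only [MonoidHom.prod_apply, Prod.fst_mul, Prod.smul_fst, Prod.fst_one]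
    rw [sub_mul, smul_mul_assoc, one_mul]
    have := hCH g
    rw [sub_add_eq_add_sub, sub_eq_zero] at this
    rw [← this]
    abel
  · simp only [MonoidHom.prod_apply, Prod.snd_mul, Prod.smul_snd, Prod.snd_one]
    exact dlw_cayley (rU g)

include hCH in
theorem dlwSt_iota (g : G) :
    dlwSt (dlwIota rV rU g) = (rU g).det • dlwIota rV rU g⁻¹ := by
  have h := dlwSt_iota_mul rV rU hCH g
  have h1 : dlwSt (dlwIota rV rU g) = dlwSt (dlwIota rV rU g) * dlwIota rV rU g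
      * dlwIota rV rU g⁻¹ := by
    rw [mul_assoc, ← map_mul, mul_inv_cancel, map_one, mul_one]
  rw [h1, h, smul_mul_assoc, one_mul]

include hCH in
theorem dlwSt_iota_mul_iota (g h : G) :
    dlwSt (dlwIota rV rU g * dlwIota rV rU h)
      = dlwSt (dlwIota rV rU h) * dlwSt (dlwIota rV rU g) := by
  rw [← map_mul, dlwSt_iota rV rU hCH, dlwSt_iota rV rU hCH, dlwSt_iota rV rU hCH, map_mul,
    Matrix.det_mul, _root_.mul_inv_rev, map_mul, smul_mul_smul_comm,
    mul_comm (rU h).det (rU g).det]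

include hCH in
/-- `x ↦ tr(x) - x` is anti-multiplicative on `𝒜` -/
theorem dlwSt_mul {x y : Module.End k V × Matrix (Fin 2) (Fin 2) k}
    (hx : x ∈ dlwAlg rV rU) (hy : y ∈ dlwAlg rV rU) : dlwSt (x * y) = dlwSt y * dlwSt x := by
  induction hx using Submodule.span_induction with
  | mem x hx =>
    obtain ⟨g, rfl⟩ := hx
    induction hy using Submodule.span_induction with
    | mem y hy =>
      obtain ⟨h, rfl⟩ := hy
      exact dlwSt_iota_mul_iota rV rU hCH g h
    | zero => rw [mul_zero, dlwSt_zero, zero_mul]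
    | add y y' _ _ ih ih' => rw [mul_add, dlwSt_add, dlwSt_add, ih, ih', add_mul]
    | smul a y _ ih => rw [mul_smul_comm, dlwSt_smul, dlwSt_smul, ih, smul_mul_assoc]
  | zero => rw [zero_mul, dlwSt_zero, mul_zero]
  | add x x' _ _ ih ih' => rw [add_mul, dlwSt_add, dlwSt_add, ih, ih', mul_add]
  | smul a x _ ih => rw [smul_mul_assoc, dlwSt_smul, dlwSt_smul, ih, mul_smul_comm]

include hCH in
/-- (F1): an element of `𝒜` with vanishing matrix component quasi-anticommutes with `𝒜` -/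
theorem dlw_anti {a a' : Module.End k V} {b' : Matrix (Fin 2) (Fin 2) k}
    (hx : ((a, 0) : Module.End k V × Matrix (Fin 2) (Fin 2) k) ∈ dlwAlg rV rU)
    (hy : ((a', b') : Module.End k V × Matrix (Fin 2) (Fin 2) k) ∈ dlwAlg rV rU) :
    a * a' + a' * a = b'.trace • a := by
  have h := dlwSt_mul rV rU hCH hx hy
  have h1 := congrArg Prod.fst h
  unfold dlwSt at h1
  simp only [Prod.mk_mul_mk, zero_mul, Matrix.trace_zero, zero_smul, zero_sub] at h1
  -- `-(a a') = tr b' • (-a) - (-(a' a))`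
  rw [mul_neg, sub_mul, smul_mul_assoc, one_mul, neg_inj] at h1
  rw [h1]
  abel


/-! ### Matrix units in `𝒜` -/

theorem dlw_mat_E1 (h2 : (2 : k) ≠ 0) :
    ((2 : k)⁻¹ • ((1 : Matrix (Fin 2) (Fin 2) k) + !![1, 0; 0, -1])) = !![1, 0; 0, 0] := by
  have h : (2 : k)⁻¹ * (1 + 1) = 1 := by rw [one_add_one_eq_two]; exact inv_mul_cancel₀ h2
  ext i j
  fin_cases i <;> fin_cases j <;> simp [h]

theorem dlw_mat_E2 (h2 : (2 : k) ≠ 0) :
    ((2 : k)⁻¹ • ((1 : Matrix (Fin 2) (Fin 2) k) - !![1, 0; 0, -1])) = !![0, 0; 0, 1] := by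
  have h : (2 : k)⁻¹ * (1 + 1) = 1 := by rw [one_add_one_eq_two]; exact inv_mul_cancel₀ h2
  ext i j
  fin_cases i <;> fin_cases j <;> simp [h]

theorem dlw_mat_e (M : Matrix (Fin 2) (Fin 2) k) :
    (!![1, 0; 0, 0] : Matrix (Fin 2) (Fin 2) k) * M * !![0, 0; 0, 1] = M 0 1 • !![0, 1; 0, 0] := by
  ext i j
  fin_cases i <;> fin_cases j <;>
    simp [Matrix.mul_apply, Fin.sum_univ_two, Matrix.vecMul, dotProduct]

theorem dlw_mat_f (M : Matrix (Fin 2) (Fin 2) k) :
    (!![0, 0; 0, 1] : Matrix (Fin 2) (Fin 2) k) * M * !![1, 0; 0, 0] = M 1 0 • !![0, 0; 1, 0] := by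
  ext i j
  fin_cases i <;> fin_cases j <;>
    simp [Matrix.mul_apply, Fin.sum_univ_two, Matrix.vecMul, dotProduct]

variable (h2 : (2 : k) ≠ 0) (c : G) (hc : rU c = !![1, 0; 0, -1])

include h2 hc in
theorem dlw_exists_E1 : ∃ y ∈ dlwAlg rV rU, y.2 = !![1, 0; 0, 0] := by
  refine ⟨(2 : k)⁻¹ • (1 + dlwIota rV rU c), Submodule.smul_mem _ _
    (Submodule.add_mem _ (dlw_one_mem rV rU) (dlw_iota_mem rV rU c)), ?_⟩
  show (2 : k)⁻¹ • ((1 : Matrix (Fin 2) (Fin 2) k) + rU c) = _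
  rw [hc, dlw_mat_E1 h2]

include h2 hc in
theorem dlw_exists_E2 : ∃ y ∈ dlwAlg rV rU, y.2 = !![0, 0; 0, 1] := by
  refine ⟨(2 : k)⁻¹ • (1 - dlwIota rV rU c), Submodule.smul_mem _ _
    (Submodule.sub_mem _ (dlw_one_mem rV rU) (dlw_iota_mem rV rU c)), ?_⟩
  show (2 : k)⁻¹ • ((1 : Matrix (Fin 2) (Fin 2) k) - rU c) = _
  rw [hc, dlw_mat_E2 h2]

variable (g₁ g₂ : G) (hg₁ : rU g₁ 0 1 ≠ 0) (hg₂ : rU g₂ 1 0 ≠ 0)

include h2 hc hg₁ in
theorem dlw_exists_e : ∃ y ∈ dlwAlg rV rU, y.2 = !![0, 1; 0, 0] := by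
  obtain ⟨E1, hE1, e1⟩ := dlw_exists_E1 rV rU h2 c hc
  obtain ⟨E2, hE2, e2⟩ := dlw_exists_E2 rV rU h2 c hc
  refine ⟨(rU g₁ 0 1)⁻¹ • (E1 * dlwIota rV rU g₁ * E2), Submodule.smul_mem _ _
    (dlw_mul_mem rV rU (dlw_mul_mem rV rU hE1 (dlw_iota_mem rV rU g₁)) hE2), ?_⟩
  show (rU g₁ 0 1)⁻¹ • (E1.2 * rU g₁ * E2.2) = _
  rw [e1, e2, dlw_mat_e, smul_smul, inv_mul_cancel₀ hg₁, one_smul]

include h2 hc hg₂ in
theorem dlw_exists_f : ∃ y ∈ dlwAlg rV rU, y.2 = !![0, 0; 1, 0] := by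
  obtain ⟨E1, hE1, e1⟩ := dlw_exists_E1 rV rU h2 c hc
  obtain ⟨E2, hE2, e2⟩ := dlw_exists_E2 rV rU h2 c hc
  refine ⟨(rU g₂ 1 0)⁻¹ • (E2 * dlwIota rV rU g₂ * E1), Submodule.smul_mem _ _
    (dlw_mul_mem rV rU (dlw_mul_mem rV rU hE2 (dlw_iota_mem rV rU g₂)) hE1), ?_⟩
  show (rU g₂ 1 0)⁻¹ • (E2.2 * rU g₂ * E1.2) = _
  rw [e1, e2, dlw_mat_f, smul_smul, inv_mul_cancel₀ hg₂, one_smul]

include hCH h2 hc hg₁ hg₂ in
/-- **the projection `𝒜 → M₂(k)` is injective** -/
theorem dlw_inj {a : Module.End k V}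
    (hx : ((a, 0) : Module.End k V × Matrix (Fin 2) (Fin 2) k) ∈ dlwAlg rV rU) : a = 0 := by
  obtain ⟨y₁, hy₁, e₁⟩ := dlw_exists_e rV rU h2 c hc g₁ hg₁
  obtain ⟨y₂, hy₂, e₂⟩ := dlw_exists_f rV rU h2 c hc g₂ hg₂
  have two_cancel : ∀ z : Module.End k V, z + z = 0 → z = 0 := by
    intro z hz
    have : (2 : k) • z = 0 := by rw [two_smul]; exact hz
    exact (smul_eq_zero.mp this).resolve_left h2
  have hy₁' : ((y₁.1, (!![0, 1; 0, 0] : Matrix (Fin 2) (Fin 2) k)) :
      Module.End k V × Matrix (Fin 2) (Fin 2) k) ∈ dlwAlg rV rU := by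
    rw [← e₁]; exact hy₁
  have hy₂' : ((y₂.1, (!![0, 0; 1, 0] : Matrix (Fin 2) (Fin 2) k)) :
      Module.End k V × Matrix (Fin 2) (Fin 2) k) ∈ dlwAlg rV rU := by
    rw [← e₂]; exact hy₂
  set a₁ := y₁.1 with ha₁
  set a₂ := y₂.1 with ha₂
  have anti1 : a * a₁ + a₁ * a = 0 := by
    have := dlw_anti rV rU hCH hx hy₁'
    rw [this]
    simp [Matrix.trace_fin_two]
  have anti2 : a * a₂ + a₂ * a = 0 := by
    have := dlw_anti rV rU hCH hx hy₂'
    rw [this]
    simp [Matrix.trace_fin_two]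
  have c1 : a * a₁ = -(a₁ * a) := eq_neg_of_add_eq_zero_left anti1
  have c2 : a * a₂ = -(a₂ * a) := eq_neg_of_add_eq_zero_left anti2
  -- `y₃ = y₁ y₂ - y₂ y₁`
  have hy₃ : ((a₁ * a₂ - a₂ * a₁, (!![1, 0; 0, -1] : Matrix (Fin 2) (Fin 2) k)) :
      Module.End k V × Matrix (Fin 2) (Fin 2) k) ∈ dlwAlg rV rU := by
    have h := Submodule.sub_mem _ (dlw_mul_mem rV rU hy₁' hy₂') (dlw_mul_mem rV rU hy₂' hy₁')
    have e : ((a₁, (!![0, 1; 0, 0] : Matrix (Fin 2) (Fin 2) k)) :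
        Module.End k V × Matrix (Fin 2) (Fin 2) k) * (a₂, !![0, 0; 1, 0])
        - (a₂, !![0, 0; 1, 0]) * (a₁, !![0, 1; 0, 0])
        = (a₁ * a₂ - a₂ * a₁, !![1, 0; 0, -1]) := by
      ext : 1
      · rfl
      · show (!![0, 1; 0, 0] : Matrix (Fin 2) (Fin 2) k) * !![0, 0; 1, 0]
          - !![0, 0; 1, 0] * !![0, 1; 0, 0] = !![1, 0; 0, -1]
        ext i j
        fin_cases i <;> fin_cases j <;> simp [Matrix.mul_apply, Fin.sum_univ_two]
    rwa [e] at h
  set a₃ := a₁ * a₂ - a₂ * a₁ with ha₃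
  have anti3 : a * a₃ + a₃ * a = 0 := by
    have := dlw_anti rV rU hCH hx hy₃
    rw [this]
    simp [Matrix.trace_fin_two]
  have comm3 : a * a₃ = a₃ * a := by
    have e1 : a * (a₁ * a₂) = a₁ * a₂ * a := by
      rw [← mul_assoc, c1, neg_mul, mul_assoc, c2, mul_neg, neg_neg, mul_assoc]
    have e2 : a * (a₂ * a₁) = a₂ * a₁ * a := by
      rw [← mul_assoc, c2, neg_mul, mul_assoc, c1, mul_neg, neg_neg, mul_assoc]
    rw [ha₃, mul_sub, sub_mul, e1, e2]
  have zero3 : a * a₃ = 0 := by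
    apply two_cancel
    conv_lhs => rw [add_comm]; arg 1; rw [comm3]
    rw [add_comm]
    exact anti3
  -- `κ = y₃² - 1`
  have hκ : ((a₃ * a₃ - 1, (0 : Matrix (Fin 2) (Fin 2) k)) :
      Module.End k V × Matrix (Fin 2) (Fin 2) k) ∈ dlwAlg rV rU := by
    have h := Submodule.sub_mem _ (dlw_mul_mem rV rU hy₃ hy₃) (dlw_one_mem rV rU)
    have e : ((a₃, (!![1, 0; 0, -1] : Matrix (Fin 2) (Fin 2) k)) :
        Module.End k V × Matrix (Fin 2) (Fin 2) k) * (a₃, !![1, 0; 0, -1]) - 1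
        = (a₃ * a₃ - 1, 0) := by
      ext : 1
      · rfl
      · show (!![1, 0; 0, -1] : Matrix (Fin 2) (Fin 2) k) * !![1, 0; 0, -1] - 1 = 0
        ext i j
        fin_cases i <;> fin_cases j <;> simp [Matrix.mul_apply, Fin.sum_univ_two, Matrix.one_apply]
    rwa [e] at h
  have hκ2 : (a₃ * a₃ - 1) * (a₃ * a₃ - 1) = 0 := by
    apply two_cancel
    have := dlw_anti rV rU hCH hκ hκ
    rw [this]
    simp
  have haκ : a * (a₃ * a₃ - 1) = -a := by
    rw [mul_sub, ← mul_assoc, zero3, zero_mul, mul_one, zero_sub]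
  have : a = 0 := by
    have h1 : a * (a₃ * a₃ - 1) * (a₃ * a₃ - 1) = 0 := by rw [mul_assoc, hκ2, mul_zero]
    rw [haκ, neg_mul, haκ, neg_neg] at h1
    exact h1
  exact this

include hCH h2 hc hg₁ hg₂ in
/-- two elements of `𝒜` with the same matrix component are equal -/
theorem dlw_fst_eq {x y : Module.End k V × Matrix (Fin 2) (Fin 2) k}
    (hx : x ∈ dlwAlg rV rU) (hy : y ∈ dlwAlg rV rU) (h : x.2 = y.2) : x.1 = y.1 := by
  have hxy := Submodule.sub_mem _ hx hy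
  have e : x - y = (x.1 - y.1, 0) := by
    ext : 1
    · rfl
    · show x.2 - y.2 = 0
      rw [h, sub_self]
  rw [e] at hxy
  exact sub_eq_zero.mp (dlw_inj rV rU hCH h2 c hc g₁ g₂ hg₁ hg₂ hxy)


/-! ### The isomorphism -/

theorem dlw_mat_id1 : (!![1, 0; 0, 0] : Matrix (Fin 2) (Fin 2) k) * !![1, 0; 0, 0] = !![1, 0; 0, 0] := by
  ext i j
  fin_cases i <;> fin_cases j <;> simp [Matrix.mul_apply, Fin.sum_univ_two, Matrix.vecMul, dotProduct]

theorem dlw_mat_id2 : (!![0, 0; 1, 0] : Matrix (Fin 2) (Fin 2) k) * !![1, 0; 0, 0] = !![0, 0; 1, 0] := by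
  ext i j
  fin_cases i <;> fin_cases j <;> simp [Matrix.mul_apply, Fin.sum_univ_two, Matrix.vecMul, dotProduct]

theorem dlw_mat_id3 : (!![1, 0; 0, 0] : Matrix (Fin 2) (Fin 2) k) * !![0, 0; 1, 0] = 0 := by
  ext i j
  fin_cases i <;> fin_cases j <;> simp [Matrix.mul_apply, Fin.sum_univ_two, Matrix.vecMul, dotProduct]

theorem dlw_mat_id4 : (!![0, 1; 0, 0] : Matrix (Fin 2) (Fin 2) k) * !![0, 0; 1, 0] = !![1, 0; 0, 0] := by
  ext i j
  fin_cases i <;> fin_cases j <;> simp [Matrix.mul_apply, Fin.sum_univ_two, Matrix.vecMul, dotProduct]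

theorem dlw_mat_id5 : (!![0, 0; 1, 0] : Matrix (Fin 2) (Fin 2) k) * !![0, 1; 0, 0] = !![0, 0; 0, 1] := by
  ext i j
  fin_cases i <;> fin_cases j <;> simp [Matrix.mul_apply, Fin.sum_univ_two, Matrix.vecMul, dotProduct]

theorem dlw_mat_id0 : (!![1, 0; 0, 0] : Matrix (Fin 2) (Fin 2) k) + !![0, 0; 0, 1] = 1 := by
  ext i j
  fin_cases i <;> fin_cases j <;> simp [Matrix.one_apply]

theorem dlw_mat_id6 (M : Matrix (Fin 2) (Fin 2) k) :
    M * !![1, 0; 0, 0] = M 0 0 • !![1, 0; 0, 0] + M 1 0 • !![0, 0; 1, 0] := by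
  ext i j
  fin_cases i <;> fin_cases j <;> simp [Matrix.mul_apply, Fin.sum_univ_two, Matrix.vecMul, dotProduct]

theorem dlw_mat_id7 (M : Matrix (Fin 2) (Fin 2) k) :
    M * !![0, 0; 1, 0] = M 0 1 • !![1, 0; 0, 0] + M 1 1 • !![0, 0; 1, 0] := by
  ext i j
  fin_cases i <;> fin_cases j <;> simp [Matrix.mul_apply, Fin.sum_univ_two, Matrix.vecMul, dotProduct]

include hCH h2 hc hg₁ hg₂ in
/-- **Boston–Lenstra–Ribet**: a simple module on which every `g` is killed by the characteristic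
polynomial of `rU g` is isomorphic to `k²` with the action `rU` -/
theorem dlw_blr [Nontrivial V]
    (hsimple : ∀ N : Submodule k V, (∀ g, ∀ x ∈ N, rV g x ∈ N) → N = ⊥ ∨ N = ⊤) :
    ∃ φ : (Fin 2 → k) ≃ₗ[k] V, ∀ (g : G) (u : Fin 2 → k),
      φ ((rU g).mulVec u) = rV g (φ u) := by
  obtain ⟨E1, hE1, e1⟩ := dlw_exists_E1 rV rU h2 c hc
  obtain ⟨E2, hE2, e2⟩ := dlw_exists_E2 rV rU h2 c hc
  obtain ⟨y₁, hy₁, ey₁⟩ := dlw_exists_e rV rU h2 c hc g₁ hg₁
  obtain ⟨y₂, hy₂, ey₂⟩ := dlw_exists_f rV rU h2 c hc g₂ hg₂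
  have key : ∀ {x y : Module.End k V × Matrix (Fin 2) (Fin 2) k}, x ∈ dlwAlg rV rU →
      y ∈ dlwAlg rV rU → x.2 = y.2 → x.1 = y.1 :=
    fun hx hy h => dlw_fst_eq rV rU hCH h2 c hc g₁ g₂ hg₁ hg₂ hx hy h
  set P := E1.1 with hP
  set P' := E2.1 with hP'
  set Ev := y₁.1 with hEv
  set Fv := y₂.1 with hFv
  have i1 : P * P = P := key (dlw_mul_mem rV rU hE1 hE1) hE1 (by
    show E1.2 * E1.2 = E1.2
    rw [e1, dlw_mat_id1])
  have i2 : Fv * P = Fv := key (dlw_mul_mem rV rU hy₂ hE1) hy₂ (by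
    show y₂.2 * E1.2 = y₂.2
    rw [e1, ey₂, dlw_mat_id2])
  have i3 : P * Fv = 0 := key (dlw_mul_mem rV rU hE1 hy₂) (Submodule.zero_mem _) (by
    show E1.2 * y₂.2 = 0
    rw [e1, ey₂, dlw_mat_id3])
  have i4 : Ev * Fv = P := key (dlw_mul_mem rV rU hy₁ hy₂) hE1 (by
    show y₁.2 * y₂.2 = E1.2
    rw [e1, ey₁, ey₂, dlw_mat_id4])
  have i5 : Fv * Ev = P' := key (dlw_mul_mem rV rU hy₂ hy₁) hE2 (by
    show y₂.2 * y₁.2 = E2.2
    rw [e2, ey₁, ey₂, dlw_mat_id5])
  have i0 : P + P' = 1 := key (Submodule.add_mem _ hE1 hE2) (dlw_one_mem rV rU) (by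
    show E1.2 + E2.2 = 1
    rw [e1, e2, dlw_mat_id0])
  have i6 : ∀ g, rV g * P = (rU g 0 0) • P + (rU g 1 0) • Fv := fun g =>
    key (dlw_mul_mem rV rU (dlw_iota_mem rV rU g) hE1)
      (Submodule.add_mem _ (Submodule.smul_mem _ _ hE1) (Submodule.smul_mem _ _ hy₂)) (by
    show rU g * E1.2 = (rU g 0 0) • E1.2 + (rU g 1 0) • y₂.2
    rw [e1, ey₂, dlw_mat_id6])
  have i7 : ∀ g, rV g * Fv = (rU g 0 1) • P + (rU g 1 1) • Fv := fun g =>
    key (dlw_mul_mem rV rU (dlw_iota_mem rV rU g) hy₂)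
      (Submodule.add_mem _ (Submodule.smul_mem _ _ hE1) (Submodule.smul_mem _ _ hy₂)) (by
    show rU g * y₂.2 = (rU g 0 1) • E1.2 + (rU g 1 1) • y₂.2
    rw [e1, ey₂, dlw_mat_id7])
  -- `P ≠ 0`
  have hP0 : P ≠ 0 := by
    intro h0
    have hF0 : Fv = 0 := by rw [← i2, h0, mul_zero]
    have hP'0 : P' = 0 := by rw [← i5, hF0, zero_mul]
    rw [h0, hP'0, add_zero] at i0
    obtain ⟨x, hx⟩ := exists_ne (0 : V)
    apply hx
    have := congrArg (fun f : Module.End k V => f x) i0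
    simpa using this.symm
  obtain ⟨v₀, hv₀⟩ : ∃ v₀, P v₀ ≠ 0 := by
    by_contra hcon
    push Not at hcon
    exact hP0 (LinearMap.ext fun x => by rw [hcon x, LinearMap.zero_apply])
  set v := P v₀ with hv
  have hPv : P v = v := by
    have := congrArg (fun f : Module.End k V => f v₀) i1
    exact this
  have hPFv : P (Fv v) = 0 := by
    have := congrArg (fun f : Module.End k V => f v) i3
    exact this
  have hEFv : Ev (Fv v) = v := by
    have := congrArg (fun f : Module.End k V => f v) i4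
    simp only [Module.End.mul_apply] at this
    rw [this, hPv]
  have hgv : ∀ g, rV g v = (rU g 0 0) • v + (rU g 1 0) • Fv v := by
    intro g
    have := congrArg (fun f : Module.End k V => f v) (i6 g)
    simp only [Module.End.mul_apply, LinearMap.add_apply, LinearMap.smul_apply] at this
    rw [hPv] at this
    exact this
  have hgF : ∀ g, rV g (Fv v) = (rU g 0 1) • v + (rU g 1 1) • Fv v := by
    intro g
    have := congrArg (fun f : Module.End k V => f v) (i7 g)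
    simp only [Module.End.mul_apply, LinearMap.add_apply, LinearMap.smul_apply] at this
    rw [hPv] at this
    exact this
  -- the map
  let φ₀ : (Fin 2 → k) →ₗ[k] V :=
    (LinearMap.proj (R := k) (φ := fun _ : Fin 2 => k) 0).smulRight v
      + (LinearMap.proj (R := k) (φ := fun _ : Fin 2 => k) 1).smulRight (Fv v)
  have hφ₀ : ∀ u : Fin 2 → k, φ₀ u = u 0 • v + u 1 • Fv v := fun u => rfl
  have hequi : ∀ (g : G) (u : Fin 2 → k), φ₀ ((rU g).mulVec u) = rV g (φ₀ u) := by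
    intro g u
    rw [hφ₀, hφ₀, map_add, map_smul, map_smul, hgv, hgF]
    simp only [Matrix.mulVec, dotProduct, Fin.sum_univ_two]
    module
  have hinj : Function.Injective φ₀ := by
    rw [← LinearMap.ker_eq_bot, LinearMap.ker_eq_bot']
    intro u hu
    rw [hφ₀] at hu
    have h0 : u 0 = 0 := by
      have := congrArg P hu
      rw [map_add, map_smul, map_smul, hPv, hPFv, smul_zero, add_zero, map_zero] at this
      exact (smul_eq_zero.mp this).resolve_right hv₀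
    rw [h0, zero_smul, zero_add] at hu
    have h1 : u 1 = 0 := by
      have := congrArg Ev hu
      rw [map_smul, hEFv, map_zero] at this
      exact (smul_eq_zero.mp this).resolve_right hv₀
    funext i
    fin_cases i
    · exact h0
    · exact h1
  have hsurj : Function.Surjective φ₀ := by
    rw [← LinearMap.range_eq_top]
    rcases hsimple (LinearMap.range φ₀) (by
      rintro g _ ⟨u, rfl⟩
      exact ⟨(rU g).mulVec u, hequi g u⟩) with h | h
    · exfalso
      apply hv₀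
      have hmem : v ∈ LinearMap.range φ₀ := ⟨![1, 0], by rw [hφ₀]; simp⟩
      rw [h, Submodule.mem_bot] at hmem
      exact hmem
    · exact h
  exact ⟨LinearEquiv.ofBijective φ₀ ⟨hinj, hsurj⟩, fun g u => hequi g u⟩

end Blr

end Fermat.Agent.Delta
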