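/-
DELTA / WIRE (helper4), part 5: **a simple Galois module satisfying the Eichler–Shimura relations of
`W` is isomorphic to `W[p]`**.

`dlw_iso_of_ES`: `V₀` a finite, `p`-torsion, simple `G_ℚ`-module of finite level such that every
Frobenius element `φ` at a good prime `ℓ` (outside a finite set) satisfies
`φ² − a_ℓ(W) φ + ℓ = 0` on `V₀`; `W[p]` irreducible, `p` odd.  Then `V₀ ≅ W[p]` as `G_ℚ`-modules.
Proof: Chebotarev (`s58c_exists_frob`) + (ET) (`s58_et`) turn the hypothesis into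
`g² − tr(g | W[p]) g + det(g | W[p]) = 0` on `V₀` for every `g`; then Boston–Lenstra–Ribet (`dlw_blr`).
-/
import Mathlib
import Fermat.Agent.Lib.Delta.Wire.Blr
import Fermat.Agent.Lib.S58.Det
import Fermat.Agent.Lib.S58.ET
import Fermat.Agent.Lib.S58.Match
import Fermat.Agent.Lib.S58.Residual
import Fermat.Agent.Lib.TW.Local.Arch

set_option autoImplicit false
set_option linter.unusedSectionVars false
set_option linter.unusedVariables false
set_option linter.style.haveILetI false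

namespace Fermat.Agent.Delta

open Fermat.Agent.S58 Fermat.Agent.TW Fermat.Agent.CFT.Pinf Module

local notation "Qb" => AlgebraicClosure ℚ
local notation "GQ" => (AlgebraicClosure ℚ ≃ₐ[ℚ] AlgebraicClosure ℚ)

/-- complex conjugation is not the identity -/
theorem dlw_conj_ne_one : complexConjugation ≠ 1 := by
  intro h
  haveI : NeZero 3 := ⟨by norm_num⟩
  have hζ := zetaQbar_spec 3
  have h1 := tw_complexConjugation_rootOfUnity (by norm_num : 0 < 3) hζ.pow_eq_one
  rw [h] at h1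
  have h0 : zetaQbar 3 ≠ 0 := hζ.ne_zero (by norm_num)
  have h2 : zetaQbar 3 ^ 2 = 1 := by
    have : zetaQbar 3 = (zetaQbar 3)⁻¹ := h1
    rw [sq]
    nth_rewrite 2 [this]
    exact mul_inv_cancel₀ h0
  have := hζ.dvd_of_pow_eq_one 2 h2
  omega

section LinAlg

variable {G : Type*} [Group G] {k : Type*} [Field k] {U : Type*} [AddCommGroup U] [Module k U]

/-- the matrix of an involution in an eigenbasis -/
theorem dlw_matrix_of_eigen (b : Basis (Fin 2) k U) (f : Module.End k U) (h0 : f (b 0) = b 0)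
    (h1 : f (b 1) = - b 1) : LinearMap.toMatrix b b f = !![1, 0; 0, -1] := by
  ext i j
  rw [LinearMap.toMatrix_apply]
  fin_cases i <;> fin_cases j <;> simp [h0, h1]

/-- irreducibility gives non-zero off-diagonal entries -/
theorem dlw_exists_offdiag (b : Basis (Fin 2) k U) (r : G →* Module.End k U)
    (hirr : ∀ N : Submodule k U, (∀ g, ∀ x ∈ N, r g x ∈ N) → N = ⊥ ∨ N = ⊤) :
    (∃ g, LinearMap.toMatrix b b (r g) 0 1 ≠ 0) ∧ (∃ g, LinearMap.toMatrix b b (r g) 1 0 ≠ 0) := by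
  have key : ∀ i j : Fin 2, i ≠ j → ∃ g, LinearMap.toMatrix b b (r g) i j ≠ 0 := by
    intro i j hij
    by_contra hcon
    push Not at hcon
    have hother : ∀ l : Fin 2, l = i ∨ l = j := by
      intro l
      fin_cases i <;> fin_cases j <;> fin_cases l <;> simp_all
    have hstab : ∀ g, ∀ x ∈ Submodule.span k {b j}, r g x ∈ Submodule.span k {b j} := by
      intro g x hx
      obtain ⟨a, rfl⟩ := Submodule.mem_span_singleton.mp hx
      rw [map_smul]
      apply Submodule.smul_mem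
      have h1 := b.sum_repr (r g (b j))
      rw [← h1]
      apply Submodule.sum_mem
      intro l _
      rcases hother l with rfl | rfl
      · have := hcon g
        rw [LinearMap.toMatrix_apply] at this
        rw [this, zero_smul]
        exact Submodule.zero_mem _
      · exact Submodule.smul_mem _ _ (Submodule.mem_span_singleton_self _)
    rcases hirr _ hstab with h | h
    · have : b j ∈ Submodule.span k {b j} := Submodule.mem_span_singleton_self _
      rw [h, Submodule.mem_bot] at this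
      exact b.ne_zero j this
    · have : b i ∈ Submodule.span k {b j} := by rw [h]; exact Submodule.mem_top
      obtain ⟨a, ha⟩ := Submodule.mem_span_singleton.mp this
      have h2 := congrArg (fun x => b.repr x i) ha
      simp only [map_smul, Basis.repr_self, Finsupp.smul_apply, Finsupp.single_eq_same,
        smul_eq_mul] at h2
      rw [Finsupp.single_eq_of_ne hij, mul_zero] at h2
      exact zero_ne_one h2
  exact ⟨key 0 1 (by decide), key 1 0 (by decide)⟩

end LinAlg

section Iso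

variable {A : Type} [AddCommGroup A] [DistribMulAction GQ A]

set_option maxHeartbeats 1600000 in
/-- **a simple Galois module satisfying the Eichler–Shimura relations of `W` is `≅ W[p]`** -/
theorem dlw_iso_of_ES (V₀ : AddSubgroup A) [Finite V₀] {p : ℕ} [hp : Fact p.Prime] (hp2 : p ≠ 2)
    (hV₀ : V₀ ≠ ⊥) (htor : ∀ x ∈ V₀, p • x = 0) (hstab : ∀ σ : GQ, ∀ x ∈ V₀, σ • x ∈ V₀)
    (hmin : ∀ V₁ : AddSubgroup A, V₁ ≤ V₀ → (∀ σ : GQ, ∀ x ∈ V₁, σ • x ∈ V₁) → V₁ = ⊥ ∨ V₁ = V₀)
    (hlevel : ∃ L : IntermediateField ℚ Qb, FiniteDimensional ℚ L ∧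
      ∀ σ : GQ, (∀ a ∈ L, σ a = a) → ∀ x ∈ V₀, σ • x = x)
    (W : WeierstrassCurve ℤ) (hΔ : W.Δ ≠ 0) (hirr : W.ModRepIsIrreducible p) (T : Finset ℕ)
    (hES : ∀ ℓ : ℕ, ℓ.Prime → ℓ ∉ T → ¬ (ℓ : ℤ) ∣ W.Δ → ℓ ≠ p →
      ∀ (B : ValuationSubring Qb) (φ : GQ), B.LiesOverPrime ℓ → B.IsFrobeniusAt φ ℓ →
        ∀ x ∈ V₀, φ • φ • x - W.apOfModel ℓ • (φ • x) + ℓ • x = 0) :
    ∃ ψ : ↥(S58Tors W p) ≃+ ↥V₀, ∀ (σ : GQ) (Q : S58Tors W p),
      ((ψ (σ • Q) : ↥V₀) : A) = σ • ((ψ Q : ↥V₀) : A) := by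
  classical
  haveI : NeZero p := ⟨hp.out.ne_zero⟩
  haveI hfinU : Finite (S58Tors W p) := s58d_finite_tors W hΔ hp.out.pos
  have het := s58_et W hΔ
  have h2 : (2 : ZMod p) ≠ 0 := by
    intro h
    have h' : ((2 : ℕ) : ZMod p) = 0 := by exact_mod_cast h
    rw [ZMod.natCast_eq_zero_iff] at h'
    exact hp2 ((Nat.prime_dvd_prime_iff_eq hp.out Nat.prime_two).mp h')
  -- module structure and action on `V₀`
  haveI modV : Module (ZMod p) V₀ :=
    AddCommGroup.zmodModule (fun x => Subtype.ext (by simpa using htor x x.2))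
  obtain ⟨actV, hactV⟩ : ∃ actV : GQ → (V₀ →+ V₀),
      ∀ (σ : GQ) (x : V₀), ((actV σ x : V₀) : A) = σ • (x : A) :=
    ⟨fun σ =>
      { toFun := fun x => ⟨σ • (x : A), hstab σ x.1 x.2⟩
        map_zero' := Subtype.ext (smul_zero σ)
        map_add' := fun x y => Subtype.ext (smul_add σ (x : A) (y : A)) }, fun σ x => rfl⟩
  obtain ⟨rV, hrV⟩ : ∃ rV : GQ →* Module.End (ZMod p) V₀,
      ∀ (σ : GQ) (x : V₀), ((rV σ x : V₀) : A) = σ • (x : A) := by
    refine ⟨{ toFun := fun σ => (actV σ).toZModLinearMap p, map_one' := ?_, map_mul' := ?_ }, ?_⟩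
    · apply LinearMap.ext
      intro x
      apply Subtype.ext
      rw [AddMonoidHom.coe_toZModLinearMap, hactV, one_smul]
      rfl
    · intro σ τ
      apply LinearMap.ext
      intro x
      apply Subtype.ext
      rw [Module.End.mul_apply, AddMonoidHom.coe_toZModLinearMap, AddMonoidHom.coe_toZModLinearMap,
        AddMonoidHom.coe_toZModLinearMap, hactV, hactV, hactV, mul_smul]
    · intro σ x
      exact hactV σ x
  -- `W[p]` is a plane; the eigenbasis of complex conjugation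
  have hU2 : finrank (ZMod p) (S58Tors W p) = 2 :=
    (s58m_free W hΔ hp.out (pow_one p).symm).2.2 one_ne_zero
  have hcc : complexConjugation * complexConjugation = 1 := complexConjugation_mul_self
  have hdetc := s58d_det_involution W hΔ het hp.out hp2 complexConjugation hcc dlw_conj_ne_one
  have hff : s58Gal W p complexConjugation * s58Gal W p complexConjugation = 1 := by
    rw [← map_mul, hcc, map_one]
  obtain ⟨b, hb0, hb1⟩ := s58r_exists_eigenbasis hU2 h2 (s58Gal W p complexConjugation) hff hdetc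
  let rU : GQ →* Matrix (Fin 2) (Fin 2) (ZMod p) :=
    ((LinearMap.toMatrixAlgEquiv b : Module.End (ZMod p) (S58Tors W p) ≃ₐ[ZMod p] _) :
      Module.End (ZMod p) (S58Tors W p) →* _).comp (s58Gal W p)
  have hrU : ∀ σ, rU σ = LinearMap.toMatrix b b (s58Gal W p σ) := fun σ => rfl
  have hc : rU complexConjugation = !![1, 0; 0, -1] := by
    rw [hrU]
    exact dlw_matrix_of_eigen b _ hb0 hb1
  have hirrU : ∀ N : Submodule (ZMod p) (S58Tors W p),
      (∀ g, ∀ x ∈ N, s58Gal W p g x ∈ N) → N = ⊥ ∨ N = ⊤ := fun N hN => hirr.2 N hN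
  obtain ⟨⟨g₁, hg₁⟩, ⟨g₂, hg₂⟩⟩ := dlw_exists_offdiag b (s58Gal W p) hirrU
  -- Chebotarev
  let ρ : GQ →* (Module.End (ZMod p) V₀)ˣ × ((Module.End (ZMod p) (S58Tors W p))ˣ × (ZMod p)ˣ) :=
    rV.toHomUnits.prod (s58dRho W p)
  have hlev : GaloisFactorsThroughFiniteLevel ρ := by
    obtain ⟨L₁, hL₁, h₁⟩ := hlevel
    obtain ⟨L₂, hL₂, h₂⟩ := s58d_level W hΔ p
    haveI := hL₁
    haveI := hL₂
    refine ⟨L₁ ⊔ L₂, IntermediateField.finiteDimensional_sup _ _, fun σ hσ => ?_⟩
    have hσ1 : ∀ a ∈ L₁, σ a = a := fun a ha => hσ a ((le_sup_left : L₁ ≤ _) ha)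
    have hσ2 : ∀ a ∈ L₂, σ a = a := fun a ha => hσ a ((le_sup_right : L₂ ≤ _) ha)
    refine Prod.ext ?_ (h₂ σ hσ2)
    apply Units.ext
    show rV σ = 1
    apply LinearMap.ext
    intro x
    apply Subtype.ext
    rw [hrV, Module.End.one_apply]
    exact h₁ σ hσ1 x x.2
  have hCH : ∀ g, rV g * rV g - (rU g).trace • rV g + (rU g).det • (1 : Module.End (ZMod p) V₀)
      = 0 := by
    intro g
    obtain ⟨ℓ, hℓ, hℓT, B, φ, hB, hφ, hρ⟩ := s58c_exists_frob ρ hlev
      (T ∪ insert p W.Δ.natAbs.primeFactors) g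
    rw [Finset.mem_union, not_or, Finset.mem_insert, not_or] at hℓT
    obtain ⟨hℓT, hℓp, hℓΔ⟩ := hℓT
    have hgood : ¬ (ℓ : ℤ) ∣ W.Δ := by
      intro h
      apply hℓΔ
      rw [Nat.mem_primeFactors]
      exact ⟨hℓ, Int.natCast_dvd.mp h, Int.natAbs_ne_zero.mpr hΔ⟩
    have hV : rV φ = rV g := by
      have := congrArg (fun q => ((q.1 : (Module.End (ZMod p) V₀)ˣ) : Module.End (ZMod p) V₀)) hρ
      exact this
    have hG : s58Gal W p φ = s58Gal W p g := by
      have := congrArg (fun q => q.2) hρ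
      have h' : s58dRho W p φ = s58dRho W p g := this
      rw [← s58dRho_fst, ← s58dRho_fst, h']
    obtain ⟨htr, hdet⟩ := het ℓ p 1 p hℓ hgood hp.out (Ne.symm hℓp) (pow_one p).symm B hB φ hφ
    have htr' : (rU g).trace = ((W.apOfModel ℓ : ℤ) : ZMod p) := by
      rw [hrU, ← hG, ← htr]
      exact (LinearMap.trace_eq_matrix_trace (ZMod p) b _).symm
    have hdet' : (rU g).det = ((ℓ : ℕ) : ZMod p) := by
      rw [hrU, ← hG, ← hdet]
      exact LinearMap.det_toMatrix b _
    rw [htr', hdet', ← hV]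
    apply LinearMap.ext
    intro x
    rw [LinearMap.zero_apply, LinearMap.add_apply, LinearMap.sub_apply, Module.End.mul_apply,
      LinearMap.smul_apply, LinearMap.smul_apply, Module.End.one_apply, Int.cast_smul_eq_zsmul,
      Nat.cast_smul_eq_nsmul]
    apply Subtype.ext
    rw [AddSubgroup.coe_add, AddSubgroup.coe_sub, AddSubgroup.coe_zsmul, AddSubgroup.coe_nsmul,
      hrV, hrV]
    exact hES ℓ hℓ hℓT hgood hℓp B φ hB hφ x x.2
  -- simplicity
  have hsimple : ∀ N : Submodule (ZMod p) V₀, (∀ g, ∀ x ∈ N, rV g x ∈ N) → N = ⊥ ∨ N = ⊤ := by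
    intro N hN
    let V₁ : AddSubgroup A := N.toAddSubgroup.map V₀.subtype
    have hV₁le : V₁ ≤ V₀ := by
      rintro _ ⟨x, -, rfl⟩
      exact x.2
    have hV₁st : ∀ σ : GQ, ∀ x ∈ V₁, σ • x ∈ V₁ := by
      rintro σ _ ⟨x, hx, rfl⟩
      exact ⟨rV σ x, hN σ x hx, hrV σ x⟩
    rcases hmin V₁ hV₁le hV₁st with h | h
    · left
      rw [Submodule.eq_bot_iff]
      intro x hx
      have : (x : A) ∈ V₁ := ⟨x, hx, rfl⟩
      rw [h, AddSubgroup.mem_bot] at this
      exact Subtype.ext this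
    · right
      rw [Submodule.eq_top_iff']
      intro x
      have : (x : A) ∈ V₁ := by rw [h]; exact x.2
      obtain ⟨y, hy, hyx⟩ := this
      have : y = x := Subtype.ext hyx
      rwa [← this]
  haveI : Nontrivial V₀ := (AddSubgroup.nontrivial_iff_ne_bot V₀).mpr hV₀
  obtain ⟨φ, hφ⟩ := dlw_blr rV rU hCH h2 complexConjugation hc g₁ g₂ hg₁ hg₂ hsimple
  refine ⟨(b.equivFun.trans φ).toAddEquiv, fun σ Q => ?_⟩
  show ((φ (b.equivFun (σ • Q)) : V₀) : A) = σ • ((φ (b.equivFun Q) : V₀) : A)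
  rw [← hrV, ← hφ]
  congr 2
  have := LinearMap.toMatrix_mulVec_repr b b (s58Gal W p σ) Q
  rw [hrU]
  exact this.symm

end Iso

end Fermat.Agent.Delta
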