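/-
DELTA / WIRE (helper4), part 6: **(D1): `E[p]` sits inside `J₀(N)[p]`**.

`dlw_D1`: for a Frey package `P` with `p ∣ abc`, `E[p]` irreducible and `P.ModularRepOfLevel N`, there
are an integral model `W` of the Frey curve and a Galois-stable subgroup `V ≤ J₀(N)[p]` with a
Galois-equivariant isomorphism `E[p] ≃+ V`, on which `T_ℓ` acts through `a_ℓ(W)` for all good
`ℓ ∤ N`, `ℓ ≠ p`, and which is *peu ramifiée* at a given place `𝔓` over `p` (`DlwPeu`).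
-/
import Mathlib
import Fermat.Agent.Lib.Delta.Wire.Iso
import Fermat.Agent.Lib.Delta.Wire.EigenSpace
import Fermat.Agent.Lib.Delta.Peu.Frey
import Fermat.Agent.Lib.Alpha.Fin.Open

set_option autoImplicit false
set_option linter.unusedSectionVars false
set_option linter.unusedVariables false
set_option linter.style.haveILetI false

open WeierstrassCurve WeierstrassCurve.Affine WeierstrassCurve.Affine.Point

namespace Fermat.Agent.Delta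

open AlgebraicCurve ModularCurve Fermat.Agent.T1 Fermat.Agent.T3 Fermat.Agent.Alpha
open Fermat.Agent.S05Lib Fermat.Agent.S13Lib Fermat.Agent.TW Fermat.Agent.S58

local notation "Qb" => AlgebraicClosure ℚ
local notation "GQ" => (AlgebraicClosure ℚ ≃ₐ[ℚ] AlgebraicClosure ℚ)

/-- the discriminant of an integral model of the Frey curve does not vanish -/
theorem dlw_frey_model_Δ (P : FreyPackage) {W : WeierstrassCurve ℤ}
    (hWE : W.IsIntegralModelOf P.freyCurve) : W.Δ ≠ 0 := by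
  obtain ⟨C, hC⟩ := hWE
  intro h0
  have h1 : (W.map (Int.castRingHom ℚ)).Δ = 0 := by
    rw [WeierstrassCurve.map_Δ, h0, _root_.map_zero]
  rw [← hC, WeierstrassCurve.variableChange_Δ, freyCurve_eq_ab P,
    WeierstrassCurve.variableChange_Δ, dlp_legQ_Δ] at h1
  have ha : ((P.a ^ P.p : ℤ) : ℚ) ≠ 0 := by exact_mod_cast pow_ne_zero _ P.ha0
  have hb : ((-(P.b ^ P.p) : ℤ) : ℚ) ≠ 0 := by
    exact_mod_cast neg_ne_zero.mpr (pow_ne_zero _ P.hb0)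
  have hc : ((P.a ^ P.p : ℤ) : ℚ) - ((-(P.b ^ P.p) : ℤ) : ℚ) ≠ 0 := by
    have h : (P.a ^ P.p : ℤ) - (-(P.b ^ P.p)) = P.c ^ P.p := by
      rw [sub_neg_eq_add, P.hFLT]
    have h' : ((P.a ^ P.p : ℤ) : ℚ) - ((-(P.b ^ P.p) : ℤ) : ℚ) = ((P.c ^ P.p : ℤ) : ℚ) := by
      rw [← h]; push_cast; ring
    rw [h']
    exact_mod_cast pow_ne_zero _ P.hc0
  rcases mul_eq_zero.mp h1 with h | h
  · exact (pow_ne_zero 12 (Units.ne_zero _)) h
  · rcases mul_eq_zero.mp h with h | h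
    · exact (pow_ne_zero 12 (Units.ne_zero _)) h
    · rcases mul_eq_zero.mp h with h | h
      · norm_num at h
      · exact (mul_ne_zero (mul_ne_zero ha hb) hc) (pow_eq_zero_iff (two_ne_zero)|>.mp h)

/-- the restriction of an isomorphism to the torsion subgroups -/
theorem dlw_tors_equiv {A B : Type*} [AddCommGroup A] [AddCommGroup B] (φ : A ≃+ B) (n : ℕ) :
    ∃ ψ : ↥(Submodule.torsionBy ℤ A (n : ℤ)) ≃+ ↥(Submodule.torsionBy ℤ B (n : ℤ)),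
      ∀ x, ((ψ x : ↥(Submodule.torsionBy ℤ B (n : ℤ))) : B) = φ x := by
  have h1 : ∀ x : A, x ∈ Submodule.torsionBy ℤ A (n : ℤ) →
      φ x ∈ Submodule.torsionBy ℤ B (n : ℤ) := by
    intro x hx
    rw [Submodule.mem_torsionBy_iff] at hx ⊢
    rw [← map_zsmul, hx, _root_.map_zero]
  have h2 : ∀ y : B, y ∈ Submodule.torsionBy ℤ B (n : ℤ) →
      φ.symm y ∈ Submodule.torsionBy ℤ A (n : ℤ) := by
    intro x hx
    rw [Submodule.mem_torsionBy_iff] at hx ⊢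
    rw [← map_zsmul, hx, _root_.map_zero]
  refine ⟨{ toFun := fun x => ⟨φ x, h1 x x.2⟩
            invFun := fun y => ⟨φ.symm y, h2 y y.2⟩
            left_inv := fun x => Subtype.ext (φ.symm_apply_apply x)
            right_inv := fun y => Subtype.ext (φ.apply_symm_apply y)
            map_add' := fun x y => Subtype.ext (map_add φ (x : A) (y : A)) }, fun x => rfl⟩

section Level

variable (N : ℕ) [NeZero N]

/-- a finite subgroup of torsion points of `J₀(N)` is fixed pointwise by an open subgroup -/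
theorem dlw_level_of_finite {m : ℕ} (hm : m ≠ 0) (V : AddSubgroup (JZero N)) [Finite V]
    (htor : ∀ x ∈ V, m • x = 0) :
    ∃ L : IntermediateField ℚ Qb, FiniteDimensional ℚ L ∧
      ∀ σ : GQ, (∀ a ∈ L, σ a = a) → ∀ x ∈ V, σ • x = x := by
  classical
  have h : ∀ x : V, ∃ L : IntermediateField ℚ Qb, FiniteDimensional ℚ L ∧
      ∀ σ : GQ, (∀ a ∈ L, σ a = a) → σ • (x : JZero N) = x :=
    fun x => alpf_open N m hm x (by rw [natCast_zsmul]; exact htor x x.2)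
  choose L hL hfix using h
  haveI : ∀ x, FiniteDimensional ℚ (L x) := hL
  refine ⟨⨆ x, L x, IntermediateField.finiteDimensional_iSup_of_finite, fun σ hσ x hx => ?_⟩
  exact hfix ⟨x, hx⟩ σ (fun a ha => hσ a ((le_iSup L ⟨x, hx⟩) ha))

/-- **a copy of `W[p]` in the `W`-eigenspace of `J₀(N)[p]`** -/
theorem dlw_exists_iso {p : ℕ} [hp : Fact p.Prime] (hp2 : p ≠ 2) (W : WeierstrassCurve ℤ)
    (hΔ : W.Δ ≠ 0) (hirr : W.ModRepIsIrreducible p) (x₀ : JZero N) (hx₀ : x₀ ≠ 0)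
    (hx₀mem : x₀ ∈ dlwEig N p W) :
    ∃ (V₀ : AddSubgroup (JZero N)) (ψ : ↥(S58Tors W p) ≃+ ↥V₀), V₀ ≤ dlwEig N p W ∧
      (∀ σ : GQ, ∀ x ∈ V₀, σ • x ∈ V₀) ∧
      ∀ (σ : GQ) (Q : S58Tors W p), ((ψ (σ • Q) : ↥V₀) : JZero N) = σ • ((ψ Q : ↥V₀) : JZero N) := by
  classical
  have hp0 : p ≠ 0 := hp.out.ne_zero
  haveI := dlw_eig_finite (N := N) hp0 W
  have hVne : dlwEig N p W ≠ ⊥ := by
    intro h
    have : x₀ ∈ (⊥ : AddSubgroup (JZero N)) := h ▸ hx₀mem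
    exact hx₀ (AddSubgroup.mem_bot.mp this)
  obtain ⟨V₀, hle, hne, hstab, hmin⟩ := dlw_exists_minimal (G := GQ) (dlwEig N p W) hVne
    (fun σ x hx => dlw_eig_smul_mem hp0 σ hx)
  haveI : Finite V₀ := Finite.of_injective (fun x : V₀ => (⟨x.1, hle x.2⟩ : dlwEig N p W))
    (fun x y h => Subtype.ext (congrArg (fun z : dlwEig N p W => (z : JZero N)) h))
  have htor : ∀ x ∈ V₀, p • x = 0 := fun x hx => (hle hx).1
  have hlevel := dlw_level_of_finite N hp0 V₀ htor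
  obtain ⟨ψ, hψ⟩ := dlw_iso_of_ES V₀ hp2 hne htor hstab hmin hlevel W hΔ hirr N.primeFactors
    (by
      intro ℓ hℓ hℓT hgood hℓp B φ hB hφ x hx
      have hℓN : ¬ ℓ ∣ N := fun h => hℓT (Nat.mem_primeFactors.mpr ⟨hℓ, h, NeZero.ne N⟩)
      have hℓp' : ¬ ℓ ∣ p := fun h => hℓp ((Nat.prime_dvd_prime_iff_eq hℓ hp.out).mp h)
      have h1 := dlw_ES N hℓ hℓN hℓp' B hB φ hφ x (htor x hx)
      have h2 := (hle (hstab φ x hx)).2 ℓ hℓ hℓN hgood hℓp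
      rw [h2] at h1
      exact h1)
  exact ⟨V₀, ψ, hle, hstab, hψ⟩

end Level

section Peu

variable {A : Type*} [AddCommGroup A] [DistribMulAction GQ A]

/-- *peu ramifiée* for a Galois-stable subgroup `V` of an abstract Galois module: the analogue of
`DlpPeu` -/
def DlwPeu (V : AddSubgroup A) (𝔓 : FFPlace) (p : ℕ) (ζ : Qb) : Prop :=
  ∃ (L₁ : AddSubgroup A) (u w : Qb), L₁ ≤ V ∧ Nat.card L₁ = p ∧
    (∀ σ ∈ 𝔓.I, ∀ x ∈ V, σ • x - x ∈ L₁) ∧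
    (∀ σ ∈ 𝔓.I, ∀ k : ℕ, σ ζ = ζ ^ k → ∀ l ∈ L₁, σ • l = k • l) ∧
    𝔓.v.Is u 0 ∧ (∀ σ ∈ 𝔓.I, σ ζ = ζ → σ u = u) ∧ w ^ p = u ∧
    (∀ σ ∈ 𝔓.I, σ ζ = ζ → σ w = w → ∀ x ∈ V, σ • x = x)

/-- transport of `DlpPeu` to a Galois-equivariant copy of `E[p]` -/
theorem dlw_peu_of_iso {E : WeierstrassCurve ℚ} {𝔓 : FFPlace} {p : ℕ} {ζ : Qb} (V : AddSubgroup A)
    (ψ : ↥(Submodule.torsionBy ℤ (E.toAffine⁄Qb).Point (p : ℤ)) ≃+ ↥V)
    (hψ : ∀ (σ : GQ) (Q : ↥(Submodule.torsionBy ℤ (E.toAffine⁄Qb).Point (p : ℤ))),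
      ((ψ (σ • Q) : ↥V) : A) = σ • ((ψ Q : ↥V) : A))
    (h : DlpPeu E 𝔓 p ζ) : DlwPeu V 𝔓 p ζ := by
  obtain ⟨L₁, u, w, h1, h2, h3, h4, h5, h6, h7, h8⟩ := h
  let TT := Submodule.torsionBy ℤ (E.toAffine⁄Qb).Point (p : ℤ)
  have hmemT : ∀ x : (E.toAffine⁄Qb).Point, p • x = 0 → x ∈ TT := by
    intro x hx
    show x ∈ Submodule.torsionBy ℤ (E.toAffine⁄Qb).Point (p : ℤ)
    rw [Submodule.mem_torsionBy_iff, natCast_zsmul]
    exact hx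
  have hTmem : ∀ x : TT, p • (x : (E.toAffine⁄Qb).Point) = 0 := by
    intro x
    have := (Submodule.mem_torsionBy_iff _ _).mp x.2
    rwa [natCast_zsmul] at this
  -- the map `TT → A`
  let f : TT →+ A := V.subtype.comp ψ.toAddMonoidHom
  have hf : ∀ x : TT, f x = ((ψ x : ↥V) : A) := fun x => rfl
  have hfinj : Function.Injective f := by
    intro x y hxy
    exact ψ.injective (Subtype.ext hxy)
  have hfV : ∀ x : TT, f x ∈ V := fun x => (ψ x).2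
  have hfsurj : ∀ y ∈ V, ∃ x : TT, f x = y := by
    intro y hy
    refine ⟨ψ.symm ⟨y, hy⟩, ?_⟩
    rw [hf, ψ.apply_symm_apply]
  have hfσ : ∀ (σ : GQ) (x : TT), f (σ • x) = σ • f x := fun σ x => hψ σ x
  -- the line
  let L₁T : AddSubgroup TT := L₁.comap TT.toAddSubgroup.subtype
  have hL₁T : ∀ x : TT, x ∈ L₁T ↔ (x : (E.toAffine⁄Qb).Point) ∈ L₁ := fun x => Iff.rfl
  refine ⟨L₁T.map f, u, w, ?_, ?_, ?_, ?_, h5, h6, h7, ?_⟩
  · rintro _ ⟨x, -, rfl⟩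
    exact hfV x
  · rw [← h1]
    refine (Nat.card_congr (L₁T.equivMapOfInjective f hfinj).toEquiv).symm.trans ?_
    refine Nat.card_congr ?_
    refine ⟨fun x => ⟨(x.1 : (E.toAffine⁄Qb).Point), x.2⟩,
      fun l => ⟨⟨l.1, hmemT _ (h2 l.1 l.2)⟩, l.2⟩, fun x => rfl, fun l => rfl⟩
  · intro σ hσ y hy
    obtain ⟨x, rfl⟩ := hfsurj y hy
    refine ⟨σ • x - x, ?_, ?_⟩
    · exact h3 σ hσ (x : (E.toAffine⁄Qb).Point) (hTmem x)
    · rw [map_sub, hfσ]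
  · rintro σ hσ k hk _ ⟨l, hl, rfl⟩
    rw [← hfσ, ← map_nsmul]
    congr 1
    exact Subtype.ext (h4 σ hσ k hk _ hl)
  · intro σ hσ hσζ hσw y hy
    obtain ⟨x, rfl⟩ := hfsurj y hy
    rw [← hfσ]
    congr 1
    exact Subtype.ext (h8 σ hσ hσζ hσw _ (hTmem x))

end Peu

section Main

/-- **(D1)**: `E[p] ↪ J₀(N)[p]` for the Frey curve, with its Hecke eigenvalues and *peu ramifiée* -/
theorem dlw_D1 (P : FreyPackage) {N : ℕ} [NeZero N] (hpabc : (P.p : ℤ) ∣ P.a * P.b * P.c)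
    (hirr : GaloisRepIsIrreducible (K := Qb) ℚ P.freyCurve P.p) (hmod : P.ModularRepOfLevel N) :
    ∃ (W : WeierstrassCurve ℤ) (V : AddSubgroup (JZero N))
      (ψ : ↥(Submodule.torsionBy ℤ (P.freyCurve.toAffine⁄Qb).Point (P.p : ℤ)) ≃+ ↥V),
      W.IsIntegralModelOf P.freyCurve ∧ W.Δ ≠ 0 ∧
      (∀ x ∈ V, P.p • x = 0) ∧ (∀ σ : GQ, ∀ x ∈ V, σ • x ∈ V) ∧
      (∀ (σ : GQ) (Q : ↥(Submodule.torsionBy ℤ (P.freyCurve.toAffine⁄Qb).Point (P.p : ℤ))),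
        ((ψ (σ • Q) : ↥V) : JZero N) = σ • ((ψ Q : ↥V) : JZero N)) ∧
      (∀ (ℓ : ℕ) (hℓ : ℓ.Prime), ¬ ℓ ∣ N → W.IsGoodPrimeFor ℓ → ℓ ≠ P.p →
        ∀ x ∈ V, heckeOperatorBar N ⟨ℓ, hℓ⟩ x = W.apOfModel ℓ • x) ∧
      ∀ (𝔓 : FFPlace) (ζ : Qb), 𝔓.p = P.p → IsPrimitiveRoot ζ P.p → DlwPeu V 𝔓 P.p ζ := by
  obtain ⟨f, W, 𝔪, hf, hWE, hmax, hpm, hcong⟩ := hmod
  haveI : Fact P.p.Prime := ⟨P.pp⟩
  have hp2 : P.p ≠ 2 := by have := P.hp5; omega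
  have hΔ := dlw_frey_model_Δ P hWE
  obtain ⟨C, hC⟩ := hWE
  have hirrW : W.ModRepIsIrreducible P.p := by
    have hirr' : GaloisRepIsIrreducible (K := Qb) ℚ (C • P.freyCurve).toAffine P.p :=
      (Fermat.Agent.X015.galoisRepIsIrreducible_variableChange_iff P.freyCurve C P.p).mpr hirr
    rw [hC] at hirr'
    exact hirr'
  obtain ⟨x₀, hx₀, hx₀p, hx₀e⟩ := dlw_exists_eigen (N := N) (p := P.p) (W := W) f 𝔪 hf hmax hpm hcong
  obtain ⟨V₀, ψ, hle, hstab, hψ⟩ := dlw_exists_iso N hp2 W hΔ hirrW x₀ hx₀ ⟨hx₀p, hx₀e⟩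
  obtain ⟨φ₂, hφ₂⟩ := exists_equivariant_equiv_of_eq P.freyCurve (s58E W) C hC.symm
  obtain ⟨ψ₂, hψ₂⟩ := dlw_tors_equiv φ₂ P.p
  have hΨ : ∀ (σ : GQ) (Q : ↥(Submodule.torsionBy ℤ (P.freyCurve.toAffine⁄Qb).Point (P.p : ℤ))),
      (((ψ₂.trans ψ) (σ • Q) : ↥V₀) : JZero N) = σ • (((ψ₂.trans ψ) Q : ↥V₀) : JZero N) := by
    intro σ Q
    have h1 : ψ₂ (σ • Q) = σ • ψ₂ Q := by
      apply Subtype.ext
      rw [hψ₂]
      show φ₂ (σ • (Q : (P.freyCurve.toAffine⁄Qb).Point)) = σ • ((ψ₂ Q : _) : _)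
      rw [hφ₂, hψ₂]
    rw [AddEquiv.trans_apply, AddEquiv.trans_apply, h1, hψ]
  refine ⟨W, V₀, ψ₂.trans ψ, ⟨C, hC⟩, hΔ, fun x hx => (hle hx).1, hstab, hΨ,
    fun ℓ hℓ hℓN hgood hℓp x hx => (hle hx).2 ℓ hℓ hℓN hgood hℓp, fun 𝔓 ζ h𝔓 hζ => ?_⟩
  exact dlw_peu_of_iso V₀ (ψ₂.trans ψ) hΨ (dlp_frey_peu P hpabc ⟨C, hC⟩ 𝔓 h𝔓 hζ)

end Main

end Fermat.Agent.Delta
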