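/-
DELTA / WIRE (helper4), part 14: **Branch B, transport to the rigid level**.  If both degeneracy
push-forwards `J₀(M p) → J₀(M)` kill the copy `V` of `E[p]`, then the pull-back `V'` of `V` to any
level `K p` (`M ∣ K`, `p ∤ K`) is again a Galois-equivariant copy of `E[p]`, with the same Hecke
eigenvalues, killed by both degeneracy push-forwards `J₀(K p) → J₀(K)`; the Kummer functions of
the points of `V'` are the same Laurent series as those of `V`.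
-/
import Mathlib
import Fermat.Agent.Lib.Delta.Wire.PullDvd

set_option autoImplicit false
set_option linter.unusedSectionVars false
set_option linter.unusedVariables false
set_option linter.style.haveILetI false

namespace Fermat.Agent.Delta

open AlgebraicCurve ModularCurve Fermat.Agent.Curve Fermat.Agent.T1 Fermat.Agent.T3
  Fermat.Agent.Alpha

local notation "Qb" => AlgebraicClosure ℚ
local notation "GQ" => (AlgebraicClosure ℚ ≃ₐ[ℚ] AlgebraicClosure ℚ)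

section Transport

variable {A A' T : Type*} [AddCommGroup A] [AddCommGroup A'] [AddCommGroup T]

/-- transport of an isomorphism `T ≃ V` along an additive map injective on `V` -/
theorem dlw_exists_map_equiv (Φ : A →+ A') (V : AddSubgroup A)
    (hinj : ∀ x ∈ V, Φ x = 0 → x = 0) (ψ : T ≃+ ↥V) :
    ∃ ψ' : T ≃+ ↥(V.map Φ), ∀ Q : T, ((ψ' Q : ↥(V.map Φ)) : A') = Φ ((ψ Q : ↥V) : A) := by
  let f : ↥V →+ ↥(V.map Φ) :=
    { toFun := fun x => ⟨Φ (x : A), AddSubgroup.mem_map_of_mem Φ x.2⟩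
      map_zero' := Subtype.ext (by simp)
      map_add' := fun x y => Subtype.ext (by simp) }
  have hf : ∀ x : ↥V, ((f x : ↥(V.map Φ)) : A') = Φ (x : A) := fun x => rfl
  have hfinj : Function.Injective f := by
    rw [injective_iff_map_eq_zero]
    intro x hx
    have h1 : Φ (x : A) = 0 := by
      rw [← hf, hx]
      rfl
    exact Subtype.ext (hinj x x.2 h1)
  have hfsurj : Function.Surjective f := by
    rintro ⟨y, x, hx, rfl⟩
    exact ⟨⟨x, hx⟩, rfl⟩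
  let e : ↥V ≃+ ↥(V.map Φ) := AddEquiv.ofBijective f ⟨hfinj, hfsurj⟩
  exact ⟨ψ.trans e, fun Q => rfl⟩

end Transport

section Main

variable (M K : ℕ) [NeZero M] [NeZero K] (p : ℕ) [hp : Fact p.Prime]

/-- **Branch B: transport of `V` to the level `K p`** -/
theorem dlw_branchB (hMK : M ∣ K) (hpK : ¬ p ∣ K) {T : Type*} [AddCommGroup T] [SMul GQ T]
    (good : ℕ → Prop) (a : ℕ → ℤ)
    (V : AddSubgroup (JZero (M * p))) (ψ : T ≃+ ↥V) (htor : ∀ x ∈ V, p • x = 0)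
    (hstab : ∀ σ : GQ, ∀ x ∈ V, σ • x ∈ V)
    (hψ : ∀ (σ : GQ) (Q : T), ((ψ (σ • Q) : ↥V) : JZero (M * p)) = σ • ((ψ Q : ↥V) : JZero (M * p)))
    (heig : ∀ (ℓ : ℕ) (hℓ : ℓ.Prime), ¬ ℓ ∣ M * p → good ℓ → ℓ ≠ p →
      ∀ x ∈ V, heckeOperatorBar (M * p) ⟨ℓ, hℓ⟩ x = a ℓ • x)
    (hA : ∀ x ∈ V, dlwPushA M p x = 0) (hB : ∀ x ∈ V, dlwPushB M p x = 0) :
    ∃ (V' : AddSubgroup (JZero (K * p))) (ψ' : T ≃+ ↥V'),
      (∀ x ∈ V', p • x = 0) ∧ (∀ σ : GQ, ∀ x ∈ V', σ • x ∈ V') ∧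
      (∀ (σ : GQ) (Q : T), ((ψ' (σ • Q) : ↥V') : JZero (K * p)) = σ • ((ψ' Q : ↥V') : JZero (K * p))) ∧
      (∀ (ℓ : ℕ) (hℓ : ℓ.Prime), ¬ ℓ ∣ K * p → good ℓ → ℓ ≠ p →
        ∀ x ∈ V', heckeOperatorBar (K * p) ⟨ℓ, hℓ⟩ x = a ℓ • x) ∧
      (∀ x ∈ V', dlwPushA K p x = 0) ∧ (∀ x ∈ V', dlwPushB K p x = 0) ∧
      (∀ Q : T, ((ψ' Q : ↥V') : JZero (K * p))
        = dlwPullDvd (Nat.mul_dvd_mul_right hMK p) ((ψ Q : ↥V) : JZero (M * p))) ∧
      (∀ x' ∈ V', ∃ x ∈ V, x' = dlwPullDvd (Nat.mul_dvd_mul_right hMK p) x) := by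
  have hp0 : p ≠ 0 := hp.out.ne_zero
  set Φ : JZero (M * p) →+ JZero (K * p) := dlwPullDvd (Nat.mul_dvd_mul_right hMK p) with hΦ
  have hinj : ∀ x ∈ V, Φ x = 0 → x = 0 := fun x hx h0 =>
    dlwPullDvd_eq_zero (Nat.mul_dvd_mul_right hMK p) hp0 x (htor x hx) h0
  obtain ⟨ψ', hψ'⟩ := dlw_exists_map_equiv Φ V hinj ψ
  refine ⟨V.map Φ, ψ', ?_, ?_, ?_, ?_, ?_, ?_, hψ', ?_⟩
  · rintro _ ⟨x, hx, rfl⟩
    rw [← map_nsmul, htor x hx, map_zero]
  · rintro σ _ ⟨x, hx, rfl⟩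
    refine ⟨σ • x, hstab σ x hx, ?_⟩
    exact dlwPullDvd_galois _ σ x
  · intro σ Q
    rw [hψ', hψ', hψ σ Q]
    exact dlwPullDvd_galois _ σ _
  · rintro ℓ hℓ hℓK hgood hℓp _ ⟨x, hx, rfl⟩
    have hℓM : ¬ ℓ ∣ M * p := fun h => hℓK (h.trans (Nat.mul_dvd_mul_right hMK p))
    rw [hΦ, ← dlwPullDvd_hecke (Nat.mul_dvd_mul_right hMK p) hℓ hℓK x,
      heig ℓ hℓ hℓM hgood hℓp x hx, map_zsmul]
  · rintro _ ⟨x, hx, rfl⟩
    rw [hΦ, dlwPushA_pull p hMK hpK x, hA x hx, map_zero]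
  · rintro _ ⟨x, hx, rfl⟩
    rw [hΦ, dlwPushB_pull p hMK hpK x, hB x hx, map_zero]
  · rintro _ ⟨x, hx, rfl⟩
    exact ⟨x, hx, rfl⟩

end Main

end Fermat.Agent.Delta
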