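/-
DELTA / WIRE (helper4), part 7: **the level is even**.

* `dlw_preΨ'_eval_zero_sq` : `Ψ_n(0)² = b^((n²-1)/2)` for odd `n` on `y² = x³ + a x² + b x`;
* `dlw_leg2_ramified`, `dlw_frey_ramified_two` : `E[p]` of the Frey curve is ramified at `2`
  (a `p`-torsion point with `0 < ord x` exists by the product formula for the abscissas of the
  `p`-torsion points, and its `ord x ∈ (2 h / p) ℤ` is not an integer);
* `dlw_unramified` : `J₀(N)[m]` is unramified at the primes not dividing `N m`;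
* `dlw_two_dvd_level` : a Galois-equivariant copy of `E[p]` inside `J₀(N)[p]` forces `2 ∣ N`.
-/
import Mathlib
import Fermat.Agent.Lib.S13.AtTwo.FreyTwo
import Fermat.Agent.Lib.S13.Glue
import Fermat.Agent.Lib.S13.Torsion.Norm
import Fermat.Agent.Lib.S13.DivPoly.Roots
import Fermat.Agent.Lib.TW.LF.Unr
import Fermat.Agent.Lib.T1.S18.AllLevels
import Fermat.Agent.Lib.Delta.Peu.Depth
import Fermat.Agent.Lib.Delta.Peu.Leg
import Fermat.Agent.Lib.Delta.Wire.EigenSpace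

set_option autoImplicit false
set_option linter.unusedSectionVars false
set_option linter.unusedVariables false
set_option linter.style.haveILetI false

open WeierstrassCurve WeierstrassCurve.Affine Polynomial

namespace Fermat.Agent.Delta

open Fermat.Agent.S05Lib Fermat.Agent.S13Lib Fermat.Agent.S13Lib.AtTwo Fermat.Agent.TW

local notation "Qb" => AlgebraicClosure ℚ
local notation "GQ" => (AlgebraicClosure ℚ ≃ₐ[ℚ] AlgebraicClosure ℚ)

section PsiZero

variable {K : Type*} [Field K] {W : WeierstrassCurve K} {a b : K}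

/-- **`Ψ_n(0)² = b^((n²-1)/2)`** for odd `n = 2 k + 1` -/
theorem dlw_preΨ'_eval_zero_sq (hW : IsLeg W a b) :
    ∀ k : ℕ, ((W.preΨ' (2 * k + 1)).eval 0) ^ 2 = b ^ (2 * k * (k + 1)) := by
  intro k
  induction k using Nat.strong_induction_on with
  | _ k ih =>
    rcases k with _ | _ | m
    · simp
    · show ((W.preΨ' 3).eval 0) ^ 2 = b ^ (2 * 1 * (1 + 1))
      rw [WeierstrassCurve.preΨ'_three, dlp_Ψ₃_eval_zero hW]
      ring
    · -- `2 (m + 2) + 1`
      rw [WeierstrassCurve.preΨ'_odd, eval_sub, eval_mul, eval_mul, eval_mul, eval_mul, eval_pow,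
        eval_pow]
      by_cases hm : Even m
      · rw [if_pos hm, if_pos hm, eval_pow, dlp_Ψ₂Sq_eval_zero hW, eval_one]
        obtain ⟨j, rfl⟩ := hm
        have h1 := ih j (by omega)
        have h2 := ih (j + 1) (by omega)
        have e1 : j + j + 1 = 2 * j + 1 := by ring
        have e3 : j + j + 3 = 2 * (j + 1) + 1 := by ring
        rw [e1, e3]
        have e : ((W.preΨ' (j + j + 4)).eval 0 * (W.preΨ' (j + j + 2)).eval 0 ^ 3 * 0 ^ 2 -
            (W.preΨ' (2 * j + 1)).eval 0 * (W.preΨ' (2 * (j + 1) + 1)).eval 0 ^ 3 * 1) ^ 2 =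
            (W.preΨ' (2 * j + 1)).eval 0 ^ 2 * ((W.preΨ' (2 * (j + 1) + 1)).eval 0 ^ 2) ^ 3 := by
          ring
        rw [e, h1, h2, ← pow_mul, ← pow_add]
        congr 1
        ring
      · rw [if_neg hm, if_neg hm, eval_pow, dlp_Ψ₂Sq_eval_zero hW, eval_one]
        obtain ⟨j, rfl⟩ := Nat.not_even_iff_odd.mp hm
        have h1 := ih (j + 2) (by omega)
        have h2 := ih (j + 1) (by omega)
        have e1 : 2 * j + 1 + 4 = 2 * (j + 2) + 1 := by ring
        have e3 : 2 * j + 1 + 2 = 2 * (j + 1) + 1 := by ring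
        rw [e1, e3]
        have e : ((W.preΨ' (2 * (j + 2) + 1)).eval 0 * (W.preΨ' (2 * (j + 1) + 1)).eval 0 ^ 3 * 1 -
            (W.preΨ' (2 * j + 1 + 1)).eval 0 * (W.preΨ' (2 * j + 1 + 3)).eval 0 ^ 3 * 0 ^ 2) ^ 2 =
            (W.preΨ' (2 * (j + 2) + 1)).eval 0 ^ 2 * ((W.preΨ' (2 * (j + 1) + 1)).eval 0 ^ 2) ^ 3 := by
          ring
        rw [e, h1, h2, ← pow_mul, ← pow_add]
        congr 1
        ring

end PsiZero

section Node

variable {K : Type*} [Field K] [DecidableEq K] [IsAlgClosed K] [CharZero K] {v : QVal K}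
  {W : WeierstrassCurve K} {a b : K}

/-- **a `p`-torsion point with `0 < ord x`** exists when `0 < ord b`, `ord p = 0` -/
theorem dlw_exists_torsion_pos (hW : IsLeg W a b) (hb0 : b ≠ 0) (hab : a ^ 2 - 4 * b ≠ 0)
    {h : ℚ} (hh : 0 < h) (hb : v.Is b h) {p : ℕ} (hp : Odd p) (hp3 : 3 ≤ p)
    (hp0 : v.Is (p : K) 0) :
    ∃ T : W.toAffine.Point, p • T = 0 ∧ T ≠ 0 ∧ 0 < v.ord (xc T) := by
  classical
  obtain ⟨Vp, hVp⟩ := Torsion.exists_torsion_finset hW hb0 hab hp.pos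
  have hx₀ : ∀ T ∈ Vp.erase 0, (0 : K) - xc T ≠ 0 := by
    intro T hT
    rw [zero_sub]
    exact neg_ne_zero.mpr (xc_ne_zero_of_odd_torsion hW hp
      ((hVp T).mp (Finset.mem_of_mem_erase hT)) (Finset.ne_of_mem_erase hT))
  obtain ⟨hΨ0, hord⟩ := dlp_two_ord_preΨ'_eval (v := v) hW hb0 hab hp Vp hVp hx₀
  obtain ⟨k, rfl⟩ := hp
  have hsq := dlw_preΨ'_eval_zero_sq hW k
  have h1 : 2 * v.ord ((W.preΨ' (2 * k + 1)).eval 0) = (2 * k * (k + 1) : ℕ) * h := by
    have := congrArg v.ord hsq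
    rw [v.ord_pow hΨ0, v.ord_pow hb0, hb.2] at this
    exact_mod_cast this
  rw [h1, hp0.2] at hord
  have hk : 1 ≤ k := by omega
  have hpos : (0 : ℚ) < (2 * k * (k + 1) : ℕ) * h := by
    have : (0 : ℚ) < ((2 * k * (k + 1) : ℕ) : ℚ) := by
      have : 0 < 2 * k * (k + 1) := by positivity
      exact_mod_cast this
    positivity
  by_contra hcon
  push Not at hcon
  have hsum : ∑ T ∈ Vp.erase 0, v.ord ((0 : K) - xc T) ≤ 0 := by
    refine Finset.sum_nonpos fun T hT => ?_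
    rw [zero_sub, v.ord_neg]
    exact hcon T ((hVp T).mp (Finset.mem_of_mem_erase hT)) (Finset.ne_of_mem_erase hT)
  linarith

end Node

section Frey

/-- **the `p`-torsion of the Legendre form of the Frey curve at `2` is ramified at `2`** -/
theorem dlw_leg2_ramified (P : FreyPackage) (𝔓 : FFPlace) (h2 : 𝔓.p = 2) :
    ∃ σ ∈ 𝔓.I, ∃ T : ((leg2 P).toAffine⁄Qb).Point, P.p • T = 0 ∧ σ • T ≠ T := by
  classical
  have hv : QValFor 𝔓.P 2 𝔓.v := h2 ▸ dlp_qvalFor 𝔓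
  have he : 𝔓.v.ord (2 : Qb) = 1 := by
    have := 𝔓.is_p.2
    rw [h2] at this
    exact_mod_cast this
  obtain ⟨hc, ha₂, M, hM0, hcop, hb⟩ := frey_two_data hv P
  rw [he, mul_one] at hb
  have hh : (0 : ℚ) < M := by exact_mod_cast hM0
  have h2ge : 𝔓.v.Ge (2 : Qb) 0 := Or.inr (by rw [he]; norm_num)
  have hn : 𝔓.v.Is ((P.p : ℕ) : Qb) 0 :=
    hv.is_prime Nat.prime_two P.pp (by have := P.hp5; omega)
  have hW := isLeg_leg2 P
  set a : Qb := ((P.b : Qb) ^ P.p - (P.a : Qb) ^ P.p) / 4 with ha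
  set b : Qb := -((P.a : Qb) ^ P.p * (P.b : Qb) ^ P.p) / 16 with hbdef
  have hb0 : b ≠ 0 := hb.1
  have hab : a ^ 2 - 4 * b ≠ 0 := by
    have hc0 : ((P.c : Qb) ^ P.p) ≠ 0 := pow_ne_zero _ (by exact_mod_cast P.hc0)
    have hflt : (P.a : Qb) ^ P.p + (P.b : Qb) ^ P.p = (P.c : Qb) ^ P.p := by
      exact_mod_cast congrArg (fun z : ℤ => (z : Qb)) P.hFLT
    have e : a ^ 2 - 4 * b = ((P.c : Qb) ^ P.p) ^ 2 / 16 := by
      rw [ha, hbdef, ← hflt]
      ring
    rw [e]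
    exact div_ne_zero (pow_ne_zero 2 hc0) (by norm_num)
  have hp3 : 3 ≤ P.p := by have := P.hp5; omega
  obtain ⟨T, hTtor, hT0, hTpos⟩ :=
    dlw_exists_torsion_pos (v := 𝔓.v) hW hb0 hab hh hb P.hp_odd hp3 hn
  by_contra hcon
  push Not at hcon
  -- the abscissa of `T` is fixed by inertia
  rcases T with _ | ⟨x, η, hxy⟩
  · exact hT0 rfl
  change 0 < 𝔓.v.ord x at hTpos
  have hx0 : x ≠ 0 := by
    have := xc_ne_zero_of_odd_torsion hW P.hp_odd hTtor hT0
    exact this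
  have hxK0 : x ∈ 𝔓.K0 := by
    rw [FFPlace.K0, IntermediateField.mem_fixedField_iff]
    intro σ hσ
    have h1 := hcon σ hσ (Point.some x η hxy) hTtor
    have h2' : ((leg2 P).toAffine⁄Qb).Nonsingular (σ x) (σ η) :=
      ((leg2 P).toAffine.baseChange_nonsingular σ.toAlgHom.injective ..).mpr hxy
    have e2 : σ • (Point.some x η hxy : ((leg2 P).toAffine⁄Qb).Point) =
        Point.some (σ x) (σ η) h2' := rfl
    rw [e2] at h1
    simp only [Point.some.injEq] at h1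
    exact h1.1
  obtain ⟨n, hn'⟩ := 𝔓.lf_unr x hxK0 hx0
  have hnpos : 0 < n := by
    rw [hn'] at hTpos
    exact_mod_cast hTpos
  -- the pair law
  obtain ⟨k, hk⟩ := nsmul_fP_mem2 (v := 𝔓.v) (h := (M : ℚ)) hW hc hb hh h2ge two_ne_zero
    (Point.some x η hxy) hTtor
  rw [fP_some] at hk
  have hfx : fx 𝔓.v (M : ℚ) x = min (M : ℚ) (n : ℚ) := by
    unfold fx
    rw [if_neg hx0, hn']
    apply max_eq_right
    apply le_min hh.le
    exact_mod_cast hnpos.le
  rw [hfx] at hk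
  have hpodd := P.hp_odd
  have hp5 := P.hp5
  rcases le_total (M : ℚ) (n : ℚ) with hle | hle
  · rw [min_eq_left hle] at hk
    -- `p M = 2 M k`
    have h1 : (P.p : ℚ) = 2 * k := by
      have hM : (M : ℚ) ≠ 0 := hh.ne'
      field_simp at hk
      linarith
    have h2' : (P.p : ℤ) = 2 * k := by exact_mod_cast h1
    obtain ⟨j, hj⟩ := hpodd
    omega
  · rw [min_eq_right hle] at hk
    have hk' : (P.p : ℤ) * n = 2 * M * k := by exact_mod_cast hk
    have hnM : n ≤ M := by exact_mod_cast hle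
    have hdvd : (P.p : ℤ) ∣ k := by
      have h1 : (P.p : ℤ) ∣ ((2 * M : ℕ) : ℤ) * k := ⟨n, by push_cast; linarith⟩
      have hcop' : IsCoprime (P.p : ℤ) ((2 * M : ℕ) : ℤ) := Nat.isCoprime_iff_coprime.mpr hcop
      exact hcop'.dvd_of_dvd_mul_left h1
    obtain ⟨k', rfl⟩ := hdvd
    have hp0 : (P.p : ℤ) ≠ 0 := by exact_mod_cast P.hp0
    have h3 : n = 2 * M * k' := by
      have : (P.p : ℤ) * n = (P.p : ℤ) * (2 * M * k') := by rw [hk']; ring
      exact mul_left_cancel₀ hp0 this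
    have hk'pos : 0 < k' := by
      by_contra hneg
      push Not at hneg
      have : (2 * (M : ℤ)) * k' ≤ 0 := mul_nonpos_of_nonneg_of_nonpos (by positivity) hneg
      omega
    have hM' : (0 : ℤ) < M := by exact_mod_cast hM0
    nlinarith

/-- **`E[p]` of the Frey curve is ramified at `2`** -/
theorem dlw_frey_ramified_two (P : FreyPackage) (𝔓 : FFPlace) (h2 : 𝔓.p = 2) :
    ∃ σ ∈ 𝔓.I, ∃ T : (P.freyCurve.toAffine⁄Qb).Point, P.p • T = 0 ∧ σ • T ≠ T := by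
  obtain ⟨σ, hσ, T, hT, hσT⟩ := dlw_leg2_ramified P 𝔓 h2
  obtain ⟨φ, hφ⟩ := exists_equivariant_equiv_of_eq (leg2 P) P.freyCurve vc2 (freyCurve_eq_leg2 P)
  refine ⟨σ, hσ, φ T, by rw [← map_nsmul, hT, _root_.map_zero], fun h => hσT ?_⟩
  rw [← hφ] at h
  exact φ.injective h

end Frey

section Jac

open AlgebraicCurve ModularCurve Fermat.Agent.T1 Fermat.Agent.T3 Fermat.Agent.Alpha

/-- **`J₀(N)[m]` is unramified at the primes not dividing `N m`** -/
theorem dlw_unramified (𝔓 : FFPlace) {N : ℕ} [NeZero N] (hN : ¬ 𝔓.p ∣ N) {m : ℕ}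
    (hm : Nat.Coprime m 𝔓.p) (hm0 : m ≠ 0) {σ : GQ} (hσ : σ ∈ 𝔓.I) (x : JZero N)
    (hx : (m : ℤ) • x = 0) : σ • x = x := by
  obtain ⟨y, hy, rfl⟩ := alpf_exists_class hm0 x hx
  obtain ⟨t, ht⟩ := tkr_K3_inertia_uncond 𝔓 hN hm hm0 hσ (y := y) hy
  rw [galois_smul_pic0_def, alpfClass_smul hm0]
  have hpow : ∀ v : Place Qb ↥(modularFunctionFieldBar N), (m : ℤ) ∣ v.ord ((t ^ m : _ˣ) : _) := by
    intro v
    rw [Units.val_pow_eq_pow_val, ← zpow_natCast, v.ord_zpow]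
    exact dvd_mul_right _ _
  have hmul : ∀ v : Place Qb ↥(modularFunctionFieldBar N),
      (m : ℤ) ∣ v.ord ((y * t ^ m : _ˣ) : _) := by
    intro v
    rw [Units.val_mul, v.ord_mul y.ne_zero (t ^ m).ne_zero]
    exact dvd_add (hy v) (hpow v)
  rw [dlw_class_congr hm0 ((alpt_tkrSig_eq N σ y).symm.trans ht) _ hmul,
    alpfClass_mul hm0 y (t ^ m) hy hpow, alpfClass_pow hm0 t hpow, add_zero]

/-- **the level is even**: a Galois-equivariant copy of the `p`-torsion of the Frey curve inside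
`J₀(N)[p]` forces `2 ∣ N` -/
theorem dlw_two_dvd_level (P : FreyPackage) {N : ℕ} [NeZero N] (V : AddSubgroup (JZero N))
    (ψ : ↥(Submodule.torsionBy ℤ (P.freyCurve.toAffine⁄Qb).Point (P.p : ℤ)) ≃+ ↥V)
    (htor : ∀ x ∈ V, P.p • x = 0)
    (hψ : ∀ (σ : GQ) (Q : ↥(Submodule.torsionBy ℤ (P.freyCurve.toAffine⁄Qb).Point (P.p : ℤ))),
      ((ψ (σ • Q) : ↥V) : JZero N) = σ • ((ψ Q : ↥V) : JZero N)) : 2 ∣ N := by
  by_contra h2N
  obtain ⟨A, hA⟩ :=
    Fermat.Agent.Lib.Helper6.exists_valuationSubring_liesOverPrime Qb Nat.prime_two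
  set 𝔓 : FFPlace := ⟨A, 2, Nat.prime_two, hA⟩ with h𝔓
  obtain ⟨σ, hσ, T, hT, hσT⟩ := dlw_frey_ramified_two P 𝔓 rfl
  have hTmem : T ∈ Submodule.torsionBy ℤ (P.freyCurve.toAffine⁄Qb).Point (P.p : ℤ) := by
    rw [Submodule.mem_torsionBy_iff, natCast_zsmul]
    exact hT
  have hp5 := P.hp5
  have hcop : Nat.Coprime P.p 𝔓.p := by
    show Nat.Coprime P.p 2
    rw [Nat.coprime_primes P.pp Nat.prime_two]
    omega
  have h1 := hψ σ ⟨T, hTmem⟩
  rw [dlw_unramified 𝔓 (N := N) h2N hcop P.hp0 hσ _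
    (by rw [natCast_zsmul]; exact htor _ (ψ ⟨T, hTmem⟩).2)] at h1
  have h2 : σ • (⟨T, hTmem⟩ : ↥(Submodule.torsionBy ℤ (P.freyCurve.toAffine⁄Qb).Point (P.p : ℤ)))
      = ⟨T, hTmem⟩ := ψ.injective (Subtype.ext h1)
  exact hσT (congrArg Subtype.val h2)

end Jac

end Fermat.Agent.Delta
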