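/-
DELTA / WIRE (helper4), part 9: **(D0), Betti form**: a nonzero point of `J₀(M)[p]` on which the
`T_ℓ` (`ℓ ∤ M` good for `W`, `ℓ ≠ p`) act through `a_ℓ(W)` makes `W` residually modular of level `M`.

Chain: surjectivity of the Kummer map `TT → J₀(M)[p]` (`mzeiKappa_surj`, helper1, from the divisibility
of `J₀(M)(ℚ̄)`), `TT / p = L / p` (`L = parabolicHoms ℤ Γ₀(M) ℤ`), Hecke equivariance of the Kummer map,
Deligne–Serre lifting on `L` (the back end of S41, with `K = ⊤`).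
-/
import Mathlib
import Fermat.Agent.Lib.Mazur.E.Id.Hecke
import Fermat.Agent.Lib.LR.Wire.Back
import Fermat.Agent.Lib.Delta.Wire.Eigen

set_option autoImplicit false
set_option linter.unusedSectionVars false
set_option linter.unusedVariables false
set_option linter.style.haveILetI false

namespace Fermat.Agent.Delta

open Complex Set Filter Topology Matrix MatrixGroups CongruenceSubgroup ModularCurve
open UpperHalfPlane hiding I
open Fermat.Agent.S24Lib ModularCurve.Period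
open AlgebraicCurve Fermat.Agent.T1 Fermat.Agent.T3 Fermat.Agent.Alpha Fermat.Agent.LR
  Fermat.Agent.Mazur Fermat.Agent.Lib.Helper8
open scoped TensorProduct

local notation "Qb" => AlgebraicClosure ℚ
local notation "GQ" => (AlgebraicClosure ℚ ≃ₐ[ℚ] AlgebraicClosure ℚ)

noncomputable section

section Back

variable {M : ℕ} [NeZero M]

local notation "𝕋" => CuspForm.heckeAlgebra M 2 (∅ : Set ℕ)

theorem dlw_stable_top : LrwStable (⊤ : Submodule ℤ ↥(tdmL M)) := fun _ _ _ => Submodule.mem_top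

/-- **Deligne–Serre on the whole lattice**: an eigenvector modulo `p` in `L = parabolicHoms ℤ Γ₀(M) ℤ`
gives an eigenform of level `M` with congruent eigenvalues -/
theorem dlw_back (W : WeierstrassCurve ℤ) {p : ℕ} (x : ↥(tdmL M))
    (hx : ¬ ∃ y : ↥(tdmL M), x = (p : ℤ) • y)
    (heig : ∀ (ℓ : ℕ) (hℓ : ℓ.Prime) (hℓM : ¬ ℓ ∣ M), W.IsGoodPrimeFor ℓ → ℓ ≠ p →
      ∃ y : ↥(tdmL M), tdmHecke M (CuspForm.heckeAlgebra.T hℓ hℓM (Set.notMem_empty ℓ)) x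
        - (W.apOfModel ℓ) • x = (p : ℤ) • y) :
    W.IsResiduallyModularOfLevel p M := by
  classical
  set K : Submodule ℤ ↥(tdmL M) := ⊤ with hK
  have hstab : LrwStable K := dlw_stable_top
  have hxK : x ∈ K := Submodule.mem_top
  have hx' : ¬ ∃ y : ↥K, (⟨x, hxK⟩ : ↥K) = (p : ℤ) • y := by
    rintro ⟨y, hy⟩
    exact hx ⟨y.1, congrArg Subtype.val hy⟩
  obtain ⟨𝔪₁, h𝔪₁, hJ𝔪₁⟩ := Ideal.exists_le_maximal _ (lrwJ_ne_top K hstab hx')
  haveI := h𝔪₁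
  obtain ⟨w, χ, 𝔪', hw0, hχ, h𝔪', hcomap⟩ :=
    exists_eigen_character_lifting (lrwIota K hstab) (lrwIota_injective K hstab) 𝔪₁
  have hw'0 : K.subtype.baseChange ℂ w ≠ 0 := by
    intro h
    apply hw0
    apply lrw_sub_bc_injective K
    rw [h, map_zero]
  obtain ⟨h, hh0, hheig⟩ := lrw_exists_cuspForm (K.subtype.baseChange ℂ w) hw'0
    (fun t => ((χ (Ideal.Quotient.mk _ t) : integralClosure ℤ ℂ) : ℂ))
    (fun t => lrw_eigen_transport K hstab t w _ (hχ _))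
  obtain ⟨g, hg, hgT, hgU⟩ := lrw_exists_normalized h hh0
    (fun t => ((χ (Ideal.Quotient.mk _ t) : integralClosure ℤ ℂ) : ℂ)) hheig
  refine ⟨g, 𝔪', hg, h𝔪', ?_, ?_⟩
  · -- `p ∈ 𝔪'`
    have hp𝔪₁ : ((p : ℕ) : lrwA K hstab) ∈ 𝔪₁ := hJ𝔪₁ (lrw_p_mem_J K hstab p ⟨x, hxK⟩)
    rw [← hcomap, Ideal.mem_comap, map_natCast] at hp𝔪₁
    exact hp𝔪₁
  · -- the congruences
    intro ℓ hℓ hgood hℓM hℓp
    refine ⟨χ (Ideal.Quotient.mk _ (CuspForm.heckeAlgebra.T hℓ hℓM (Set.notMem_empty ℓ))),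
      (hgT ℓ hℓ hℓM).symm, ?_⟩
    obtain ⟨y, hy⟩ := heig ℓ hℓ hℓM hgood hℓp
    have hmem : (Ideal.Quotient.mk _ (CuspForm.heckeAlgebra.T hℓ hℓM (Set.notMem_empty ℓ))
        - ((W.apOfModel ℓ : ℤ) : lrwA K hstab)) ∈ lrwJ K hstab p ⟨x, hxK⟩ := by
      refine ⟨⟨y, Submodule.mem_top⟩, ?_⟩
      apply Subtype.ext
      rw [map_sub, LinearMap.sub_apply, lrwRhoBar_mk, map_intCast, Module.End.intCast_apply]
      exact hy
    have hmem' := hJ𝔪₁ hmem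
    rw [← hcomap, Ideal.mem_comap, map_sub, map_intCast] at hmem'
    exact hmem'

end Back

section Betti

variable (M : ℕ) [NeZero M] (p : ℕ) [hp : Fact p.Prime]

set_option quotPrecheck false in
local notation "TT" => ↥(parabolicHoms ℤ_[p] (Gamma0 M) ℤ_[p])

/-- `TT / p TT = L / p L`: every class of `TT` is congruent modulo `p` to an integral class -/
theorem dlw_exists_int_mod_p (φ : TT) :
    ∃ (v : ↥(tdmL M)) (w : TT), φ = tdmCastL M ℤ_[p] v + (p : ℤ_[p]) • w := by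
  obtain ⟨x, rfl⟩ := (tdmBC M ℤ_[p]).surjective φ
  induction x using TensorProduct.induction_on with
  | zero => exact ⟨0, 0, by simp⟩
  | tmul a v₀ =>
    have h1 := PadicInt.appr_spec 1 a
    rw [pow_one, Ideal.mem_span_singleton] at h1
    obtain ⟨b, hb⟩ := h1
    refine ⟨(PadicInt.appr a 1) • v₀, b • tdmCastL M ℤ_[p] v₀, ?_⟩
    have ha : a = ((PadicInt.appr a 1 : ℕ) : ℤ_[p]) + (p : ℤ_[p]) * b := by
      rw [← hb]; ring
    rw [tdmBC_tmul, map_nsmul, ← Nat.cast_smul_eq_nsmul ℤ_[p], smul_smul, ← add_smul, ← ha]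
  | add x y hx hy =>
    obtain ⟨v₁, w₁, h₁⟩ := hx
    obtain ⟨v₂, w₂, h₂⟩ := hy
    refine ⟨v₁ + v₂, w₁ + w₂, ?_⟩
    rw [map_add, h₁, h₂, map_add, smul_add]
    abel

/-- the cast of the lattice Hecke operator -/
theorem dlw_cast_hecke (t : CuspForm.heckeAlgebra M 2 (∅ : Set ℕ)) (v : ↥(tdmL M)) :
    tdmCastL M ℤ_[p] (tdmHecke M t v) = tdmHeckeP p M t (tdmCastL M ℤ_[p] v) := by
  have h1 := tdmHeckeP_he p M t ((1 : ℤ_[p]) ⊗ₜ[ℤ] v)
  rw [LinearMap.baseChange_tmul, tdmBC_tmul, tdmBC_tmul, one_smul, one_smul] at h1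
  exact h1

/-- the Kummer map kills `p TT` -/
theorem dlw_kappa_p_smul (w : TT) : mzeiKappa p M 1 ((p : ℤ_[p]) • w) = 0 := by
  rw [mzeiKappa_eq_zero_iff]
  exact ⟨w, by rw [pow_one]⟩

/-- **(D0), Betti form** -/
theorem dlw_D0 (W : WeierstrassCurve ℤ) (y : JZero M) (hy0 : y ≠ 0) (hyp : p • y = 0)
    (heig : ∀ (ℓ : ℕ) (hℓ : ℓ.Prime), ¬ ℓ ∣ M → W.IsGoodPrimeFor ℓ → ℓ ≠ p →
      heckeOperatorBar M ⟨ℓ, hℓ⟩ y = W.apOfModel ℓ • y) :
    W.IsResiduallyModularOfLevel p M := by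
  obtain ⟨φ, hφ⟩ := mzeiKappa_surj p M 1 y (by rw [pow_one]; exact hyp)
  obtain ⟨v, w, hvw⟩ := dlw_exists_int_mod_p M p φ
  have hκv : mzeiKappa p M 1 (tdmCastL M ℤ_[p] v) = y := by
    rw [← hφ, hvw, map_add, dlw_kappa_p_smul, add_zero]
  refine dlw_back W v ?_ ?_
  · rintro ⟨z, rfl⟩
    apply hy0
    rw [← hκv, map_zsmul, ← Int.cast_smul_eq_zsmul ℤ_[p], Int.cast_natCast, dlw_kappa_p_smul]
  · intro ℓ hℓ hℓM hgood hℓp
    have h1 : mzeiKappa p M 1 (tdmCastL M ℤ_[p]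
        (tdmHecke M (CuspForm.heckeAlgebra.T hℓ hℓM (Set.notMem_empty ℓ)) v
          - (W.apOfModel ℓ) • v)) = 0 := by
      rw [map_sub, map_zsmul, dlw_cast_hecke, map_sub, map_zsmul, mzeiKappa_hecke, hκv,
        heig ℓ hℓ hℓM hgood hℓp, sub_self]
    rw [mzeiKappa_eq_zero_iff] at h1
    obtain ⟨z, hz⟩ := dlw_dvd_of_cast_dvd (N := M) (p := p) _ h1
    exact ⟨z, hz⟩

end Betti

end

end Fermat.Agent.Delta
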