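/-
DELTA / WIRE (helper4), part 10: **Branch A**: if one of the two degeneracy push-forwards
`J₀(M p) → J₀(M)` does not kill the copy `V` of `E[p]`, then `E[p]` is modular of level `M`.

* `dlw_simple_of_iso` : a Galois-equivariant copy of an irreducible `E[p]` is a simple Galois module;
* `dlw_eigen_of_equivariant` : a Galois-equivariant image in `J₀(M)[p]` of an Eichler–Shimura module is
  again an eigenspace (no Hecke equivariance of the map is needed: Eichler–Shimura on both sides);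
* `dlw_branchA` : the conclusion `W.IsResiduallyModularOfLevel p M`.
-/
import Mathlib
import Fermat.Agent.Lib.Delta.Wire.D0
import Fermat.Agent.Lib.Delta.Wire.Push
import Fermat.Agent.Lib.Delta.Wire.EigenSpace
import Fermat.Agent.Lib.Helper6.FrobeniusExists

set_option autoImplicit false
set_option linter.unusedSectionVars false
set_option linter.unusedVariables false
set_option linter.style.haveILetI false

open WeierstrassCurve WeierstrassCurve.Affine WeierstrassCurve.Affine.Point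

namespace Fermat.Agent.Delta

open AlgebraicCurve ModularCurve Fermat.Agent.T1 Fermat.Agent.T3 Fermat.Agent.Alpha

local notation "Qb" => AlgebraicClosure ℚ
local notation "GQ" => (AlgebraicClosure ℚ ≃ₐ[ℚ] AlgebraicClosure ℚ)

section Simple

variable {A : Type*} [AddCommGroup A] [DistribMulAction GQ A]

/-- **a Galois-equivariant copy of an irreducible `E[p]` is a simple Galois module** -/
theorem dlw_simple_of_iso {E : WeierstrassCurve ℚ} {p : ℕ} [NeZero p]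
    (hirr : GaloisRepIsIrreducible (K := Qb) ℚ E.toAffine p) (V : AddSubgroup A)
    (ψ : ↥(Submodule.torsionBy ℤ (E.toAffine⁄Qb).Point (p : ℤ)) ≃+ ↥V)
    (hψ : ∀ (σ : GQ) (Q : ↥(Submodule.torsionBy ℤ (E.toAffine⁄Qb).Point (p : ℤ))),
      ((ψ (σ • Q) : ↥V) : A) = σ • ((ψ Q : ↥V) : A))
    (V₁ : AddSubgroup A) (hle : V₁ ≤ V) (hst : ∀ σ : GQ, ∀ x ∈ V₁, σ • x ∈ V₁) :
    V₁ = ⊥ ∨ V₁ = V := by
  let N : Submodule (ZMod p) ↥(Submodule.torsionBy ℤ (E.toAffine⁄Qb).Point (p : ℤ)) :=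
    { carrier := {Q | ((ψ Q : ↥V) : A) ∈ V₁}
      add_mem' := by
        intro Q₁ Q₂ h₁ h₂
        show ((ψ (Q₁ + Q₂) : ↥V) : A) ∈ V₁
        rw [map_add, AddSubgroup.coe_add]
        exact V₁.add_mem h₁ h₂
      zero_mem' := by
        show ((ψ 0 : ↥V) : A) ∈ V₁
        rw [_root_.map_zero, AddSubgroup.coe_zero]
        exact V₁.zero_mem
      smul_mem' := by
        intro c Q hQ
        show ((ψ (c • Q) : ↥V) : A) ∈ V₁
        have h1 : c • Q = c.val • Q := by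
          rw [← Nat.cast_smul_eq_nsmul (ZMod p), ZMod.natCast_zmod_val]
        rw [h1, map_nsmul, AddSubgroup.coe_nsmul]
        exact V₁.nsmul_mem hQ _ }
  have hN : IsGaloisStable (K := Qb) ℚ N := by
    intro σ Q hQ
    show ((ψ (σ • Q) : ↥V) : A) ∈ V₁
    rw [hψ]
    exact hst σ _ hQ
  rcases hirr.2 N hN with h | h
  · left
    rw [AddSubgroup.eq_bot_iff_forall]
    intro x hx
    have hQ : ψ.symm ⟨x, hle hx⟩ ∈ N := by
      show ((ψ (ψ.symm ⟨x, hle hx⟩) : ↥V) : A) ∈ V₁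
      rw [ψ.apply_symm_apply]
      exact hx
    rw [h, Submodule.mem_bot] at hQ
    have h2 := congrArg (fun Q => ((ψ Q : ↥V) : A)) hQ
    simp only [ψ.apply_symm_apply, _root_.map_zero, AddSubgroup.coe_zero] at h2
    exact h2
  · right
    apply le_antisymm hle
    intro x hx
    have hQ : ψ.symm ⟨x, hx⟩ ∈ N := by rw [h]; exact Submodule.mem_top
    have h2 : ((ψ (ψ.symm ⟨x, hx⟩) : ↥V) : A) ∈ V₁ := hQ
    rwa [ψ.apply_symm_apply] at h2

end Simple

section Eigen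

variable (N M : ℕ) [NeZero N] [NeZero M]

/-- **eigenvalues through Eichler–Shimura on both sides** -/
theorem dlw_eigen_of_equivariant {p : ℕ} (W : WeierstrassCurve ℤ) (V : AddSubgroup (JZero N))
    (htor : ∀ x ∈ V, p • x = 0) (hstab : ∀ σ : GQ, ∀ x ∈ V, σ • x ∈ V)
    (heig : ∀ (ℓ : ℕ) (hℓ : ℓ.Prime), ¬ ℓ ∣ N → W.IsGoodPrimeFor ℓ → ℓ ≠ p →
      ∀ x ∈ V, heckeOperatorBar N ⟨ℓ, hℓ⟩ x = W.apOfModel ℓ • x)
    (A : JZero N →+ JZero M) (hA : ∀ (σ : GQ) (x : JZero N), A (σ • x) = σ • A x)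
    {ℓ : ℕ} (hℓ : ℓ.Prime) (hℓN : ¬ ℓ ∣ N) (hℓM : ¬ ℓ ∣ M) (hgood : W.IsGoodPrimeFor ℓ)
    (hℓp : ℓ ≠ p) (hp : p.Prime) (x : JZero N) (hx : x ∈ V) :
    heckeOperatorBar M ⟨ℓ, hℓ⟩ (A x) = W.apOfModel ℓ • A x := by
  obtain ⟨B, φ, hB, hφ⟩ := Fermat.Agent.Lib.Helper6.exists_frobenius ℓ hℓ
  have hℓp' : ¬ ℓ ∣ p := fun h => hℓp ((Nat.prime_dvd_prime_iff_eq hℓ hp).mp h)
  -- apply everything to `x' = φ⁻¹ x`
  set x' := φ⁻¹ • x with hx'
  have hx'V : x' ∈ V := hstab _ _ hx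
  have hφx' : φ • x' = x := smul_inv_smul φ x
  have h1 := dlw_ES N hℓ hℓN hℓp' B hB φ hφ x' (htor x' hx'V)
  rw [hφx', heig ℓ hℓ hℓN hgood hℓp x hx] at h1
  have h2 := congrArg A h1
  rw [_root_.map_zero, map_add, map_sub, map_zsmul, map_nsmul, hA, ← hφx', hA] at h2
  have hAtor : p • A x' = 0 := by rw [← map_nsmul, htor x' hx'V, _root_.map_zero]
  have h3 := dlw_ES M hℓ hℓM hℓp' B hB φ hφ (A x') hAtor
  have h4 : heckeOperatorBar M ⟨ℓ, hℓ⟩ (φ • A x') = W.apOfModel ℓ • (φ • A x') := by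
    -- `a - T + c = a - w + c`
    have h5 : φ • φ • A x' - heckeOperatorBar M ⟨ℓ, hℓ⟩ (φ • A x') + ℓ • A x'
        = φ • φ • A x' - W.apOfModel ℓ • (φ • A x') + ℓ • A x' := by rw [h3, h2]
    have h6 := add_right_cancel h5
    exact (sub_right_injective h6)
  rw [← hφx', hA]
  exact h4

end Eigen

section Main

variable (M : ℕ) [NeZero M]

/-- **Branch A** -/
theorem dlw_branchA {p : ℕ} [hp : Fact p.Prime] [NeZero (M * p)] (W : WeierstrassCurve ℤ)
    (V : AddSubgroup (JZero (M * p))) (htor : ∀ x ∈ V, p • x = 0)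
    (hstab : ∀ σ : GQ, ∀ x ∈ V, σ • x ∈ V)
    (heig : ∀ (ℓ : ℕ) (hℓ : ℓ.Prime), ¬ ℓ ∣ M * p → W.IsGoodPrimeFor ℓ → ℓ ≠ p →
      ∀ x ∈ V, heckeOperatorBar (M * p) ⟨ℓ, hℓ⟩ x = W.apOfModel ℓ • x)
    (A : JZero (M * p) →+ JZero M) (hA : ∀ (σ : GQ) (x : JZero (M * p)), A (σ • x) = σ • A x)
    (x₀ : JZero (M * p)) (hx₀ : x₀ ∈ V) (hAx₀ : A x₀ ≠ 0) :
    W.IsResiduallyModularOfLevel p M := by
  refine dlw_D0 M p W (A x₀) hAx₀ (by rw [← map_nsmul, htor x₀ hx₀, _root_.map_zero]) ?_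
  intro ℓ hℓ hℓM hgood hℓp
  have hℓN : ¬ ℓ ∣ M * p := by
    intro h
    rcases hℓ.dvd_mul.mp h with h | h
    · exact hℓM h
    · exact hℓp ((Nat.prime_dvd_prime_iff_eq hℓ hp.out).mp h)
  exact dlw_eigen_of_equivariant (M * p) M W V htor hstab heig A hA hℓ hℓN hℓM hgood hℓp hp.out
    x₀ hx₀

end Main

end Fermat.Agent.Delta
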