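/-
DELTA / WIRE (helper4), part 15: **`DlwPeu` with an explicit line, and its transport**.

`DlwPeuAt V L₁ 𝔓 p ζ` is `DlwPeu V 𝔓 p ζ` with the line `L₁` made explicit; it is transported along
every Galois-equivariant additive map injective on `V` (`DlwPeuAt.map`): the pull-back to a higher
level and the Atkin–Lehner involution.
-/
import Mathlib
import Fermat.Agent.Lib.Delta.Wire.D1
import Fermat.Agent.Lib.Delta.Wire.BranchB

set_option autoImplicit false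
set_option linter.unusedSectionVars false
set_option linter.unusedVariables false
set_option linter.style.haveILetI false

namespace Fermat.Agent.Delta

open Fermat.Agent.T1 Fermat.Agent.TW Fermat.Agent.S05Lib

local notation "Qb" => AlgebraicClosure ℚ
local notation "GQ" => (AlgebraicClosure ℚ ≃ₐ[ℚ] AlgebraicClosure ℚ)

section PeuAt

variable {A A' : Type*} [AddCommGroup A] [DistribMulAction GQ A] [AddCommGroup A']
  [DistribMulAction GQ A']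

/-- `DlwPeu` with the line `L₁` made explicit -/
def DlwPeuAt (V L₁ : AddSubgroup A) (𝔓 : FFPlace) (p : ℕ) (ζ : Qb) : Prop :=
  L₁ ≤ V ∧ Nat.card L₁ = p ∧
    (∀ σ ∈ 𝔓.I, ∀ x ∈ V, σ • x - x ∈ L₁) ∧
    (∀ σ ∈ 𝔓.I, ∀ k : ℕ, σ ζ = ζ ^ k → ∀ l ∈ L₁, σ • l = k • l) ∧
    ∃ u w : Qb, 𝔓.v.Is u 0 ∧ (∀ σ ∈ 𝔓.I, σ ζ = ζ → σ u = u) ∧ w ^ p = u ∧
      (∀ σ ∈ 𝔓.I, σ ζ = ζ → σ w = w → ∀ x ∈ V, σ • x = x)

theorem dlwPeu_iff {V : AddSubgroup A} {𝔓 : FFPlace} {p : ℕ} {ζ : Qb} :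
    DlwPeu V 𝔓 p ζ ↔ ∃ L₁ : AddSubgroup A, DlwPeuAt V L₁ 𝔓 p ζ := by
  constructor
  · rintro ⟨L₁, u, w, h1, h2, h3, h4, h5, h6, h7, h8⟩
    exact ⟨L₁, h1, h2, h3, h4, u, w, h5, h6, h7, h8⟩
  · rintro ⟨L₁, h1, h2, h3, h4, u, w, h5, h6, h7, h8⟩
    exact ⟨L₁, u, w, h1, h2, h3, h4, h5, h6, h7, h8⟩

/-- the cardinality of the image of a subgroup under a map injective on it -/
theorem dlw_card_map (Φ : A →+ A') (V : AddSubgroup A) (hinj : ∀ x ∈ V, Φ x = 0 → x = 0) :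
    Nat.card ↥(V.map Φ) = Nat.card ↥V := by
  obtain ⟨ψ', -⟩ := dlw_exists_map_equiv Φ V hinj (AddEquiv.refl ↥V)
  exact (Nat.card_congr ψ'.toEquiv).symm

/-- **transport of `DlwPeuAt`** along a Galois-equivariant additive map, injective on `V` -/
theorem DlwPeuAt.map {V L₁ : AddSubgroup A} {𝔓 : FFPlace} {p : ℕ} {ζ : Qb}
    (h : DlwPeuAt V L₁ 𝔓 p ζ) (Φ : A →+ A') (hΦ : ∀ (σ : GQ) (x : A), Φ (σ • x) = σ • Φ x)
    (hinj : ∀ x ∈ V, Φ x = 0 → x = 0) : DlwPeuAt (V.map Φ) (L₁.map Φ) 𝔓 p ζ := by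
  obtain ⟨h1, h2, h3, h4, u, w, h5, h6, h7, h8⟩ := h
  refine ⟨AddSubgroup.map_mono h1, ?_, ?_, ?_, u, w, h5, h6, h7, ?_⟩
  · rw [dlw_card_map Φ L₁ (fun x hx => hinj x (h1 hx)), h2]
  · rintro σ hσ _ ⟨x, hx, rfl⟩
    refine ⟨σ • x - x, h3 σ hσ x hx, ?_⟩
    rw [map_sub, hΦ]
  · rintro σ hσ k hk _ ⟨l, hl, rfl⟩
    rw [← hΦ, h4 σ hσ k hk l hl, map_nsmul]
  · rintro σ hσ hσζ hσw _ ⟨x, hx, rfl⟩
    rw [← hΦ, h8 σ hσ hσζ hσw x hx]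

end PeuAt

end Fermat.Agent.Delta
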