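/-
DELTA / WIRE (helper4), part 16: **the assembly of S44**.

* `DlwChain 𝔓 K hK f` : the local input (CHAIN) at the rigid level `K` (`4 ∣ K`, `p ∤ K`): for a
  *peu ramifiée* plane `V ≤ J₀(K p)[p]` with line `L₁`, killed by both degeneracy push-forwards,
  `V ∩ C ≤ L₁` and the Kummer functions of the points of `V ∖ L₁` satisfy `DlsEis` (CORE);
* `DlwWSide 𝔓 K hK Wp` : the Atkin–Lehner involution on `J₀(K p)`;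
* `dlw_final_core` : (CHAIN) + (W) + END-B + Branch A ⇒ `W.IsResiduallyModularOfLevel p M`;
* `dlw_final` : the statement of S44 from (CHAIN) + (W).
-/
import Mathlib
import Fermat.Agent.Lib.Delta.Wire.PeuAt
import Fermat.Agent.Lib.Delta.Wire.BranchA
import Fermat.Agent.Lib.Delta.Wire.AtTwo
import Fermat.Agent.Lib.Delta.End.EndB
import Fermat.Agent.Lib.Delta.End.WSide
import Fermat.Agent.Lib.Delta.End.VertHecke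
import Fermat.Agent.Lib.LR.E.Main
import Fermat.Agent.Lib.S13.Torsion.Frey
import Fermat.Prelude.Def_FreyPackage_IsConductorLevel

set_option autoImplicit false
set_option linter.unusedSectionVars false
set_option linter.unusedVariables false
set_option linter.style.haveILetI false
set_option synthInstance.maxHeartbeats 400000

open WeierstrassCurve WeierstrassCurve.Affine WeierstrassCurve.Affine.Point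

namespace Fermat.Agent.Delta

open ModularCurve Fermat.Agent.T1 Fermat.Agent.T2 Fermat.Agent.TW
  Fermat.Agent.S33 Fermat.Agent.S05Lib AlgebraicCurve Fermat.Agent.Curve
  Fermat.Agent.T3 Fermat.Agent.Alpha ModularFormClass CongruenceSubgroup

local notation "Qb" => AlgebraicClosure ℚ
local notation "GQ" => (AlgebraicClosure ℚ ≃ₐ[ℚ] AlgebraicClosure ℚ)

noncomputable section

attribute [local instance] t2gp_fact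
attribute [local instance] s33g_neZero

/-- `p ≠ 0` as an instance -/
theorem dlw_neZero_p (𝔓 : FFPlace) : NeZero 𝔓.p := ⟨𝔓.hp.ne_zero⟩

attribute [local instance] dlw_neZero_p

variable (𝔓 : FFPlace)

/-- **(CHAIN)**: the local input at the rigid level `K` -/
def DlwChain (K : ℕ) [NeZero K] (hK : ¬ 𝔓.p ∣ K)
    (f : (↥(modularFunctionFieldBar (K * 𝔓.p)))ˣ) : Prop :=
  ∀ (ζ : Qb), IsPrimitiveRoot ζ 𝔓.p → ∀ (V L₁ : AddSubgroup (JZero (K * 𝔓.p))),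
    DlwPeuAt V L₁ 𝔓 𝔓.p ζ → Nat.card V = 𝔓.p ^ 2 → (∀ x ∈ V, 𝔓.p • x = 0) →
    (∀ σ : GQ, ∀ x ∈ V, σ • x ∈ V) →
    (∀ x ∈ V, dlwPushA K 𝔓.p x = 0) → (∀ x ∈ V, dlwPushB K 𝔓.p x = 0) →
    (∀ x ∈ V, x ∈ s33gC 𝔓 K hK → x ∈ L₁) ∧
    ∀ x ∈ V, x ∉ L₁ → ∀ (Y : (↥(modularFunctionFieldBar (K * 𝔓.p)))ˣ)
      (hY : ∀ v : Place Qb ↥(modularFunctionFieldBar (K * 𝔓.p)),
        ((𝔓.p : ℕ) : ℤ) ∣ v.ord (Y : ↥(modularFunctionFieldBar (K * 𝔓.p)))),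
      alpfClass 𝔓.hp.ne_zero Y hY = x → DlsEis 𝔓 K hK f Y

/-- **(W)**: the Atkin–Lehner involution `w_p` on `J₀(K p)` -/
structure DlwWSide (K : ℕ) [NeZero K] (hK : ¬ 𝔓.p ∣ K)
    (Wp : JZero (K * 𝔓.p) →+ JZero (K * 𝔓.p)) : Prop where
  inj : ∀ x, 𝔓.p • x = 0 → Wp x = 0 → x = 0
  galois : ∀ (σ : GQ) (x : JZero (K * 𝔓.p)), Wp (σ • x) = σ • Wp x
  cls : ∀ (Y : (↥(modularFunctionFieldBar (K * 𝔓.p)))ˣ)
    (hY : ∀ v : Place Qb ↥(modularFunctionFieldBar (K * 𝔓.p)),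
      ((𝔓.p : ℕ) : ℤ) ∣ v.ord (Y : ↥(modularFunctionFieldBar (K * 𝔓.p)))),
    Wp (alpfClass 𝔓.hp.ne_zero Y hY) =
      alpfClass 𝔓.hp.ne_zero (dleWU K 𝔓.p hK Y) (dle_dvd_ord_w K 𝔓.p hK Y hY)
  pushA : ∀ x, 𝔓.p • x = 0 → dlwPushA K 𝔓.p (Wp x) = dlwPushB K 𝔓.p x
  pushB : ∀ x, 𝔓.p • x = 0 → dlwPushB K 𝔓.p (Wp x) = dlwPushA K 𝔓.p x

/-- (W) holds for helper3's `dleWJ` -/
theorem dlw_wside (K : ℕ) [NeZero K] (hK : ¬ 𝔓.p ∣ K) : DlwWSide 𝔓 K hK (dleWJ K 𝔓.p hK) where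
  inj x hx h0 := dleWJ_eq_zero K 𝔓.p hK 𝔓.hp.ne_zero x (by rw [natCast_zsmul]; exact hx) h0
  galois := dleWJ_galois K 𝔓.p hK
  cls Y hY := dleWJ_class K 𝔓.p hK 𝔓.hp.ne_zero Y hY
  pushA x hx := dleWJ_pushA K 𝔓.p hK 𝔓.hp.ne_zero x (by rw [natCast_zsmul]; exact hx)
  pushB x hx := dleWJ_pushB K 𝔓.p hK 𝔓.hp.ne_zero x (by rw [natCast_zsmul]; exact hx)

variable {𝔓}

/-- a plane is not contained in a line -/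
theorem dlw_exists_not_mem {A : Type*} [AddCommGroup A] {p : ℕ} (hp : p.Prime)
    (V L₁ : AddSubgroup A) (hV : Nat.card V = p ^ 2) (hL : Nat.card L₁ = p) :
    ∃ x ∈ V, x ∉ L₁ := by
  by_contra hcon
  push Not at hcon
  haveI : Finite ↥L₁ := Nat.finite_of_card_ne_zero (by rw [hL]; exact hp.ne_zero)
  have hle : Nat.card ↥V ≤ Nat.card ↥L₁ :=
    Nat.card_le_card_of_injective (fun x : ↥V => (⟨x.1, hcon x.1 x.2⟩ : ↥L₁))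
      (fun x y hxy => Subtype.ext (congrArg (fun z : ↥L₁ => (z : A)) hxy))
  rw [hV, hL] at hle
  have := hp.one_lt
  nlinarith

/-- **the core of S44**: (CHAIN) and (W) at the rigid level `2 M` give the level lowering -/
theorem dlw_final_core (hp5 : 5 ≤ 𝔓.p) (M : ℕ) [NeZero M] (h2M : 2 ∣ M)
    (W : WeierstrassCurve ℤ) {ζ : Qb} (hζ : IsPrimitiveRoot ζ 𝔓.p)
    (V : AddSubgroup (JZero (M * 𝔓.p))) (hcard : Nat.card V = 𝔓.p ^ 2)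
    (htor : ∀ x ∈ V, 𝔓.p • x = 0) (hstab : ∀ σ : GQ, ∀ x ∈ V, σ • x ∈ V)
    (heig : ∀ (ℓ : ℕ) (hℓ : ℓ.Prime), ¬ ℓ ∣ M * 𝔓.p → W.IsGoodPrimeFor ℓ → ℓ ≠ 𝔓.p →
      ∀ x ∈ V, heckeOperatorBar (M * 𝔓.p) ⟨ℓ, hℓ⟩ x = W.apOfModel ℓ • x)
    (hpeu : DlwPeu V 𝔓 𝔓.p ζ)
    (ℓ₀ : ℕ) (hℓ₀ : ℓ₀.Prime) (hℓ₀M : ¬ ℓ₀ ∣ M) (hℓ₀p : ℓ₀ ≠ 𝔓.p) (hgood₀ : W.IsGoodPrimeFor ℓ₀)
    (hne : ¬ (𝔓.p : ℤ) ∣ ((ℓ₀ : ℤ) + 1 - W.apOfModel ℓ₀))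
    (hK : ¬ 𝔓.p ∣ M * 2)
    (f : (↥(modularFunctionFieldBar (M * 2 * 𝔓.p)))ˣ)
    (hfh : ∀ ℓ : ℕ, ℓ.Prime → ¬ ℓ ∣ M * 2 * 𝔓.p →
      ∃ (c : Qbˣ) (u : (↥(modularFunctionFieldBar (M * 2 * 𝔓.p)))ˣ),
        tkrHecke (M * 2 * 𝔓.p) ℓ (f : ↥(modularFunctionFieldBar (M * 2 * 𝔓.p))) =
          algebraMap Qb _ (c : Qb) * ((f ^ (ℓ + 1) * u ^ 𝔓.p :
            (↥(modularFunctionFieldBar (M * 2 * 𝔓.p)))ˣ) :
              ↥(modularFunctionFieldBar (M * 2 * 𝔓.p))))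
    (hchain : DlwChain 𝔓 (M * 2) hK f)
    (Wp : JZero (M * 2 * 𝔓.p) →+ JZero (M * 2 * 𝔓.p)) (hW : DlwWSide 𝔓 (M * 2) hK Wp) :
    W.IsResiduallyModularOfLevel 𝔓.p M := by
  classical
  have hp0 : 𝔓.p ≠ 0 := 𝔓.hp.ne_zero
  -- Branch A
  by_cases hA : ∀ x ∈ V, dlwPushA M 𝔓.p x = 0
  swap
  · push Not at hA
    obtain ⟨x₀, hx₀, hAx₀⟩ := hA
    exact dlw_branchA M W V htor hstab heig (dlwPushA M 𝔓.p) (dlwPushA_galois M 𝔓.p) x₀ hx₀ hAx₀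
  by_cases hB : ∀ x ∈ V, dlwPushB M 𝔓.p x = 0
  swap
  · push Not at hB
    obtain ⟨x₀, hx₀, hBx₀⟩ := hB
    exact dlw_branchA M W V htor hstab heig (dlwPushB M 𝔓.p) (dlwPushB_galois M 𝔓.p) x₀ hx₀ hBx₀
  -- Branch B
  obtain ⟨L₁, hat⟩ := dlwPeu_iff.mp hpeu
  have hMK : M ∣ M * 2 := Dvd.intro 2 rfl
  have hdvd : M * 𝔓.p ∣ M * 2 * 𝔓.p := Nat.mul_dvd_mul_right hMK 𝔓.p
  obtain ⟨Φ, hΦ⟩ : ∃ Φ : JZero (M * 𝔓.p) →+ JZero (M * 2 * 𝔓.p), Φ = dlwPullDvd hdvd := ⟨_, rfl⟩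
  have hΦσ : ∀ (σ : GQ) (x : JZero (M * 𝔓.p)), Φ (σ • x) = σ • Φ x := by
    intro σ x
    rw [hΦ]
    exact dlwPullDvd_galois hdvd σ x
  have hinj : ∀ x ∈ V, Φ x = 0 → x = 0 := fun x hx h0 =>
    dlwPullDvd_eq_zero hdvd hp0 x (htor x hx) (by rw [← hΦ]; exact h0)
  -- the plane at the rigid level
  have hat' := hat.map Φ hΦσ hinj
  have hcard' : Nat.card ↥(V.map Φ) = 𝔓.p ^ 2 := by rw [dlw_card_map Φ V hinj, hcard]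
  have htor' : ∀ y ∈ V.map Φ, 𝔓.p • y = 0 := by
    rintro _ ⟨x, hx, rfl⟩
    rw [← map_nsmul, htor x hx, _root_.map_zero]
  have hstab' : ∀ σ : GQ, ∀ y ∈ V.map Φ, σ • y ∈ V.map Φ := by
    rintro σ _ ⟨x, hx, rfl⟩
    exact ⟨σ • x, hstab σ x hx, hΦσ σ x⟩
  have hA' : ∀ y ∈ V.map Φ, dlwPushA (M * 2) 𝔓.p y = 0 := by
    rintro _ ⟨x, hx, rfl⟩
    rw [hΦ, dlwPushA_pull 𝔓.p hMK hK x, hA x hx, _root_.map_zero]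
  have hB' : ∀ y ∈ V.map Φ, dlwPushB (M * 2) 𝔓.p y = 0 := by
    rintro _ ⟨x, hx, rfl⟩
    rw [hΦ, dlwPushB_pull 𝔓.p hMK hK x, hB x hx, _root_.map_zero]
  obtain ⟨hC1, hE1⟩ := hchain ζ hζ (V.map Φ) (L₁.map Φ) hat' hcard' htor' hstab' hA' hB'
  -- the `w_p`-side
  have hat'' := hat'.map Wp hW.galois (fun x hx => hW.inj x (htor' x hx))
  have hcard'' : Nat.card ↥((V.map Φ).map Wp) = 𝔓.p ^ 2 := by
    rw [dlw_card_map Wp (V.map Φ) (fun x hx => hW.inj x (htor' x hx)), hcard']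
  have htor'' : ∀ y ∈ (V.map Φ).map Wp, 𝔓.p • y = 0 := by
    rintro _ ⟨x, hx, rfl⟩
    rw [← map_nsmul, htor' x hx, _root_.map_zero]
  have hstab'' : ∀ σ : GQ, ∀ y ∈ (V.map Φ).map Wp, σ • y ∈ (V.map Φ).map Wp := by
    rintro σ _ ⟨x, hx, rfl⟩
    exact ⟨σ • x, hstab' σ x hx, hW.galois σ x⟩
  have hA'' : ∀ y ∈ (V.map Φ).map Wp, dlwPushA (M * 2) 𝔓.p y = 0 := by
    rintro _ ⟨x, hx, rfl⟩
    rw [hW.pushA x (htor' x hx), hB' x hx]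
  have hB'' : ∀ y ∈ (V.map Φ).map Wp, dlwPushB (M * 2) 𝔓.p y = 0 := by
    rintro _ ⟨x, hx, rfl⟩
    rw [hW.pushB x (htor' x hx), hA' x hx]
  obtain ⟨-, hE2⟩ := hchain ζ hζ ((V.map Φ).map Wp) ((L₁.map Φ).map Wp) hat'' hcard'' htor''
    hstab'' hA'' hB''
  -- a point outside the line and its Kummer function
  obtain ⟨x, hxV, hxL⟩ := dlw_exists_not_mem 𝔓.hp V L₁ hcard hat.2.1
  obtain ⟨Y, hdiv, hYx⟩ := alpf_exists_class hp0 x (by rw [natCast_zsmul]; exact htor x hxV)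
  have hx'V : Φ x ∈ V.map Φ := ⟨x, hxV, rfl⟩
  have hx'L : Φ x ∉ L₁.map Φ := by
    rintro ⟨l, hl, hlx⟩
    have h0 : l - x = 0 :=
      hinj (l - x) (V.sub_mem (hat.1 hl) hxV) (by rw [map_sub, hlx, sub_self])
    rw [sub_eq_zero] at h0
    exact hxL (h0 ▸ hl)
  have hx''V : Wp (Φ x) ∈ (V.map Φ).map Wp := ⟨Φ x, hx'V, rfl⟩
  have hx''L : Wp (Φ x) ∉ (L₁.map Φ).map Wp := by
    rintro ⟨l, hl, hlx⟩
    have h0 : l - Φ x = 0 := hW.inj (l - Φ x)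
      (htor' _ ((V.map Φ).sub_mem (hat'.1 hl) hx'V)) (by rw [map_sub, hlx, sub_self])
    rw [sub_eq_zero] at h0
    exact hx'L (h0 ▸ hl)
  have hcls' : alpfClass hp0 (dlwInclU hdvd Y) (dlw_dvd_ord_incl hdvd Y hdiv) = Φ x := by
    rw [← hYx, hΦ]
    exact (dlwPullDvd_class hdvd hp0 Y hdiv).symm
  have hcls'' : alpfClass hp0 (dleWU (M * 2) 𝔓.p hK (dlwInclU hdvd Y))
      (dle_dvd_ord_w (M * 2) 𝔓.p hK (dlwInclU hdvd Y) (dlw_dvd_ord_incl hdvd Y hdiv)) =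
      Wp (Φ x) := by
    rw [← hcls']
    exact (hW.cls (dlwInclU hdvd Y) (dlw_dvd_ord_incl hdvd Y hdiv)).symm
  -- the set of primes
  obtain ⟨𝓛, h𝓛def⟩ : ∃ 𝓛 : Set ℕ, 𝓛 = {ℓ | ℓ.Prime ∧ W.IsGoodPrimeFor ℓ ∧ ¬ ℓ ∣ M ∧ ℓ ≠ 𝔓.p} :=
    ⟨_, rfl⟩
  have hnd : ∀ ℓ : ℕ, ℓ.Prime → ¬ ℓ ∣ M → ℓ ≠ 𝔓.p → ¬ ℓ ∣ M * 2 * 𝔓.p := by
    intro ℓ hℓ hℓM hℓp h
    rcases hℓ.dvd_mul.mp h with h1 | h1
    · rcases hℓ.dvd_mul.mp h1 with h2 | h2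
      · exact hℓM h2
      · exact hℓM (h2.trans h2M)
    · exact hℓp ((Nat.prime_dvd_prime_iff_eq hℓ 𝔓.hp).mp h1)
  have h𝓛 : ∀ ℓ ∈ 𝓛, ℓ.Prime ∧ ¬ ℓ ∣ M * 2 * 𝔓.p := by
    intro ℓ hℓ
    rw [h𝓛def] at hℓ
    exact ⟨hℓ.1, hnd ℓ hℓ.1 hℓ.2.2.1 hℓ.2.2.2⟩
  have hℓ₀𝓛 : ℓ₀ ∈ 𝓛 := by
    rw [h𝓛def]
    exact ⟨hℓ₀, hgood₀, hℓ₀M, hℓ₀p⟩
  have hne' : ((W.apOfModel ℓ₀ : ℤ) : ZMod 𝔓.p) ≠ (ℓ₀ : ZMod 𝔓.p) + 1 := by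
    intro h
    apply hne
    rw [← ZMod.intCast_zmod_eq_zero_iff_dvd]
    push_cast
    rw [h]
    ring
  have heigY : ∀ (ℓ : ℕ) (hℓ : ℓ.Prime), ℓ ∈ 𝓛 →
      heckeOperatorBar (M * 𝔓.p) ⟨ℓ, hℓ⟩ (alpfClass hp0 Y hdiv) =
        (W.apOfModel ℓ : ℤ) • alpfClass hp0 Y hdiv := by
    intro ℓ hℓ hℓ𝓛
    rw [h𝓛def] at hℓ𝓛
    rw [hYx]
    refine heig ℓ hℓ ?_ hℓ𝓛.2.1 hℓ𝓛.2.2.2 x hxV
    intro h
    exact hnd ℓ hℓ hℓ𝓛.2.2.1 hℓ𝓛.2.2.2 (h.trans hdvd)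
  have h4 : 4 ∣ M * 2 := by
    obtain ⟨m, rfl⟩ := h2M
    exact ⟨m, by ring⟩
  obtain ⟨g, 𝔪, hg, h𝔪, hp𝔪, hcong⟩ := dle_endB hp5 M 2 (Or.inr (Or.inl rfl)) hK (Or.inl h4) f hfh 𝓛
    h𝓛 (fun ℓ => W.apOfModel ℓ) ℓ₀ hℓ₀𝓛 hne' Y hdiv heigY
    (by
      rw [hcls']
      exact fun hmem => hx'L (hC1 _ hx'V hmem))
    (hE1 _ hx'V hx'L _ _ hcls')
    (hE2 _ hx''V hx''L _ _ hcls'')
  refine ⟨g, 𝔪, hg, h𝔪, hp𝔪, fun ℓ hℓ hgood hℓM hℓp => ?_⟩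
  refine hcong ℓ ?_
  rw [h𝓛def]
  exact ⟨hℓ, hgood, hℓM, hℓp⟩

/-- the inputs of `dlw_final_core` which do not depend on the Frey curve: the vertical function,
(CHAIN) at every rigid level -/
def DlwInputs : Prop :=
  ∀ (𝔓 : FFPlace) (K : ℕ) [NeZero K] (hK : ¬ 𝔓.p ∣ K), 4 ∣ K → 5 ≤ 𝔓.p →
    ∃ f : (↥(modularFunctionFieldBar (K * 𝔓.p)))ˣ,
      (∀ ℓ : ℕ, ℓ.Prime → ¬ ℓ ∣ K * 𝔓.p →
        ∃ (c : Qbˣ) (u : (↥(modularFunctionFieldBar (K * 𝔓.p)))ˣ),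
          tkrHecke (K * 𝔓.p) ℓ (f : ↥(modularFunctionFieldBar (K * 𝔓.p))) =
            algebraMap Qb _ (c : Qb) * ((f ^ (ℓ + 1) * u ^ 𝔓.p :
              (↥(modularFunctionFieldBar (K * 𝔓.p)))ˣ) :
                ↥(modularFunctionFieldBar (K * 𝔓.p)))) ∧
      DlwChain 𝔓 K hK f

/-- the Frey curve is an elliptic curve -/
theorem dlw_frey_isElliptic (P : FreyPackage) {W : WeierstrassCurve ℤ}
    (hWE : W.IsIntegralModelOf P.freyCurve) : P.freyCurve.IsElliptic := by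
  have hΔ := dlw_frey_model_Δ P hWE
  obtain ⟨C, hC⟩ := hWE
  refine ⟨isUnit_iff_ne_zero.mpr fun h0 => hΔ ?_⟩
  have h1 : (W.map (Int.castRingHom ℚ)).Δ = 0 := by
    rw [← hC, WeierstrassCurve.variableChange_Δ, h0, mul_zero]
  rw [WeierstrassCurve.map_Δ, eq_intCast] at h1
  exact_mod_cast h1

/-- **S44 from (CHAIN)** -/
theorem dlw_final (hin : DlwInputs) (P : FreyPackage) {N : ℕ} (hcond : P.IsConductorLevel N)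
    (hpN : P.p ∣ N) (hirr : GaloisRepIsIrreducible (K := Qb) ℚ P.freyCurve P.p)
    (hmod : P.ModularRepOfLevel N) :
    ∃ M : ℕ, M ∣ N ∧ ¬ P.p ∣ M ∧ P.ModularRepOfLevel M := by
  obtain ⟨M, rfl⟩ : ∃ M, N = M * P.p := ⟨N / P.p, (Nat.div_mul_cancel hpN).symm⟩
  have hNpos := hcond.pos
  haveI : NeZero (M * P.p) := ⟨hNpos.ne'⟩
  haveI : NeZero M := ⟨fun h => by rw [h, zero_mul] at hNpos; exact lt_irrefl _ hNpos⟩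
  have hp5 := P.hp5
  have hp2 : P.p ≠ 2 := by omega
  have hpM : ¬ P.p ∣ M := fun h =>
    hcond.sq_not_dvd P.pp (by rw [sq]; exact Nat.mul_dvd_mul h dvd_rfl)
  have hpabc := hcond.p_dvd_abc hpN
  obtain ⟨W, V, ψ, hWE, hΔ, htor, hstab, hψ, heig, hpeu⟩ := dlw_D1 P hpabc hirr hmod
  have h2N := dlw_two_dvd_level P V ψ htor hψ
  have h2M : 2 ∣ M := by
    rcases (Nat.Prime.dvd_mul Nat.prime_two).mp h2N with h | h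
    · exact h
    · exact absurd ((Nat.prime_dvd_prime_iff_eq Nat.prime_two P.pp).mp h).symm hp2
  obtain ⟨A, hA⟩ := Fermat.Agent.Lib.Helper6.exists_valuationSubring_liesOverPrime Qb P.pp
  haveI : NeZero ((P.p : ℕ) : Qb) := ⟨by exact_mod_cast P.hp0⟩
  obtain ⟨ζ, hζ⟩ := HasEnoughRootsOfUnity.exists_primitiveRoot Qb P.p
  haveI := dlw_frey_isElliptic P hWE
  obtain ⟨ℓ₀, hℓ₀, hℓ₀T, hgood₀, hne⟩ := Fermat.Agent.LR.lre_exists_prime_not_eisenstein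
    P.freyCurve hWE P.pp hp2 hirr (M * P.p).primeFactors
  have hℓ₀N : ¬ ℓ₀ ∣ M * P.p := fun h =>
    hℓ₀T (Nat.mem_primeFactors.mpr ⟨hℓ₀, h, NeZero.ne _⟩)
  have hℓ₀M : ¬ ℓ₀ ∣ M := fun h => hℓ₀N (h.trans (Dvd.intro _ rfl))
  have hℓ₀p : ℓ₀ ≠ P.p := fun h => hℓ₀N (h ▸ Dvd.intro_left _ rfl)
  have hcardV : Nat.card ↥V = P.p ^ 2 :=
    (Nat.card_congr ψ.toEquiv).symm.trans
      (Fermat.Agent.S13Lib.Torsion.natCard_torsionBy_frey P P.hppos)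
  have hK : ¬ P.p ∣ M * 2 := by
    intro h
    rcases (Nat.Prime.dvd_mul P.pp).mp h with h | h
    · exact hpM h
    · exact hp2 ((Nat.prime_dvd_prime_iff_eq P.pp Nat.prime_two).mp h)
  have h4 : 4 ∣ M * 2 := by
    obtain ⟨m, rfl⟩ := h2M
    exact ⟨m, by ring⟩
  refine ⟨M, Dvd.intro _ rfl, hpM, ?_⟩
  have hres : W.IsResiduallyModularOfLevel P.p M := by
    obtain ⟨f, hfh, hchain⟩ := hin ⟨A, P.p, P.pp, hA⟩ (M * 2) hK h4 hp5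
    exact dlw_final_core (𝔓 := ⟨A, P.p, P.pp, hA⟩) hp5 M h2M W hζ V hcardV htor hstab heig
      (hpeu ⟨A, P.p, P.pp, hA⟩ ζ rfl hζ) ℓ₀ hℓ₀ hℓ₀M hℓ₀p hgood₀ hne hK f hfh hchain _
      (dlw_wside ⟨A, P.p, P.pp, hA⟩ (M * 2) hK)
  obtain ⟨g, 𝔪, hg, h𝔪, hp𝔪, hcong⟩ := hres
  exact ⟨g, W, 𝔪, hg, hWE, h𝔪, hp𝔪, hcong⟩

end

end Fermat.Agent.Delta
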