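/-
DELTA / WIRE (W3-a) (helper1): **the copy `V` of `E[p]` is a plane**.

* `dlwc_card`  : `Nat.card V = p ^ 2` for `V ≃+ E[p]` (`E` the Frey curve);
* `dlwc_line`  : a subgroup `L₁` of prime order `p` is generated by any of its nonzero elements
  (with a natural number coefficient);
* `dlwc_span`  : `V` of order `p ^ 2` killed by `p`, `L₁ ≤ V` of order `p`, `x ∈ V ∖ L₁`, `0 ≠ l₀ ∈ L₁`:
  every `y ∈ V` is `i • x + j • l₀`.
-/
import Mathlib
import Fermat.Agent.Lib.S13.Torsion.Frey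

set_option autoImplicit false
set_option linter.unusedSectionVars false
set_option linter.unusedVariables false
set_option linter.style.haveILetI false

open WeierstrassCurve WeierstrassCurve.Affine

namespace Fermat.Agent.Delta

local notation "Qb" => AlgebraicClosure ℚ

/-- a Galois-copy of the `p`-torsion of the Frey curve has `p ^ 2` elements -/
theorem dlwc_card (P : FreyPackage) {A : Type*} [AddCommGroup A] (V : AddSubgroup A)
    (ψ : ↥(Submodule.torsionBy ℤ (P.freyCurve.toAffine⁄Qb).Point (P.p : ℤ)) ≃+ ↥V) :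
    Nat.card V = P.p ^ 2 := by
  rw [← Nat.card_congr ψ.toEquiv]
  exact Fermat.Agent.S13Lib.Torsion.natCard_torsionBy_frey P P.pp.pos

section Span

variable {A : Type*} [AddCommGroup A] {p : ℕ}

/-- an integer multiple of a `p`-torsion element is a natural multiple -/
theorem dlwc_zsmul_eq_nsmul (hp : p ≠ 0) {a : A} (ha : p • a = 0) (k : ℤ) :
    ∃ j : ℕ, k • a = j • a := by
  refine ⟨(k % (p : ℤ)).toNat, ?_⟩
  have hp' : (0 : ℤ) < p := by exact_mod_cast Nat.pos_of_ne_zero hp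
  have h1 : ((k % (p : ℤ)).toNat : ℤ) = k % (p : ℤ) :=
    Int.toNat_of_nonneg (Int.emod_nonneg k hp'.ne')
  have h2 : k = (p : ℤ) * (k / (p : ℤ)) + k % (p : ℤ) := (Int.mul_ediv_add_emod k p).symm
  rw [← natCast_zsmul a (k % (p : ℤ)).toNat, h1]
  conv_lhs => rw [h2]
  rw [add_zsmul, mul_comm, mul_zsmul, natCast_zsmul, ha, smul_zero, zero_add]

/-- a group of prime order is generated by any nonzero element -/
theorem dlwc_line (hp : p.Prime) (L₁ : AddSubgroup A) (hL : Nat.card L₁ = p) {l₀ : A}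
    (hl : l₀ ∈ L₁) (hl0 : l₀ ≠ 0) : ∀ y ∈ L₁, ∃ j : ℕ, y = j • l₀ := by
  haveI : Fact p.Prime := ⟨hp⟩
  intro y hy
  have hne : (⟨l₀, hl⟩ : L₁) ≠ 0 := fun h => hl0 (congrArg Subtype.val h)
  have htop : AddSubgroup.zmultiples (⟨l₀, hl⟩ : L₁) = ⊤ :=
    zmultiples_eq_top_of_prime_card hL hne
  have hmem : (⟨y, hy⟩ : L₁) ∈ AddSubgroup.zmultiples (⟨l₀, hl⟩ : L₁) := by
    rw [htop]
    exact AddSubgroup.mem_top _
  obtain ⟨k, hk⟩ := AddSubgroup.mem_zmultiples_iff.mp hmem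
  have hk' : k • l₀ = y := by
    have := congrArg Subtype.val hk
    simpa using this
  have hpl : p • l₀ = 0 := by
    have h1 : Nat.card L₁ • (⟨l₀, hl⟩ : L₁) = 0 := card_nsmul_eq_zero'
    rw [hL] at h1
    have := congrArg Subtype.val h1
    simpa using this
  obtain ⟨j, hj⟩ := dlwc_zsmul_eq_nsmul hp.ne_zero hpl k
  exact ⟨j, by rw [← hk', hj]⟩

/-- **`V` is spanned by `x ∉ L₁` and `0 ≠ l₀ ∈ L₁`** -/
theorem dlwc_span (hp : p.Prime) (V L₁ : AddSubgroup A) (hLV : L₁ ≤ V) (hV : Nat.card V = p ^ 2)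
    (hL : Nat.card L₁ = p) (htor : ∀ x ∈ V, p • x = 0) {x l₀ : A} (hx : x ∈ V) (hxL : x ∉ L₁)
    (hl : l₀ ∈ L₁) (hl0 : l₀ ≠ 0) :
    (∀ y ∈ L₁, ∃ j : ℕ, y = j • l₀) ∧ (∀ y ∈ V, ∃ i j : ℕ, y = i • x + j • l₀) := by
  have hline := dlwc_line hp L₁ hL hl hl0
  refine ⟨hline, ?_⟩
  haveI : Finite V := Nat.finite_of_card_ne_zero (by rw [hV]; exact pow_ne_zero 2 hp.ne_zero)
  -- the subgroup generated by `x` and `L₁`
  set S : AddSubgroup A := AddSubgroup.zmultiples x ⊔ L₁ with hS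
  have hSV : S ≤ V := sup_le (AddSubgroup.zmultiples_le_of_mem hx) hLV
  have hLS : L₁ ≤ S := le_sup_right
  have hxS : x ∈ S := (le_sup_left : AddSubgroup.zmultiples x ≤ S) (AddSubgroup.mem_zmultiples x)
  haveI : Finite S := Finite.of_injective (fun s : S => (⟨s.1, hSV s.2⟩ : V))
    (fun a b h => Subtype.ext (congrArg (fun v : V => (v : A)) h))
  have hd1 : Nat.card S ∣ p ^ 2 := hV ▸ AddSubgroup.card_dvd_of_le hSV
  have hd2 : p ∣ Nat.card S := hL ▸ AddSubgroup.card_dvd_of_le hLS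
  have hSne : Nat.card S ≠ p := by
    intro h
    have : L₁ = S := AddSubgroup.eq_of_le_of_card_ge hLS (by rw [h, hL])
    exact hxL (this ▸ hxS)
  have hcard : Nat.card S = p ^ 2 := by
    obtain ⟨k, hk, hk'⟩ := (Nat.dvd_prime_pow hp).mp hd1
    interval_cases k
    · rw [hk', pow_zero] at hd2
      exact absurd (Nat.dvd_one.mp hd2) hp.one_lt.ne'
    · rw [pow_one] at hk'
      exact absurd hk' hSne
    · exact hk'
  have hSeq : S = V := AddSubgroup.eq_of_le_of_card_ge hSV (by rw [hcard, hV])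
  intro y hy
  rw [← hSeq, hS] at hy
  obtain ⟨a, ha, b, hb, rfl⟩ := AddSubgroup.mem_sup.mp hy
  obtain ⟨k, rfl⟩ := AddSubgroup.mem_zmultiples_iff.mp ha
  obtain ⟨i, hi⟩ := dlwc_zsmul_eq_nsmul hp.ne_zero (htor x hx) k
  obtain ⟨j, rfl⟩ := hline b hb
  exact ⟨i, j, by rw [hi]⟩

end Span

end Fermat.Agent.Delta
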