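/-
DELTA / WIRE (helper4), part 17: **(CHAIN), everything before CORE**.

For a *peu ramifiée* plane `V ≤ J₀(K p)[p]` with line `L₁` at a rigid level `K`, killed by both
degeneracy push-forwards:

* `dlw_valuation_eq_one` : a constant of order `0` is a unit of `tbFixO`;
* `dlw_chain_kummer` : `V ∩ C ≤ L₁`, and a generator `l₀` of `L₁` has a normalised Kummer function
  `Z` at the tame level `H₁` (`DliKummer`);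
* `dlw_chain_cover` : for `x ∈ V ∖ L₁` the output of `dla_level'` on the cover `y ^ p = Z`.
-/
import Mathlib
import Fermat.Agent.Lib.Delta.Alg.Export
import Fermat.Agent.Lib.Delta.Toric.NodeExport
import Fermat.Agent.Lib.Delta.End.NotFormal
import Fermat.Agent.Lib.Delta.Wire.Card
import Fermat.Agent.Lib.Delta.Wire.PeuAt

set_option autoImplicit false
set_option linter.unusedSectionVars false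
set_option linter.unusedVariables false
set_option linter.style.haveILetI false
set_option synthInstance.maxHeartbeats 400000

open HahnSeries ModularCurve AlgebraicCurve Fermat.Agent.T1 Fermat.Agent.T2 Fermat.Agent.TW
  Fermat.Agent.S05Lib Fermat.Agent.Alpha Fermat.Agent.T4 Fermat.Agent.S33

noncomputable section

namespace Fermat.Agent.Delta

local notation "Qb" => AlgebraicClosure ℚ
local notation "GQ" => (AlgebraicClosure ℚ ≃ₐ[ℚ] AlgebraicClosure ℚ)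

attribute [local instance] s33g_neZero

variable (𝔓 : FFPlace)

/-- a constant of order `0` is a unit of the valuation ring of the level `H` -/
theorem dlw_valuation_eq_one (H : Subgroup 𝔓.I) (u₁ : ↥(tbFix 𝔓 H)) (hu : 𝔓.v.Is (u₁ : Qb) 0) :
    (tbFixO 𝔓 H).valuation u₁ = 1 := by
  have hu0 : u₁ ≠ 0 := fun h => hu.ne_zero (by rw [h]; rfl)
  have h1 : (tbFixO 𝔓 H).valuation u₁ ≤ 1 := by
    rw [ValuationSubring.valuation_le_one_iff, mem_tbFixO]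
    exact hu.ge
  have h2 : (tbFixO 𝔓 H).valuation u₁⁻¹ ≤ 1 := by
    rw [ValuationSubring.valuation_le_one_iff, mem_tbFixO]
    have h3 : ((u₁⁻¹ : ↥(tbFix 𝔓 H)) : Qb) = (u₁ : Qb)⁻¹ := rfl
    rw [h3]
    have := hu.inv
    rw [neg_zero] at this
    exact this.ge
  rw [map_inv₀] at h2
  have h0 : (tbFixO 𝔓 H).valuation u₁ ≠ 0 := (Valuation.ne_zero_iff _).mpr hu0
  refine le_antisymm h1 ?_
  rwa [inv_le_one₀ (zero_lt_iff.mpr h0)] at h2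

variable (K : ℕ) [NeZero K] (hK : ¬ 𝔓.p ∣ K)

/-- **(CHAIN), first half**: `V ∩ C ≤ L₁` and the normalised Kummer function of a generator of the
line -/
theorem dlw_chain_kummer (h49 : 4 ∣ K ∨ 9 ∣ K) (hp2 : 2 < 𝔓.p) {ζ : Qb}
    (hζ : IsPrimitiveRoot ζ 𝔓.p) (V L₁ : AddSubgroup (JZero (K * 𝔓.p)))
    (hat : DlwPeuAt V L₁ 𝔓 𝔓.p ζ) (hcard : Nat.card V = 𝔓.p ^ 2)
    (htor : ∀ x ∈ V, 𝔓.p • x = 0)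
    (hA : ∀ x ∈ V, dlwPushA K 𝔓.p x = 0) (hB : ∀ x ∈ V, dlwPushB K 𝔓.p x = 0) :
    (∀ x ∈ V, x ∈ s33gC 𝔓 K hK → x ∈ L₁) ∧
    ∃ (l₀ : JZero (K * 𝔓.p)) (Z : ↥(tbLevF 𝔓 (K * 𝔓.p) (dliH1 𝔓))),
      l₀ ∈ L₁ ∧ l₀ ≠ 0 ∧ DliKummer 𝔓 K hK l₀ Z := by
  obtain ⟨h1, h2, h3, h4, u, w, h5, h6, h7, h8⟩ := hat
  obtain ⟨hLC, hVC⟩ := dle_formal_inter 𝔓 K hK h49 hp2 hζ V L₁ h1 hcard h2 htor h3 h4
  refine ⟨hVC, ?_⟩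
  -- a generator of the line
  obtain ⟨l₀, hl₀, hl₀0⟩ : ∃ l₀ ∈ L₁, l₀ ≠ 0 := by
    by_contra hcon
    push Not at hcon
    have hbot : L₁ = ⊥ := by
      rw [eq_bot_iff]
      intro l hl
      exact AddSubgroup.mem_bot.mpr (hcon l hl)
    rw [hbot, AddSubgroup.card_bot] at h2
    exact 𝔓.hp.one_lt.ne h2
  have hfix : ∀ σ ∈ dliH1 𝔓, ((σ : 𝔓.I) : GQ) • l₀ = l₀ := by
    intro σ hσ
    have h9 := h4 (σ : GQ) σ.2 1 (by rw [pow_one]; exact hσ ζ hζ.pow_eq_one) l₀ hl₀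
    rwa [one_smul] at h9
  obtain ⟨Z, hZ⟩ := dli_exists_kummer 𝔓 K hK l₀ (hLC hl₀) (htor l₀ (h1 hl₀)) hfix
    (hA l₀ (h1 hl₀)) (hB l₀ (h1 hl₀))
  exact ⟨l₀, Z, hl₀, hl₀0, hZ⟩

/-- **(CHAIN), second half**: the cover data of a point `x ∈ V ∖ L₁` (the output of `dla_level'`
for the cover `y ^ p = Z`) -/
theorem dlw_chain_cover {ζ : Qb} (hζ : IsPrimitiveRoot ζ 𝔓.p)
    (V L₁ : AddSubgroup (JZero (K * 𝔓.p))) (hat : DlwPeuAt V L₁ 𝔓 𝔓.p ζ)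
    (htor : ∀ x ∈ V, 𝔓.p • x = 0)
    {l₀ : JZero (K * 𝔓.p)} (hl₀ : l₀ ∈ L₁) (hl₀0 : l₀ ≠ 0)
    (Z : ↥(tbLevF 𝔓 (K * 𝔓.p) (dliH1 𝔓))) (hZ0 : tbPhiF 𝔓 (K * 𝔓.p) (dliH1 𝔓) Z ≠ 0)
    (hZ : ∀ v : Place Qb ↥(modularFunctionFieldBar (K * 𝔓.p)),
      (𝔓.p : ℤ) ∣ v.ord (tbPhiF 𝔓 (K * 𝔓.p) (dliH1 𝔓) Z))
    (hcls : alpfClass 𝔓.hp.ne_zero (Units.mk0 _ hZ0) hZ = l₀)
    (hlc : dliLc (K * 𝔓.p) (tbPhiF 𝔓 (K * 𝔓.p) (dliH1 𝔓) Z) = 1) :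
    ∃ u₁ : ↥(tbFix 𝔓 (dliH1 𝔓)), (tbFixO 𝔓 (dliH1 𝔓)).valuation u₁ = 1 ∧
      ∀ x ∈ V, x ∉ L₁ →
      ∀ (ζ₁ : ↥(tbFix 𝔓 (dliH1 𝔓))) (hζ₁ : IsPrimitiveRoot ζ₁ 𝔓.p)
        (τ₁ : DlyRoot 𝔓.p Z →+* DlyRoot 𝔓.p Z)
        (hτof : ∀ f : ↥(tbLevF 𝔓 (K * 𝔓.p) (dliH1 𝔓)),
          τ₁ (algebraMap ↥(tbLevF 𝔓 (K * 𝔓.p) (dliH1 𝔓)) (DlyRoot 𝔓.p Z) f) =
            algebraMap ↥(tbLevF 𝔓 (K * 𝔓.p) (dliH1 𝔓)) (DlyRoot 𝔓.p Z) f)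
        (hτroot : τ₁ (AdjoinRoot.root _) =
          algebraMap ↥(tbLevF 𝔓 (K * 𝔓.p) (dliH1 𝔓)) (DlyRoot 𝔓.p Z)
            (algebraMap ↥(tbFix 𝔓 (dliH1 𝔓)) ↥(tbLevF 𝔓 (K * 𝔓.p) (dliH1 𝔓)) ζ₁) *
              AdjoinRoot.root _),
      ∃ (H : Subgroup 𝔓.I) (_ : H.FiniteIndex) (_ : H.Normal) (hle : H ≤ dliH1 𝔓)
        (zx : ↥(tbLevF 𝔓 (K * 𝔓.p) H)) (hzx0 : tbPhiF 𝔓 (K * 𝔓.p) H zx ≠ 0)
        (hzx : ∀ v : Place Qb ↥(modularFunctionFieldBar (K * 𝔓.p)),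
          (𝔓.p : ℤ) ∣ v.ord (tbPhiF 𝔓 (K * 𝔓.p) H zx)),
        alpfClass 𝔓.hp.ne_zero (Units.mk0 _ hzx0) hzx = x ∧
        ∃ (r : DlyRoot 𝔓.p (dlqlF 𝔓 hle (K * 𝔓.p) Z)) (z' g : DlyRoot 𝔓.p Z) (n : ℕ),
          r ≠ 0 ∧ z' ≠ 0 ∧ g ≠ 0 ∧
          dlyRootMap 𝔓.p (dlqlF 𝔓 hle (K * 𝔓.p)) Z z' =
            algebraMap ↥(tbLevF 𝔓 (K * 𝔓.p) H) (DlyRoot 𝔓.p (dlqlF 𝔓 hle (K * 𝔓.p) Z)) zx *
              r ^ 𝔓.p ∧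
          algebraMap ↥(tbLevF 𝔓 (K * 𝔓.p) (dliH1 𝔓)) (DlyRoot 𝔓.p Z)
              (algebraMap ↥(tbFix 𝔓 (dliH1 𝔓)) ↥(tbLevF 𝔓 (K * 𝔓.p) (dliH1 𝔓)) u₁) ^ n *
            τ₁ z' = g ^ 𝔓.p * z' := by
  classical
  obtain ⟨h1, h2, h3, h4, u, w, h5, h6, h7, h8⟩ := hat
  have hσζ : ∀ σ : ↥(dliH1 𝔓), (((σ : ↥(dliH1 𝔓)) : 𝔓.I) : GQ) ζ = ζ :=
    fun σ => σ.2 ζ hζ.pow_eq_one
  -- the constant `u`
  have hu_mem : u ∈ tbFix 𝔓 (dliH1 𝔓) := by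
    rw [mem_tbFix]
    intro σ hσ
    exact h6 (σ : GQ) σ.2 (hσ ζ hζ.pow_eq_one)
  refine ⟨⟨u, hu_mem⟩, dlw_valuation_eq_one 𝔓 (dliH1 𝔓) ⟨u, hu_mem⟩ h5, ?_⟩
  intro x hxV hxL ζ₁ hζ₁ τ₁ hτof hτroot
  have hu0 : (⟨u, hu_mem⟩ : ↥(tbFix 𝔓 (dliH1 𝔓))) ≠ 0 := fun h =>
    h5.ne_zero (congrArg Subtype.val h)
  -- the cocycle
  have hline := dlwc_line 𝔓.hp L₁ h2 hl₀ hl₀0
  have hex : ∀ σ : ↥(dliH1 𝔓), ∃ j : ℕ,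
      (((σ : ↥(dliH1 𝔓)) : 𝔓.I) : GQ) • x - x = j • l₀ :=
    fun σ => hline _ (h3 _ (σ : 𝔓.I).2 x hxV)
  choose a ha using hex
  have hl₀' : alpfClass 𝔓.hp.ne_zero (Units.mk0 _ hZ0) hZ ≠ 0 := by
    rw [hcls]; exact hl₀0
  exact dla_level' 𝔓 (K * 𝔓.p) (dliH1 𝔓) 𝔓.hp ζ₁ hζ₁ Z hZ0 hZ hlc hl₀' x
    (by rw [natCast_zsmul]; exact htor x hxV) a
    (fun σ => by rw [hcls]; exact ha σ) ⟨u, hu_mem⟩ hu0 w h7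
    (fun σ hσw => h8 _ (σ : 𝔓.I).2 (hσζ σ) hσw x hxV) τ₁ hτof hτroot

end Fermat.Agent.Delta
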