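/-
DELTA / WIRE (W3-c) (helper1): **the Kummer classes satisfying `DlsEis` form a subgroup**.

`DlsEis 𝔓 K hK f Y` ("the slopes of `Y` are an `𝔽_p`-multiple of the slopes of `f` at the non-cuspidal
places, and vanish at the cusps") only depends on the Kummer class of `Y` (`dle_slope_of_class_eq`), and
is stable under products and powers (`dlsSlope_mul`, `dlsSlope_pow`).  Hence it passes to
`y = i • x + j • l₀` (`dlw_eis_of_span`, `dlw_eis_of_span_zero`).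
-/
import Mathlib
import Fermat.Agent.Lib.Delta.End.GeoB

set_option autoImplicit false
set_option linter.unusedSectionVars false
set_option linter.unusedVariables false
set_option linter.style.haveILetI false
set_option synthInstance.maxHeartbeats 400000

namespace Fermat.Agent.Delta

open ModularCurve HahnSeries Fermat.Agent.T1 Fermat.Agent.T2 Fermat.Agent.TW Fermat.Agent.S24Lib
  Fermat.Agent.S33Q Fermat.Agent.S33 Fermat.Agent.S05Lib AlgebraicCurve Fermat.Agent.Curve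
  Fermat.Agent.T3 Fermat.Agent.Alpha

local notation "Qb" => AlgebraicClosure ℚ

noncomputable section

attribute [local instance] t2gp_fact
attribute [local instance] s33g_neZero

/-! ### Kummer classes of powers -/

section Class

variable {K F : Type*} [Field K] [Field F] [Algebra K F] [HasPrincipalDivisors K F]

theorem dlw_class_one {m : ℕ} (hm : m ≠ 0)
    (h1 : ∀ v : Place K F, (m : ℤ) ∣ v.ord (((1 : Fˣ) : Fˣ) : F)) :
    alpfClass hm (1 : Fˣ) h1 = 0 := by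
  have h2 : ∀ v : Place K F, (m : ℤ) ∣ v.ord (((1 : Fˣ) ^ m : Fˣ) : F) := by
    rw [one_pow]; exact h1
  rw [dlw_class_congr hm (one_pow m).symm h1 h2]
  exact alpfClass_pow hm 1 h2

theorem dlw_dvd_ord_pow {m : ℕ} (y : Fˣ) (hy : ∀ v : Place K F, (m : ℤ) ∣ v.ord (y : F)) (i : ℕ) :
    ∀ v : Place K F, (m : ℤ) ∣ v.ord ((y ^ i : Fˣ) : F) := by
  intro v
  rw [Units.val_pow_eq_pow_val, ← zpow_natCast, v.ord_zpow]
  exact Dvd.dvd.mul_left (hy v) _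

theorem dlw_dvd_ord_mul {m : ℕ} (y y' : Fˣ) (hy : ∀ v : Place K F, (m : ℤ) ∣ v.ord (y : F))
    (hy' : ∀ v : Place K F, (m : ℤ) ∣ v.ord (y' : F)) :
    ∀ v : Place K F, (m : ℤ) ∣ v.ord ((y * y' : Fˣ) : F) := by
  intro v
  rw [Units.val_mul, v.ord_mul y.ne_zero y'.ne_zero]
  exact dvd_add (hy v) (hy' v)

theorem dlw_class_npow {m : ℕ} (hm : m ≠ 0) (y : Fˣ)
    (hy : ∀ v : Place K F, (m : ℤ) ∣ v.ord (y : F)) (i : ℕ) :
    alpfClass hm (y ^ i) (dlw_dvd_ord_pow y hy i) = i • alpfClass hm y hy := by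
  induction i with
  | zero =>
    rw [zero_nsmul]
    have h1 : ∀ v : Place K F, (m : ℤ) ∣ v.ord (((1 : Fˣ) : Fˣ) : F) := by
      intro v
      rw [Units.val_one, Place.ord_one]
      exact dvd_zero _
    rw [dlw_class_congr hm (pow_zero y) _ h1]
    exact dlw_class_one hm h1
  | succ i ih =>
    rw [succ_nsmul, ← ih]
    rw [dlw_class_congr hm (pow_succ y i) _
      (dlw_dvd_ord_mul (y ^ i) y (dlw_dvd_ord_pow y hy i) hy)]
    exact alpfClass_mul hm (y ^ i) y (dlw_dvd_ord_pow y hy i) hy _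

end Class

/-! ### `DlsEis` is a subgroup condition on the Kummer class -/

variable (𝔓 : FFPlace) (K : ℕ) [NeZero K] (hK : ¬ 𝔓.p ∣ K)

variable {𝔓 K hK}

/-- vanishing slopes give `DlsEis` (with the multiple `0`) -/
theorem dlw_eis_of_slope_zero (f : (↥(modularFunctionFieldBar (K * 𝔓.p)))ˣ)
    {Y : (↥(modularFunctionFieldBar (K * 𝔓.p)))ˣ} (h0 : ∀ s, dlsSlope 𝔓 K hK Y s = 0) :
    DlsEis 𝔓 K hK f Y :=
  ⟨0, fun s _ => by rw [h0 s, zero_mul], fun s _ => h0 s⟩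

theorem dlw_eis_mul {f Y Y' : (↥(modularFunctionFieldBar (K * 𝔓.p)))ˣ}
    (hY : DlsEis 𝔓 K hK f Y) (hY' : DlsEis 𝔓 K hK f Y') : DlsEis 𝔓 K hK f (Y * Y') := by
  obtain ⟨a, ha, ha'⟩ := hY
  obtain ⟨b, hb, hb'⟩ := hY'
  refine ⟨a + b, fun s hs => ?_, fun s hs => ?_⟩
  · rw [dlsSlope_mul, ha s hs, hb s hs, add_mul]
  · rw [dlsSlope_mul, ha' s hs, hb' s hs, add_zero]

theorem dlw_eis_pow {f Y : (↥(modularFunctionFieldBar (K * 𝔓.p)))ˣ}
    (hY : DlsEis 𝔓 K hK f Y) (n : ℕ) : DlsEis 𝔓 K hK f (Y ^ n) := by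
  obtain ⟨a, ha, ha'⟩ := hY
  refine ⟨n * a, fun s hs => ?_, fun s hs => ?_⟩
  · rw [dlsSlope_pow, ha s hs, nsmul_eq_mul, mul_assoc]
  · rw [dlsSlope_pow, ha' s hs, smul_zero]

/-- `DlsEis` only depends on the Kummer class -/
theorem dlw_eis_of_class_eq {f Y Z : (↥(modularFunctionFieldBar (K * 𝔓.p)))ˣ}
    (hY : ∀ v : Place Qb ↥(modularFunctionFieldBar (K * 𝔓.p)),
      ((𝔓.p : ℕ) : ℤ) ∣ v.ord (Y : ↥(modularFunctionFieldBar (K * 𝔓.p))))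
    (hZ : ∀ v : Place Qb ↥(modularFunctionFieldBar (K * 𝔓.p)),
      ((𝔓.p : ℕ) : ℤ) ∣ v.ord (Z : ↥(modularFunctionFieldBar (K * 𝔓.p))))
    (hcl : alpfClass 𝔓.hp.ne_zero Y hY = alpfClass 𝔓.hp.ne_zero Z hZ)
    (hE : DlsEis 𝔓 K hK f Y) : DlsEis 𝔓 K hK f Z := by
  obtain ⟨a, ha, ha'⟩ := hE
  refine ⟨a, fun s hs => ?_, fun s hs => ?_⟩
  · rw [← dle_slope_of_class_eq 𝔓 K hK Y Z hY hZ hcl s]
    exact ha s hs
  · rw [← dle_slope_of_class_eq 𝔓 K hK Y Z hY hZ hcl s]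
    exact ha' s hs

/-- **`DlsEis` passes to `y = i • x + j • l₀`** -/
theorem dlw_eis_of_span (f Yx Yl Yy : (↥(modularFunctionFieldBar (K * 𝔓.p)))ˣ)
    (hYx : ∀ v : Place Qb ↥(modularFunctionFieldBar (K * 𝔓.p)),
      ((𝔓.p : ℕ) : ℤ) ∣ v.ord (Yx : ↥(modularFunctionFieldBar (K * 𝔓.p))))
    (hYl : ∀ v : Place Qb ↥(modularFunctionFieldBar (K * 𝔓.p)),
      ((𝔓.p : ℕ) : ℤ) ∣ v.ord (Yl : ↥(modularFunctionFieldBar (K * 𝔓.p))))
    (hYy : ∀ v : Place Qb ↥(modularFunctionFieldBar (K * 𝔓.p)),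
      ((𝔓.p : ℕ) : ℤ) ∣ v.ord (Yy : ↥(modularFunctionFieldBar (K * 𝔓.p))))
    (i j : ℕ)
    (hcl : alpfClass 𝔓.hp.ne_zero Yy hYy =
      i • alpfClass 𝔓.hp.ne_zero Yx hYx + j • alpfClass 𝔓.hp.ne_zero Yl hYl)
    (hE : DlsEis 𝔓 K hK f Yx) (hEl : DlsEis 𝔓 K hK f Yl) : DlsEis 𝔓 K hK f Yy := by
  have hm := 𝔓.hp.ne_zero
  have h1 := dlw_dvd_ord_pow Yx hYx i
  have h2 := dlw_dvd_ord_pow Yl hYl j
  have h3 := dlw_dvd_ord_mul (Yx ^ i) (Yl ^ j) h1 h2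
  have hcl' : alpfClass hm (Yx ^ i * Yl ^ j) h3 = alpfClass hm Yy hYy := by
    rw [alpfClass_mul hm (Yx ^ i) (Yl ^ j) h1 h2 h3, dlw_class_npow hm Yx hYx i,
      dlw_class_npow hm Yl hYl j, hcl]
  exact dlw_eis_of_class_eq h3 hYy hcl' (dlw_eis_mul (dlw_eis_pow hE i) (dlw_eis_pow hEl j))

/-- the same when the slopes of the Kummer function of `l₀` vanish -/
theorem dlw_eis_of_span_zero (f Yx Yl Yy : (↥(modularFunctionFieldBar (K * 𝔓.p)))ˣ)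
    (hYx : ∀ v : Place Qb ↥(modularFunctionFieldBar (K * 𝔓.p)),
      ((𝔓.p : ℕ) : ℤ) ∣ v.ord (Yx : ↥(modularFunctionFieldBar (K * 𝔓.p))))
    (hYl : ∀ v : Place Qb ↥(modularFunctionFieldBar (K * 𝔓.p)),
      ((𝔓.p : ℕ) : ℤ) ∣ v.ord (Yl : ↥(modularFunctionFieldBar (K * 𝔓.p))))
    (hYy : ∀ v : Place Qb ↥(modularFunctionFieldBar (K * 𝔓.p)),
      ((𝔓.p : ℕ) : ℤ) ∣ v.ord (Yy : ↥(modularFunctionFieldBar (K * 𝔓.p))))
    (i j : ℕ)
    (hcl : alpfClass 𝔓.hp.ne_zero Yy hYy =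
      i • alpfClass 𝔓.hp.ne_zero Yx hYx + j • alpfClass 𝔓.hp.ne_zero Yl hYl)
    (hE : DlsEis 𝔓 K hK f Yx) (hl : ∀ s, dlsSlope 𝔓 K hK Yl s = 0) : DlsEis 𝔓 K hK f Yy :=
  dlw_eis_of_span f Yx Yl Yy hYx hYl hYy i j hcl hE (dlw_eis_of_slope_zero f hl)

end

end Fermat.Agent.Delta
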