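/-
DELTA / WIRE (helper4), part 18: **(CHAIN) from CORE**.

`DlwCore 𝔓 K hK` is the statement of CORE (helper2's `dlq_eis`) in the shape of the output of
`dlw_chain_kummer` / `dlw_chain_cover`; `dlw_chain_of_core` deduces `DlwChain` for the vertical unit
`dleVertU`, and `dlw_inputs_of_core` the hypothesis `DlwInputs` of `dlw_final`.
-/
import Mathlib
import Fermat.Agent.Lib.Delta.Wire.ChainAux
import Fermat.Agent.Lib.Delta.Wire.Final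
import Fermat.Agent.Lib.Delta.Wire.SlopeLin
import Fermat.Agent.Lib.Delta.NodeX.Vert

set_option autoImplicit false
set_option linter.unusedSectionVars false
set_option linter.unusedVariables false
set_option linter.style.haveILetI false
set_option synthInstance.maxHeartbeats 400000

open HahnSeries ModularCurve AlgebraicCurve Fermat.Agent.T1 Fermat.Agent.T2 Fermat.Agent.TW
  Fermat.Agent.S05Lib Fermat.Agent.Alpha Fermat.Agent.T4 Fermat.Agent.S33 Fermat.Agent.T3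
  Fermat.Agent.Igusa

noncomputable section

namespace Fermat.Agent.Delta

local notation "Qb" => AlgebraicClosure ℚ
local notation "GQ" => (AlgebraicClosure ℚ ≃ₐ[ℚ] AlgebraicClosure ℚ)

attribute [local instance] t2gp_fact
attribute [local instance] s33g_neZero
attribute [local instance] dlw_neZero_p

variable (𝔓 : FFPlace) (K : ℕ) [NeZero K] (hK : ¬ 𝔓.p ∣ K)

/-- **CORE**, in the shape of the output of `dlw_chain_kummer` / `dlw_chain_cover` -/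
def DlwCore : Prop :=
  ∀ (l₀ : JZero (K * 𝔓.p)) (Z : ↥(tbLevF 𝔓 (K * 𝔓.p) (dliH1 𝔓))),
    DliKummer 𝔓 K hK l₀ Z → l₀ ≠ 0 →
  ∀ (u₁ : ↥(tbFix 𝔓 (dliH1 𝔓))), (tbFixO 𝔓 (dliH1 𝔓)).valuation u₁ = 1 →
  ∀ (ζ₁ : ↥(tbFix 𝔓 (dliH1 𝔓))), IsPrimitiveRoot ζ₁ 𝔓.p →
  ∀ (τ₁ : DlyRoot 𝔓.p Z →+* DlyRoot 𝔓.p Z),
    (∀ f : ↥(tbLevF 𝔓 (K * 𝔓.p) (dliH1 𝔓)),
      τ₁ (algebraMap ↥(tbLevF 𝔓 (K * 𝔓.p) (dliH1 𝔓)) (DlyRoot 𝔓.p Z) f) =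
        algebraMap ↥(tbLevF 𝔓 (K * 𝔓.p) (dliH1 𝔓)) (DlyRoot 𝔓.p Z) f) →
    τ₁ (AdjoinRoot.root _) =
      algebraMap ↥(tbLevF 𝔓 (K * 𝔓.p) (dliH1 𝔓)) (DlyRoot 𝔓.p Z)
        (algebraMap ↥(tbFix 𝔓 (dliH1 𝔓)) ↥(tbLevF 𝔓 (K * 𝔓.p) (dliH1 𝔓)) ζ₁) *
          AdjoinRoot.root _ →
  ∀ (H : Subgroup 𝔓.I) (_ : H.FiniteIndex) (_ : H.Normal) (hle : H ≤ dliH1 𝔓)
    (zx : ↥(tbLevF 𝔓 (K * 𝔓.p) H)) (hzx0 : tbPhiF 𝔓 (K * 𝔓.p) H zx ≠ 0),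
    (∀ v : Place Qb ↥(modularFunctionFieldBar (K * 𝔓.p)),
      (𝔓.p : ℤ) ∣ v.ord (tbPhiF 𝔓 (K * 𝔓.p) H zx)) →
  ∀ (r : DlyRoot 𝔓.p (dlqlF 𝔓 hle (K * 𝔓.p) Z)) (z' g : DlyRoot 𝔓.p Z) (n : ℕ),
    r ≠ 0 → z' ≠ 0 → g ≠ 0 →
    dlyRootMap 𝔓.p (dlqlF 𝔓 hle (K * 𝔓.p)) Z z' =
      algebraMap ↥(tbLevF 𝔓 (K * 𝔓.p) H) (DlyRoot 𝔓.p (dlqlF 𝔓 hle (K * 𝔓.p) Z)) zx *
        r ^ 𝔓.p →
    algebraMap ↥(tbLevF 𝔓 (K * 𝔓.p) (dliH1 𝔓)) (DlyRoot 𝔓.p Z)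
        (algebraMap ↥(tbFix 𝔓 (dliH1 𝔓)) ↥(tbLevF 𝔓 (K * 𝔓.p) (dliH1 𝔓)) u₁) ^ n *
      τ₁ z' = g ^ 𝔓.p * z' →
  ∀ (f : (↥(modularFunctionFieldBar (K * 𝔓.p)))ˣ),
    ((f : ↥(modularFunctionFieldBar (K * 𝔓.p))) : LaurentSeries Qb) = unitFinLS Qb 𝔓.p →
    DlsEis 𝔓 K hK f (Units.mk0 (tbPhiF 𝔓 (K * 𝔓.p) H zx) hzx0)

variable {𝔓 K hK}

/-- the automorphism `y ↦ ζ y` of the model `F[X] ⧸ (X ^ p - Z)` -/
theorem dlw_exists_tau {F : Type*} [Field F] {p : ℕ} (Z ζ : F) (hζ : ζ ^ p = 1) :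
    ∃ τ₁ : DlyRoot p Z →+* DlyRoot p Z,
      (∀ f : F, τ₁ (algebraMap F (DlyRoot p Z) f) = algebraMap F (DlyRoot p Z) f) ∧
      τ₁ (AdjoinRoot.root _) = algebraMap F (DlyRoot p Z) ζ * AdjoinRoot.root _ := by
  have h0 : Polynomial.eval₂ (algebraMap F (DlyRoot p Z))
      (algebraMap F (DlyRoot p Z) ζ * AdjoinRoot.root (Polynomial.X ^ p - Polynomial.C Z))
      (Polynomial.X ^ p - Polynomial.C Z : Polynomial F) = 0 := by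
    have h1 := AdjoinRoot.eval₂_root (Polynomial.X ^ p - Polynomial.C Z : Polynomial F)
    rw [Polynomial.eval₂_sub, Polynomial.eval₂_pow, Polynomial.eval₂_X, Polynomial.eval₂_C,
      sub_eq_zero] at h1
    rw [Polynomial.eval₂_sub, Polynomial.eval₂_pow, Polynomial.eval₂_X, Polynomial.eval₂_C,
      mul_pow, h1, ← map_pow, hζ, map_one, one_mul]
    exact sub_self _
  refine ⟨AdjoinRoot.lift (algebraMap F (DlyRoot p Z))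
    (algebraMap F (DlyRoot p Z) ζ * AdjoinRoot.root _) h0, fun f => ?_, ?_⟩
  · exact AdjoinRoot.lift_of h0
  · exact AdjoinRoot.lift_root h0

/-- **(CHAIN) from CORE** -/
theorem dlw_chain_of_core (hcore : DlwCore 𝔓 K hK) (h49 : 4 ∣ K ∨ 9 ∣ K) (hp2 : 2 < 𝔓.p)
    (f : (↥(modularFunctionFieldBar (K * 𝔓.p)))ˣ)
    (hf : ((f : ↥(modularFunctionFieldBar (K * 𝔓.p))) : LaurentSeries Qb) = unitFinLS Qb 𝔓.p) :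
    DlwChain 𝔓 K hK f := by
  intro ζ hζ V L₁ hat hcard htor hstab hA hB
  obtain ⟨hVC, l₀, Z, hl₀, hl₀0, hKum⟩ :=
    dlw_chain_kummer 𝔓 K hK h49 hp2 hζ V L₁ hat hcard htor hA hB
  refine ⟨hVC, fun x hxV hxL Y hY hYx => ?_⟩
  obtain ⟨hZ0, hZ, hcls⟩ := hKum.cls
  obtain ⟨u₁, hu₁, hcov⟩ :=
    dlw_chain_cover 𝔓 K hζ V L₁ hat htor hl₀ hl₀0 Z hZ0 hZ hcls hKum.lc
  -- the automorphism of the cover
  obtain ⟨τ₁, hτof, hτroot⟩ := dlw_exists_tau Z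
    (algebraMap ↥(tbFix 𝔓 (dliH1 𝔓)) ↥(tbLevF 𝔓 (K * 𝔓.p) (dliH1 𝔓)) (dliZeta1 𝔓))
    (by rw [← map_pow, (dliZeta1_prim 𝔓).pow_eq_one, map_one])
  obtain ⟨H, hfi, hnorm, hle, zx, hzx0, hzx, hclsx, r, z', g, n, hr, hz', hg, hrel, hτ⟩ :=
    hcov x hxV hxL (dliZeta1 𝔓) (dliZeta1_prim 𝔓) τ₁ hτof hτroot
  have hE := hcore l₀ Z hKum hl₀0 u₁ hu₁ (dliZeta1 𝔓) (dliZeta1_prim 𝔓) τ₁ hτof hτroot H hfi hnorm
    hle zx hzx0 hzx r z' g n hr hz' hg hrel hτ f hf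
  exact dlw_eis_of_class_eq (f := f) (Y := Units.mk0 (tbPhiF 𝔓 (K * 𝔓.p) H zx) hzx0) (Z := Y)
    hzx hY (hclsx.trans hYx.symm) hE

/-- **`DlwInputs` from CORE** -/
theorem dlw_inputs_of_core
    (hcore : ∀ (𝔓 : FFPlace) (K : ℕ) [NeZero K] (hK : ¬ 𝔓.p ∣ K), 4 ∣ K → 5 ≤ 𝔓.p →
      DlwCore 𝔓 K hK) : DlwInputs := by
  intro 𝔓 K _ hK h4 hp5
  refine ⟨dleVertU (K * 𝔓.p) 𝔓.p (Dvd.intro_left K rfl), ?_, ?_⟩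
  · exact dle_vert_hecke 𝔓 K _ (coe_dleVertU (K * 𝔓.p) 𝔓.p (Dvd.intro_left K rfl))
  · exact dlw_chain_of_core (hcore 𝔓 K hK h4 hp5) (Or.inl h4) (by omega) _
      (coe_dleVertU (K * 𝔓.p) 𝔓.p (Dvd.intro_left K rfl))

end Fermat.Agent.Delta
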