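/-
DELTA / WIRE (helper4), part 11: **a Kummer class `[div(y)/m]` vanishes only for `m`-th powers**
(over an algebraically closed constant field): the converse of `alpfClass_pow`.
-/
import Mathlib
import Fermat.Agent.Lib.Delta.Wire.Push

set_option autoImplicit false
set_option linter.unusedSectionVars false
set_option linter.unusedVariables false
set_option linter.style.haveILetI false

namespace Fermat.Agent.Delta

open AlgebraicCurve ModularCurve Fermat.Agent.Curve Fermat.Agent.T1 Fermat.Agent.T3
  Fermat.Agent.Alpha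

section General

variable {K F : Type*} [Field K] [Field F] [Algebra K F] [CharZero K] [IsAlgClosed K]

/-- a function without zeros and poles is constant -/
theorem dlw_const_of_ord_zero {x : F} (hx : IsFunctionFieldGen K F x) (g : F)
    (hg : ∀ v : Place K F, v.ord g = 0) : g ∈ Set.range (algebraMap K F) := by
  by_contra hne
  have hgen : IsFunctionFieldGen K F g := isFunctionFieldGen_of_notMem_range hx hne
  have h := sum_ord_poles hgen
  have h0 : ∑ᶠ v ∈ {v : Place K F | v.ord g < 0}, - v.ord g = 0 := by
    apply finsum_mem_eq_zero_of_forall_eq_zero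
    intro v hv
    rw [hg v, neg_zero]
  rw [h0] at h
  have hpos : 0 < Module.finrank (IntermediateField.adjoin K {g}) F := by
    haveI := hgen.finite
    exact Module.finrank_pos
  omega

variable [HasPrincipalDivisors K F]

/-- **a vanishing Kummer class comes from an `m`-th power** -/
theorem dlw_class_eq_zero {x : F} (hx : IsFunctionFieldGen K F x) {m : ℕ} (hm : m ≠ 0) (y : Fˣ)
    (hy : ∀ v : Place K F, (m : ℤ) ∣ v.ord (y : F)) (h : alpfClass hm y hy = 0) :
    ∃ t : Fˣ, y = t ^ m := by
  unfold alpfClass Pic0.mk at h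
  rw [QuotientAddGroup.eq_zero_iff, AddSubgroup.mem_addSubgroupOf] at h
  obtain ⟨g, hg0, hg⟩ := h
  have hgv : ∀ v : Place K F, v.ord (y : F) = (m : ℤ) * v.ord g := by
    intro v
    have h1 := hg v
    change alpfDivQuot (K := K) m y v = v.ord g at h1
    rw [alpfDivQuot_apply] at h1
    rw [← h1]
    exact (Int.mul_ediv_cancel' (hy v)).symm
  have hc : (y : F) / g ^ m ∈ Set.range (algebraMap K F) := by
    apply dlw_const_of_ord_zero hx
    intro v
    rw [div_eq_mul_inv, v.ord_mul y.ne_zero (inv_ne_zero (pow_ne_zero _ hg0)), v.ord_inv,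
      ← zpow_natCast, v.ord_zpow, hgv v]
    ring
  obtain ⟨c, hc⟩ := hc
  have hc0 : c ≠ 0 := by
    rintro rfl
    rw [_root_.map_zero] at hc
    have := div_eq_zero_iff.mp hc.symm
    rcases this with h1 | h1
    · exact y.ne_zero h1
    · exact pow_ne_zero _ hg0 h1
  obtain ⟨d, hd⟩ := IsAlgClosed.exists_pow_nat_eq c (Nat.pos_of_ne_zero hm)
  have hd0 : d ≠ 0 := by
    rintro rfl
    rw [zero_pow hm] at hd
    exact hc0 hd.symm
  refine ⟨Units.mk0 (algebraMap K F d * g) (mul_ne_zero
    ((_root_.map_ne_zero_iff _ (algebraMap K F).injective).mpr hd0) hg0), ?_⟩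
  apply Units.ext
  rw [Units.val_pow_eq_pow_val, Units.val_mk0, mul_pow, ← map_pow, hd, hc,
    div_mul_cancel₀ _ (pow_ne_zero _ hg0)]

end General

end Fermat.Agent.Delta
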