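/-
DELTA / WIRE (helper4), part 19: **CORE in the shape `DlwCore`**, from helper2's `dlq_nodes`
(`Core/Main.lean`), helper8's `Core/InstAux.lean` and the case analysis `dlqc_eis`
(`Core/Cases.lean`, here the hypothesis `DlwCases`).
-/
import Mathlib
import Fermat.Agent.Lib.Delta.Wire.Chain
import Fermat.Agent.Lib.Delta.Core.Main
import Fermat.Agent.Lib.Delta.Core.InstAux

set_option autoImplicit false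
set_option linter.unusedSectionVars false
set_option linter.unusedVariables false
set_option linter.style.haveILetI false
set_option synthInstance.maxHeartbeats 400000
set_option maxHeartbeats 1000000

open HahnSeries ModularCurve Fermat.Agent.T1 Fermat.Agent.T2 Fermat.Agent.T4 Fermat.Agent.TW
  Fermat.Agent.S05Lib Fermat.Agent.S24Lib IntermediateField AlgebraicCurve Fermat.Agent.Curve Module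
  Fermat.Agent.S33 Fermat.Agent.S33Q Fermat.Agent.Alpha Fermat.Agent.Igusa

noncomputable section

namespace Fermat.Agent.Delta

local notation "Qb" => AlgebraicClosure ℚ

attribute [local instance] t2i_dvr t2i_isAlgClosed t2i_charP t2i_fact
attribute [local instance 10000] dliAlgF dliAlgE
attribute [local instance] s33g_neZero

variable (𝔓 : FFPlace) (N' : ℕ) [NeZero N'] (h : ¬ 𝔓.p ∣ N') (h49 : 4 ∣ N' ∨ 9 ∣ N')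

/-- the case analysis (`dlqc_eis` of `Core/Cases.lean`), specialised to the tame level `dliH1 𝔓`,
the vertical data `dlqVert` and `δ = 12 (p - 1)` -/
def DlwCases : Prop :=
  ∀ {H : Subgroup 𝔓.I} [H.FiniteIndex] (hle : H ≤ dliH1 𝔓)
    {ϖ : ↥(tbFixO 𝔓 H)} (hϖ : Irreducible ϖ) {n₁ n : ℕ}
    (su₁ : T2Setup (t2iBase2Fix 𝔓 (dliH1 𝔓) N' h) (Fin n₁))
    (hx₁ : su₁.x = t2gaX 𝔓 (dliH1 𝔓) N' h (𝔓.p ^ 2))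
    (hxb₁ : su₁.xb = (s33qXi 𝔓 N', s33qXi 𝔓 N'))
    (su : T2Setup (t2iBase2Fix 𝔓 H N' h) (Fin n))
    (hx : su.x = t2gaX 𝔓 H N' h (𝔓.p ^ 2)) (hxb : su.xb = (s33qXi 𝔓 N', s33qXi 𝔓 N'))
    (zx : ↥(tbLevF 𝔓 (N' * 𝔓.p) H)) (hzx0 : zx ≠ 0)
    (hdiv : ∀ v : Place Qb ↥(modularFunctionFieldBar (N' * 𝔓.p)),
      (𝔓.p : ℤ) ∣ v.ord (tbPhiF 𝔓 (N' * 𝔓.p) H zx))
    (Y f : (↥(modularFunctionFieldBar (N' * 𝔓.p)))ˣ)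
    (hY : (Y : ↥(modularFunctionFieldBar (N' * 𝔓.p))) = tbPhiF 𝔓 (N' * 𝔓.p) H zx)
    (hf : (f : ↥(modularFunctionFieldBar (N' * 𝔓.p))) =
      tbPhiF 𝔓 (N' * 𝔓.p) H (dlxVertD 𝔓 H N'))
    (γ : ℤ)
    (hnode : ∀ (P : Place (IsLocalRing.ResidueField ↥𝔓.P) ↥(tbBarF 𝔓 N'))
      (Q Q' : Place (IsLocalRing.ResidueField ↥𝔓.P) ↥(tbBarF 𝔓 N'))
      (hs : (P, Q) ∈
        (dlxChart1 𝔓 (dliH1 𝔓) (dliPi1_irreducible 𝔓) N' h h49 su₁ hx₁ hxb₁).G.nodes)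
      (hs' : (P, Q') ∈ (dlxChart1 𝔓 H hϖ N' h h49 su hx hxb).G.nodes),
      (𝔓.p : ℤ) ∣ ((dlqVert 𝔓 H hϖ N' h h49 su hx hxb).cross hs').slope zx *
          (12 * ((𝔓.p - 1 : ℕ) : ℤ)) -
        ((dlqVert 𝔓 (dliH1 𝔓) (dliPi1_irreducible 𝔓) N' h h49 su₁ hx₁ hxb₁).cross hs).slope
          (dlxVertD 𝔓 (dliH1 𝔓) N') * γ),
    DlsEis 𝔓 N' h f Y

/-- **CORE** from the case analysis -/
theorem dlw_core_of_cases (hcases : DlwCases 𝔓 N' h h49) (hodd : 𝔓.p ≠ 2) : DlwCore 𝔓 N' h := by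
  intro l₀ Z hKum hl₀0 u₁ hu₁ ζ₁ hζ₁ τ₁ hτof hτroot H hfi hnorm hle zx hzx0 hzx r z' g n hr hz' hg
    hrel hτ f hf
  haveI := hfi
  obtain ⟨hZ0, hZ, hcls⟩ := hKum.cls
  -- irreducibility at both levels
  have hnp : ∀ c : ↥(modularFunctionFieldBar (N' * 𝔓.p)),
      c ^ 𝔓.p ≠ tbPhiF 𝔓 (N' * 𝔓.p) (dliH1 𝔓) Z :=
    dla_npow_of_class_ne_zero (N' * 𝔓.p) 𝔓.hp.ne_zero _ hZ0 hZ (by rw [hcls]; exact hl₀0)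
  haveI hirr₁ : Fact (Irreducible (Polynomial.X ^ 𝔓.p - Polynomial.C Z :
      Polynomial ↥(tbLevF 𝔓 (N' * 𝔓.p) (dliH1 𝔓)))) :=
    ⟨dlqi_irr_base 𝔓 (N' * 𝔓.p) 𝔓.hp Z hnp⟩
  haveI hirr₂ : Fact (Irreducible (Polynomial.X ^ 𝔓.p -
      Polynomial.C (dlqlF 𝔓 hle (N' * 𝔓.p) Z) : Polynomial ↥(tbLevF 𝔓 (N' * 𝔓.p) H))) :=
    ⟨dlqi_irr_level 𝔓 (N' * 𝔓.p) hle 𝔓.hp Z hnp⟩
  -- the setups and a uniformiser at the level `H`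
  obtain ⟨n₁, su₁, hx₁, hxb₁⟩ := s33q_exists_setup_level 𝔓 N' h h49 (dliH1 𝔓)
  obtain ⟨n₂, su, hx, hxb⟩ := s33q_exists_setup_level 𝔓 N' h h49 H
  obtain ⟨ϖ, hϖ⟩ := IsDiscreteValuationRing.exists_irreducible ↥(tbFixO 𝔓 H)
  have hzx' : zx ≠ 0 := fun h0 => hzx0 (by rw [h0, map_zero])
  -- `τ₁` is the `τ` of the cover
  have hτY : ∀ z, τ₁ z = (dlqiCover1 𝔓 N' ζ₁ hζ₁ Z).τ z :=
    dlqiCover1_tau 𝔓 N' ζ₁ hζ₁ Z τ₁ hτof hτroot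
  -- the constant `e`
  obtain ⟨e, he⟩ : ∃ e : ↥(tbLevF 𝔓 (N' * 𝔓.p) (dliH1 𝔓)),
      e = (algebraMap ↥(tbFix 𝔓 (dliH1 𝔓)) ↥(tbLevF 𝔓 (N' * 𝔓.p) (dliH1 𝔓)) u₁ ^ n)⁻¹ := ⟨_, rfl⟩
  have hu0 : algebraMap ↥(tbFix 𝔓 (dliH1 𝔓)) ↥(tbLevF 𝔓 (N' * 𝔓.p) (dliH1 𝔓)) u₁ ≠ 0 := by
    refine (_root_.map_ne_zero _).mpr ?_
    rintro rfl
    rw [map_zero] at hu₁
    exact zero_ne_one hu₁
  have hτz : (dlqiCover1 𝔓 N' ζ₁ hζ₁ Z).τ z' =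
      algebraMap ↥(tbLevF 𝔓 (N' * 𝔓.p) (dliH1 𝔓)) (DlyRoot 𝔓.p Z) e * g ^ 𝔓.p * z' := by
    rw [← hτY, he, map_inv₀, map_pow]
    have ha0 : algebraMap ↥(tbLevF 𝔓 (N' * 𝔓.p) (dliH1 𝔓)) (DlyRoot 𝔓.p Z)
        (algebraMap ↥(tbFix 𝔓 (dliH1 𝔓)) ↥(tbLevF 𝔓 (N' * 𝔓.p) (dliH1 𝔓)) u₁) ^ n ≠ 0 :=
      pow_ne_zero _ ((_root_.map_ne_zero _).mpr hu0)
    rw [mul_assoc, ← hτ, ← mul_assoc, inv_mul_cancel₀ ha0, one_mul]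
  obtain ⟨γ, hγ⟩ := dlq_nodes 𝔓 N' h h49 hle hϖ su₁ hx₁ hxb₁ su hx hxb
    (dlqiCover1 𝔓 N' ζ₁ hζ₁ Z) (dlqiCover2 𝔓 N' ζ₁ hζ₁ hle Z)
    (dlqiCover1_ϖ 𝔓 N' ζ₁ hζ₁ Z) (dlqiCover1_η 𝔓 N' ζ₁ hζ₁ Z)
    (dlyRootMap 𝔓.p (dlqlF 𝔓 hle (N' * 𝔓.p)) Z)
    (dlqiCover_hsq 𝔓 N' hle Z) (dlqiCover_hy 𝔓 N' ζ₁ hζ₁ hle Z)
    (dlqiCover_hϖ₂ 𝔓 N' ζ₁ hζ₁ hle Z) hKum hodd hzx' hr hz' hrel
    (dlqi_hhor 𝔓 (N' * 𝔓.p) hle 𝔓.hp Z hnp hrel hzx) e g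
    (by rw [he]; exact dlqi_hei1 𝔓 (dliH1 𝔓) (dliPi1_irreducible 𝔓) N' h h49 su₁ hx₁ hxb₁ hu₁ n _)
    (by rw [he]; exact dlqi_hez1 𝔓 (dliH1 𝔓) (dliPi1_irreducible 𝔓) N' h h49 su₁ hx₁ hxb₁ hu₁ n _)
    hτz
  have hf' : (f : ↥(modularFunctionFieldBar (N' * 𝔓.p))) =
      tbPhiF 𝔓 (N' * 𝔓.p) H (dlxVertD 𝔓 H N') :=
    Subtype.ext (hf.trans (dlxVertD_phi 𝔓 H N').symm)
  exact hcases hle hϖ su₁ hx₁ hxb₁ su hx hxb zx hzx' hzx (Units.mk0 _ hzx0) f rfl hf' γ hγ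

end Fermat.Agent.Delta
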