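/-
DELTA / WIRE (helper4), part 20: **CORE, unconditionally**.  `dlw_cases` discharges the hypothesis
`DlwCases` of `dlw_core_of_cases` by helper8's `dlqc_eis_of_nodes` (`Core/Cases.lean`);
`dlw_core` is `DlwCore` at every rigid level; `dlw_inputs : DlwInputs` is the hypothesis of
`dlw_final`.
-/
import Mathlib
import Fermat.Agent.Lib.Delta.Wire.Core2
import Fermat.Agent.Lib.Delta.Core.Cases

set_option autoImplicit false
set_option linter.unusedSectionVars false
set_option linter.unusedVariables false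
set_option linter.style.haveILetI false
set_option synthInstance.maxHeartbeats 400000
set_option maxHeartbeats 1000000

open HahnSeries ModularCurve Fermat.Agent.T1 Fermat.Agent.T2 Fermat.Agent.T4 Fermat.Agent.TW
  Fermat.Agent.S05Lib Fermat.Agent.S24Lib IntermediateField AlgebraicCurve Fermat.Agent.Curve Module
  Fermat.Agent.S33 Fermat.Agent.S33Q Fermat.Agent.Alpha Fermat.Agent.Igusa

noncomputable section

namespace Fermat.Agent.Delta

local notation "Qb" => AlgebraicClosure ℚ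

attribute [local instance] t2i_dvr t2i_isAlgClosed t2i_charP t2i_fact
attribute [local instance 10000] dliAlgF dliAlgE
attribute [local instance] s33g_neZero

variable (𝔓 : FFPlace) (N' : ℕ) [NeZero N'] (h : ¬ 𝔓.p ∣ N') (h49 : 4 ∣ N' ∨ 9 ∣ N')

/-- the case analysis, from `dlqc_eis_of_nodes` -/
theorem dlw_cases (hp5 : 5 ≤ 𝔓.p) : DlwCases 𝔓 N' h h49 := by
  intro H _ hle ϖ hϖ n₁ n su₁ hx₁ hxb₁ su hx hxb zx hzx0 hdiv Y f hY hf γ hnode
  exact dlqc_eis_of_nodes 𝔓 N' h h49 hle hϖ su₁ hx₁ hxb₁ su hx hxb hp5 zx hzx0 hdiv Y f hY hf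
    ⟨γ, hnode⟩

/-- **CORE** at every rigid level -/
theorem dlw_core (h49 : 4 ∣ N' ∨ 9 ∣ N') (hp5 : 5 ≤ 𝔓.p) : DlwCore 𝔓 N' h :=
  dlw_core_of_cases 𝔓 N' h h49 (dlw_cases 𝔓 N' h h49 hp5) (by omega)

/-- **the inputs of `dlw_final`** -/
theorem dlw_inputs : DlwInputs :=
  dlw_inputs_of_core (fun 𝔓 K _ hK h4 hp5 => dlw_core 𝔓 K hK (Or.inl h4) hp5)

end Fermat.Agent.Delta
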