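/-
DELTA / WIRE (W3-b) (helper1): **the Galois element moving `x` by a prescribed element of the line**.

`V` a plane (`p ^ 2` elements, killed by `p`) with a line `L₁` (`p` elements), `H₁` a group acting on `V`,
trivially on `L₁` and on `V / L₁`, non-trivially on `V`.  Then for `x ∈ V ∖ L₁` and `0 ≠ l₀ ∈ L₁` there is
`σ ∈ H₁` with `σ x - x = l₀`: the map `σ ↦ σ x - x` is a homomorphism `H₁ → L₁`, non-zero, and `L₁` has
prime order.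
-/
import Mathlib
import Fermat.Agent.Lib.Delta.Wire.Card

set_option autoImplicit false
set_option linter.unusedSectionVars false
set_option linter.unusedVariables false
set_option linter.style.haveILetI false

namespace Fermat.Agent.Delta

variable {A : Type*} [AddCommGroup A] {G : Type*} [Group G] [DistribMulAction G A] {p : ℕ}

/-- the cocycle `σ ↦ σ x - x` is additive on a group acting trivially on its values -/
theorem dlwse_cocycle_mul (L₁ : AddSubgroup A) (H₁ : Subgroup G)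
    (hfixL : ∀ σ ∈ H₁, ∀ l ∈ L₁, σ • l = l) {x : A} (hquot : ∀ σ ∈ H₁, σ • x - x ∈ L₁)
    {σ τ : G} (hσ : σ ∈ H₁) (hτ : τ ∈ H₁) :
    (σ * τ) • x - x = (σ • x - x) + (τ • x - x) := by
  have h1 : σ • (τ • x - x) = τ • x - x := hfixL σ hσ _ (hquot τ hτ)
  rw [smul_sub] at h1
  rw [mul_smul]
  have h2 : σ • τ • x = τ • x - x + σ • x := by rw [← h1]; abel
  rw [h2]
  abel

theorem dlwse_cocycle_pow (L₁ : AddSubgroup A) (H₁ : Subgroup G)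
    (hfixL : ∀ σ ∈ H₁, ∀ l ∈ L₁, σ • l = l) {x : A} (hquot : ∀ σ ∈ H₁, σ • x - x ∈ L₁)
    {σ : G} (hσ : σ ∈ H₁) (j : ℕ) : (σ ^ j) • x - x = j • (σ • x - x) := by
  induction j with
  | zero => rw [pow_zero, one_smul, sub_self, zero_smul]
  | succ j ih =>
    rw [pow_succ, dlwse_cocycle_mul L₁ H₁ hfixL hquot (H₁.pow_mem hσ j) hσ, ih, succ_nsmul]

/-- **existence of `σ ∈ H₁` with `σ x - x = l₀`** -/
theorem dlwse_exists (hp : p.Prime) (V L₁ : AddSubgroup A) (hLV : L₁ ≤ V)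
    (hV : Nat.card V = p ^ 2) (hL : Nat.card L₁ = p) (htor : ∀ x ∈ V, p • x = 0)
    (hstab : ∀ σ : G, ∀ x ∈ V, σ • x ∈ V) (H₁ : Subgroup G)
    (hfixL : ∀ σ ∈ H₁, ∀ l ∈ L₁, σ • l = l) (hquot : ∀ σ ∈ H₁, ∀ x ∈ V, σ • x - x ∈ L₁)
    (hnontriv : ∃ σ ∈ H₁, ∃ x ∈ V, σ • x ≠ x) {x l₀ : A} (hx : x ∈ V) (hxL : x ∉ L₁)
    (hl : l₀ ∈ L₁) (hl0 : l₀ ≠ 0) : ∃ σ ∈ H₁, σ • x - x = l₀ := by
  obtain ⟨σ₀, hσ₀, x', hx', hne⟩ := hnontriv
  obtain ⟨-, hspan⟩ := dlwc_span hp V L₁ hLV hV hL htor hx hxL hl hl0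
  obtain ⟨i, j, rfl⟩ := hspan x' hx'
  -- `σ₀ x - x ≠ 0`
  have ha0 : σ₀ • x - x ≠ 0 := by
    intro h0
    apply hne
    have h1 : σ₀ • x = x := sub_eq_zero.mp h0
    rw [smul_add, smul_comm σ₀ i x, smul_comm σ₀ j l₀, h1, hfixL σ₀ hσ₀ l₀ hl]
  have haL : σ₀ • x - x ∈ L₁ := hquot σ₀ hσ₀ x hx
  obtain ⟨j', hj'⟩ := dlwc_line hp L₁ hL haL ha0 l₀ hl
  refine ⟨σ₀ ^ j', H₁.pow_mem hσ₀ j', ?_⟩
  rw [dlwse_cocycle_pow L₁ H₁ hfixL (fun σ hσ => hquot σ hσ x hx) hσ₀ j', hj']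

end Fermat.Agent.Delta
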